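import Fermat.Agent.ArtinReciprocity.Abelian
import Fermat.Agent.ArtinL.Defs
import Fermat.Agent.NaturalChebotarev.Euler

/-!
# Linear characters: Artin L-series are Hecke L-series

For a faithful linear character of an abelian extension the local factor at a ramified prime is
trivial and at any other prime that of the ray class character given by reciprocity; an arbitrary
linear character is inflated from the fixed field of its kernel.
-/

set_option autoImplicit false
set_option linter.unusedSectionVars false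
set_option linter.style.haveILetI false

noncomputable section

open NumberField IsDedekindDomain Finset
open FA.Hecke (IsRayChar IsNontrivial heckeL logF fPow rayCharFn rayCharFn_apply
  isRayChar_rayCharFn rayClass rayClass_surjective coprimeIdeals)
open FA.Ext (primeIdeal)
open FA.ArtinL (artinL artinLog artinL_inflation coef localMean IsFrobPow term coef_eq summable_term card_isFrobPow
  mul_inv_mem_inertia_iff primeOver under_primeOver)
open scoped Pointwise nonZeroDivisors Classical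

namespace FA.ArtinRec

section faithful

variable {K L : Type*} [Field K] [NumberField K] [Field L] [NumberField L] [Algebra K L]
  [IsGalois K L] [IsMulCommutative (L ≃ₐ[K] L)] (ψ : (L ≃ₐ[K] L) →* ℂˣ)

theorem isFrobPow_pow {Q : Ideal (𝓞 L)} {τ : L ≃ₐ[K] L} (h : IsArithFrobAt (𝓞 K) τ Q) :
    ∀ j : ℕ, IsFrobPow K Q j (τ ^ j) := by
  intro j
  induction j with
  | zero => intro x; simp
  | succ j ih =>
    intro x
    have h1 : τ • τ ^ j • x - (τ ^ j • x) ^ FA.ArtinL.resCard K Q ∈ Q := h (τ ^ j • x)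
    have h2 : (τ ^ j • x) ^ FA.ArtinL.resCard K Q - (x ^ FA.ArtinL.resCard K Q ^ j) ^
        FA.ArtinL.resCard K Q ∈ Q := Q.mem_of_dvd (sub_dvd_pow_sub_pow _ _ _) (ih x)
    rw [pow_succ', mul_smul, pow_succ, pow_mul]
    simpa only [sub_add_sub_cancel] using Q.add_mem h1 h2

/-- At an unramified prime the coefficients are the powers of the symbol. -/
theorem coef_of_not_isRam {v : HeightOneSpectrum (𝓞 K)} (hv : ¬ IsRam L v) (j : ℕ) :
    coef (fun σ => (ψ σ : ℂ)) v j = (ψ (artinAt L v) : ℂ) ^ j := by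
  obtain ⟨Q, hQ, hτ⟩ := artinAt_spec (L := L) v
  haveI := Q.isMaximal
  rw [coef_eq (fun g x => by simp) (congrArg HeightOneSpectrum.asIdeal hQ), localMean]
  have hfilt : Finset.univ.filter (fun σ => IsFrobPow K Q.asIdeal j σ) = {artinAt L v ^ j} := by
    ext σ
    rw [Finset.mem_filter, Finset.mem_singleton, ← mul_inv_mem_inertia_iff K (isFrobPow_pow hτ j),
      inertia_eq_bot hv hQ, Subgroup.mem_bot, mul_inv_eq_one]
    simp
  rw [hfilt, Finset.sum_singleton, inertia_eq_bot hv hQ, Subgroup.card_bot]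
  simp

/-- At a ramified prime a faithful character has no coefficients. -/
theorem coef_of_isRam (hψ : Function.Injective ψ) {v : HeightOneSpectrum (𝓞 K)} (hv : IsRam L v)
    (j : ℕ) : coef (fun σ => (ψ σ : ℂ)) v j = 0 := by
  obtain ⟨Q, hQ, hI⟩ := hv
  haveI := Q.isMaximal
  rw [coef_eq (fun g x => by simp) (congrArg HeightOneSpectrum.asIdeal hQ), localMean]
  obtain ⟨⟨ι, hι⟩, hι1⟩ := Subgroup.ne_bot_iff_exists_ne_one.1 hI
  set A := Finset.univ.filter fun σ => IsFrobPow K Q.asIdeal j σ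
  have hA : ∀ σ, σ ∈ A ↔ ι * σ ∈ A := fun σ => by
    simp only [A, Finset.mem_filter, Finset.mem_univ, true_and]
    constructor
    · exact fun h => (mul_inv_mem_inertia_iff K h).1 (by rwa [mul_inv_cancel_right])
    · exact fun h => (mul_inv_mem_inertia_iff K h).1 (by
        rw [mul_inv_rev, mul_inv_cancel_left]; exact inv_mem hι)
  have hsum : ∑ σ ∈ A, (ψ σ : ℂ) = (ψ ι : ℂ) * ∑ σ ∈ A, (ψ σ : ℂ) := by
    rw [Finset.mul_sum]
    refine (Finset.sum_equiv (Equiv.mulLeft ι) hA fun σ _ => ?_).symm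
    simp
  have hne : (ψ ι : ℂ) ≠ 1 := fun h => hι1 (Subtype.ext (hψ (by
    show ψ ι = ψ 1
    rw [map_one]; exact Units.ext (by simpa using h))))
  have h0 : ((ψ ι : ℂ) - 1) * ∑ σ ∈ A, (ψ σ : ℂ) = 0 := by
    rw [sub_mul, one_mul, ← hsum, sub_self]
  rw [(mul_eq_zero.1 h0).resolve_left (sub_ne_zero.2 hne), mul_zero]

/-- **A faithful linear character gives a Hecke L-series.** -/
theorem exists_hecke_faithful (hψ : Function.Injective ψ) :
    ∃ (𝔪 : Ideal (𝓞 K)) (f : Ideal (𝓞 K) →* ℂ), IsRayChar 𝔪 f ∧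
      (IsNontrivial f ↔ ψ ≠ 1) ∧
      ∀ s : ℂ, 1 < s.re → artinL (fun σ => (ψ σ : ℂ)) s = heckeL f s := by
  obtain ⟨𝔪, h𝔪, hiff, ω, hsurj, -, hω⟩ := exists_artinRayHom (K := K) (L := L)
  set f := rayCharFn h𝔪 (ψ.comp ω) with hf
  have hray : IsRayChar 𝔪 f := isRayChar_rayCharFn h𝔪 _
  refine ⟨𝔪, f, hray, ⟨fun ⟨I, hI, h0, h1⟩ he => h1 ?_, fun hne => ?_⟩, fun s hs => ?_⟩
  · let I' : coprimeIdeals 𝔪 :=
      ⟨⟨I, mem_nonZeroDivisors_iff_ne_zero.mpr hI⟩, (hray.ne_zero_iff I hI).1 h0⟩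
    rw [show I = I'.1.1 from rfl, hf, rayCharFn_apply, MonoidHom.comp_apply, he]
    simp
  · obtain ⟨σ, hσ⟩ : ∃ σ, ψ σ ≠ 1 := not_forall.1 fun h => hne (MonoidHom.ext h)
    obtain ⟨γ, rfl⟩ := hsurj σ
    obtain ⟨I, rfl⟩ := rayClass_surjective h𝔪 γ
    refine ⟨I.1.1, nonZeroDivisors.coe_ne_zero I.1, ?_, ?_⟩ <;> rw [hf, rayCharFn_apply]
    · exact Units.ne_zero _
    · exact fun h => hσ (Units.ext h)
  rw [← hray.exp_logF hs, artinL, artinLog, (summable_term hs _).tsum_prod, logF]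
  congr 1
  refine tsum_congr fun v => ?_
  by_cases hv : IsRam L v
  · have hc : ¬ v.asIdeal ⊔ 𝔪 = ⊤ := fun h =>
      (sup_eq_top_iff_not_le v 𝔪).1 h (Ideal.le_of_dvd ((hiff v).2 hv))
    rw [fPow, hray.eq_zero_of_not v.ne_bot hc, zero_mul, sub_zero, Complex.log_one, neg_zero]
    simp [term, coef_of_isRam ψ hψ hv]
  · have hc : v.asIdeal ⊔ 𝔪 = ⊤ := (sup_eq_top_iff_not_le v 𝔪).2 fun h =>
      hv ((hiff v).1 (Ideal.dvd_iff_le.2 h))
    have hfv : f v.asIdeal = (ψ (artinAt L v) : ℂ) := by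
      rw [hf, show v.asIdeal = (⟨primeIdeal v, hc⟩ : coprimeIdeals 𝔪).1.1 from rfl, rayCharFn_apply,
        MonoidHom.comp_apply, hω]
      exact congrArg (fun g => (ψ g : ℂ)) (artinHom_prime v)
    have hlt : ‖fPow f s v‖ < 1 := lt_of_le_of_lt (hray.norm_fPow_le_half hs.le v) (by norm_num)
    rw [← (Complex.hasSum_taylorSeries_neg_log' hlt).tsum_eq]
    refine tsum_congr fun k => ?_
    rw [term, coef_of_not_isRam ψ hv, ← hfv, ← mul_pow]
    rfl

end faithful

variable {K L : Type*} [Field K] [NumberField K] [Field L] [NumberField L] [Algebra K L]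
  [IsGalois K L]

/-- **Every linear character gives a Hecke L-series of finite order.** -/
theorem exists_hecke (ψ : (L ≃ₐ[K] L) →* ℂˣ) :
    ∃ (𝔪 : Ideal (𝓞 K)) (f : Ideal (𝓞 K) →* ℂ), IsRayChar 𝔪 f ∧
      (IsNontrivial f ↔ ψ ≠ 1) ∧
      ∀ s : ℂ, 1 < s.re → artinL (fun σ => (ψ σ : ℂ)) s = heckeL f s := by
  haveI : ψ.ker.Normal := MonoidHom.normal_ker ψ
  let M := IntermediateField.fixedField ψ.ker
  haveI : IsGalois K M := IsGalois.of_fixedField_normal_subgroup ψ.ker
  set res : (L ≃ₐ[K] L) →* (M ≃ₐ[K] M) := AlgEquiv.restrictNormalHom M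
  have hsurj : Function.Surjective res := AlgEquiv.restrictNormalHom_surjective L
  have hker : res.ker = ψ.ker :=
    (IntermediateField.restrictNormalHom_ker M).trans
      (IntermediateField.fixingSubgroup_fixedField ψ.ker)
  set ψM : (M ≃ₐ[K] M) →* ℂˣ := res.liftOfSurjective hsurj ⟨ψ, hker.le⟩
  have hψM : ∀ σ, ψM (res σ) = ψ σ := fun σ =>
    DFunLike.congr_fun (MonoidHom.liftOfRightInverse_comp res _
      (Function.rightInverse_surjInv hsurj) ⟨ψ, hker.le⟩) σ
  have hinj : Function.Injective ψM := (injective_iff_map_eq_one ψM).2 fun x hx => by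
    obtain ⟨σ, rfl⟩ := hsurj x
    rw [hψM] at hx
    rwa [← MonoidHom.mem_ker, ← hker, MonoidHom.mem_ker] at hx
  haveI : IsMulCommutative (M ≃ₐ[K] M) :=
    ⟨⟨fun a b => hinj (by rw [map_mul, map_mul, mul_comm])⟩⟩
  obtain ⟨𝔪, f, hf, hnt, h⟩ := exists_hecke_faithful ψM hinj
  refine ⟨𝔪, f, hf, hnt.trans ⟨fun hne he => hne (MonoidHom.ext fun x => ?_),
    fun hne he => hne (MonoidHom.ext fun σ => by rw [← hψM, he]; rfl)⟩, fun s hs => ?_⟩
  · obtain ⟨σ, rfl⟩ := hsurj x
    rw [hψM, he]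
    rfl
  rw [← h s hs, ← artinL_inflation (K := K) (M := M) (L := L) (f := fun σ => (ψM σ : ℂ))
    (fun g x => by simp) s]
  exact congrArg (fun g => artinL g s) (funext fun σ => congrArg Units.val (hψM σ).symm)

end FA.ArtinRec
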