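import Fermat.Agent.ArtinReciprocity.Units

/-!
# The orders of norms

The order at a prime `v` of `K` of the norm of an ideal or element of a Galois extension is the
residue degree times the sum of the orders at the primes over `v`; for unramified `v` the residue
degree is the order of the decomposition group.
-/

set_option autoImplicit false
set_option linter.unusedSectionVars false
set_option linter.style.haveILetI false

noncomputable section

open NumberField IsDedekindDomain Finset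
open scoped Pointwise nonZeroDivisors Classical

namespace FA.ArtinRec

section base

variable {F : Type*} [Field F] [NumberField F]

/-- The multiplicity of a prime in an ideal. -/
def ordI (v : HeightOneSpectrum (𝓞 F)) (I : Ideal (𝓞 F)) : ℕ := multiplicity v.asIdeal I

theorem ordI_mul (v : HeightOneSpectrum (𝓞 F)) {I J : Ideal (𝓞 F)} (hI : I ≠ ⊥) (hJ : J ≠ ⊥) :
    ordI v (I * J) = ordI v I + ordI v J :=
  multiplicity_mul v.prime (FiniteMultiplicity.of_prime_left v.prime (mul_ne_zero hI hJ))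

theorem ord_intU_eq_ordI (v : HeightOneSpectrum (𝓞 F)) {r : 𝓞 F} (hr : r ≠ 0) :
    ord v (intU r hr) = ordI v (Ideal.span {r}) := ord_intU v hr

theorem ordI_prime (v w : HeightOneSpectrum (𝓞 F)) :
    ordI v w.asIdeal = if v = w then 1 else 0 := multiplicity_prime_self w v

theorem ordI_eq_zero_iff (v : HeightOneSpectrum (𝓞 F)) {I : Ideal (𝓞 F)} :
    ordI v I = 0 ↔ ¬ v.asIdeal ∣ I := multiplicity_eq_zero

theorem ordI_top (v : HeightOneSpectrum (𝓞 F)) : ordI v ⊤ = 0 :=
  (ordI_eq_zero_iff v).2 fun h => v.isPrime.ne_top (top_le_iff.1 (Ideal.le_of_dvd h))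

theorem finite_ordI_ne_zero {I : Ideal (𝓞 F)} (hI : I ≠ ⊥) :
    {v | ordI v I ≠ 0}.Finite :=
  (Ideal.finite_factors hI).subset fun v hv => by
    rwa [Set.mem_ofPred_eq, Ne, ordI_eq_zero_iff, not_not] at hv

theorem ordI_pow (v : HeightOneSpectrum (𝓞 F)) {I : Ideal (𝓞 F)} (hI : I ≠ ⊥) (k : ℕ) :
    ordI v (I ^ k) = k * ordI v I := by
  induction k with
  | zero => rw [pow_zero, Ideal.one_eq_top, ordI_top, zero_mul]
  | succ k ih => rw [pow_succ, ordI_mul v (pow_ne_zero k hI) hI, ih, Nat.succ_mul]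

theorem ordI_prod (v : HeightOneSpectrum (𝓞 F)) {ι : Type*} (s : Finset ι) (f : ι → Ideal (𝓞 F))
    (hf : ∀ i ∈ s, f i ≠ ⊥) : ordI v (∏ i ∈ s, f i) = ∑ i ∈ s, ordI v (f i) := by
  induction s using Finset.induction with
  | empty => rw [prod_empty, sum_empty, Ideal.one_eq_top, ordI_top]
  | insert a s ha ih =>
    rw [prod_insert ha, sum_insert ha, ordI_mul v (hf a (mem_insert_self _ _))
      (Finset.prod_ne_zero_iff.2 fun i hi => hf i (mem_insert_of_mem hi)),
      ih fun i hi => hf i (mem_insert_of_mem hi)]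

end base

variable {K L : Type*} [Field K] [NumberField K] [Field L] [NumberField L] [Algebra K L]
  [IsGalois K L]

/-- The residue degree. -/
def fDeg (L : Type*) [Field L] [NumberField L] [Algebra K L] (v : HeightOneSpectrum (𝓞 K)) : ℕ :=
  Ideal.inertiaDegIn v.asIdeal (𝓞 L)

theorem relNorm_prime (Q : HeightOneSpectrum (𝓞 L)) :
    Ideal.relNorm (𝓞 K) Q.asIdeal = (belowP K Q).asIdeal ^ fDeg L (belowP K Q) := by
  haveI := Q.isMaximal
  haveI := (belowP K Q).isMaximal
  haveI : Q.asIdeal.LiesOver (belowP K Q).asIdeal := ⟨rfl⟩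
  rw [Ideal.relNorm_eq_pow_of_isMaximal Q.asIdeal (belowP K Q).asIdeal, fDeg,
    Ideal.inertiaDegIn_eq_inertiaDeg (belowP K Q).asIdeal Q.asIdeal (L ≃ₐ[K] L)]

theorem relNorm_ne_bot {J : Ideal (𝓞 L)} (hJ : J ≠ ⊥) : Ideal.relNorm (𝓞 K) J ≠ ⊥ :=
  fun h => hJ (Ideal.relNorm_eq_bot_iff.1 h)

/-- **The orders of the norm of an ideal.** -/
theorem ordI_relNorm (v : HeightOneSpectrum (𝓞 K)) {J : Ideal (𝓞 L)} (hJ : J ≠ ⊥) :
    ordI v (Ideal.relNorm (𝓞 K) J) =
      fDeg L v * ∑ Q ∈ (finite_belowP (L := L) v).toFinset, ordI Q J := by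
  induction J using UniqueFactorizationMonoid.induction_on_prime with
  | h₁ => exact absurd rfl hJ
  | h₂ J hJ' =>
    rw [Ideal.isUnit_iff.1 hJ', Ideal.relNorm_top, ordI_top,
      Finset.sum_eq_zero fun Q _ => ordI_top Q, mul_zero]
  | h₃ J p hJ0 hp ih =>
    have hJ' : J ≠ ⊥ := hJ0
    let P : HeightOneSpectrum (𝓞 L) := ⟨p, Ideal.isPrime_of_prime hp, hp.ne_zero⟩
    rw [map_mul, ordI_mul v (relNorm_ne_bot hp.ne_zero) (relNorm_ne_bot hJ'), ih hJ',
      show p = P.asIdeal from rfl, relNorm_prime, ordI_pow v (belowP K P).ne_bot, ordI_prime,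
      Finset.sum_congr rfl fun Q _ => show ordI Q (P.asIdeal * J) = (if Q = P then 1 else 0) +
        ordI Q J by rw [ordI_mul Q P.ne_bot hJ', ordI_prime],
      Finset.sum_add_distrib, mul_add, Finset.sum_ite_eq']
    congr 1
    by_cases h : v = belowP K P
    · subst h
      rw [if_pos rfl, if_pos ((finite_belowP (L := L) _).mem_toFinset.2 rfl)]
    · rw [if_neg h, if_neg fun hm => h ((finite_belowP (L := L) v).mem_toFinset.1 hm).symm,
        mul_zero, mul_zero]

/-- The norm of the nonzero elements. -/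
def normU' : Lˣ →* Kˣ := Units.map (Algebra.norm K (S := L))

theorem span_norm (r : 𝓞 L) :
    Ideal.relNorm (𝓞 K) (Ideal.span {r}) = Ideal.span {RingOfIntegers.norm K r} := by
  rw [Ideal.relNorm_singleton]
  congr 2
  exact IsFractionRing.injective (𝓞 K) K (Algebra.algebraMap_intNorm (L := L) r)

/-- **The orders of the norm of an element.** -/
theorem ord_normU' (v : HeightOneSpectrum (𝓞 K)) (x : Lˣ) :
    ord v (normU' x) = fDeg L v * ∑ Q ∈ (finite_belowP (L := L) v).toFinset, ord Q x := by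
  have key : ∀ (r : 𝓞 L) (hr : r ≠ 0), ord v (normU' (intU r hr)) =
      fDeg L v * ∑ Q ∈ (finite_belowP (L := L) v).toFinset, ord Q (intU r hr) := fun r hr => by
    have hr' : Ideal.span {r} ≠ ⊥ := by simpa using hr
    have hn : RingOfIntegers.norm K r ≠ 0 := fun h =>
      relNorm_ne_bot (K := K) hr' (by rw [span_norm, h, Ideal.span_singleton_eq_bot])
    rw [show normU' (intU r hr) = intU (RingOfIntegers.norm K r) hn from Units.ext rfl,
      ord_intU_eq_ordI, ← span_norm, ordI_relNorm v hr']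
    push_cast
    simp only [ord_intU_eq_ordI]
  obtain ⟨a, b, ha, hb, rfl⟩ := exists_intU_div x
  rw [map_div, ord_div, key, key, ← mul_sub, ← Finset.sum_sub_distrib]
  simp only [ord_div]

theorem fDeg_ne_zero (v : HeightOneSpectrum (𝓞 K)) : fDeg L v ≠ 0 := by
  haveI := v.isMaximal
  exact Ideal.inertiaDegIn_ne_zero (L ≃ₐ[K] L)

/-- **An unramified prime: the decomposition group has the residue degree as order.** -/
theorem finIdx_eq_fDeg {v : HeightOneSpectrum (𝓞 K)} (h : ¬ IsRam L v) :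
    finIdx L v = fDeg L v := by
  haveI := v.isMaximal
  obtain ⟨Q, hQ⟩ := exists_belowP K L v
  haveI : Q.asIdeal.LiesOver v.asIdeal := ⟨(congrArg HeightOneSpectrum.asIdeal hQ).symm⟩
  have hfund := Ideal.ncard_primesOver_mul_ramificationIdxIn_mul_inertiaDegIn v.asIdeal (𝓞 L)
    (L ≃ₐ[K] L)
  have he : v.asIdeal.ramificationIdxIn (𝓞 L) = 1 := by
    rw [Ideal.ramificationIdxIn_eq_ramificationIdx v.asIdeal Q.asIdeal (L ≃ₐ[K] L),
      ← Ideal.ramificationIdx'_eq_ramificationIdx v.asIdeal Q.asIdeal v.ne_bot]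
    have h1 := eIdx_eq_one (K := K) (Q := Q) (by rwa [hQ])
    rwa [eIdx, hQ] at h1
  have hcard : (v.asIdeal.primesOver (𝓞 L)).ncard =
      Nat.card {Q : HeightOneSpectrum (𝓞 L) // belowP K Q = v} := by
    rw [← Nat.card_coe_set_eq]
    refine (Nat.card_eq_of_bijective (fun P : {Q : HeightOneSpectrum (𝓞 L) // belowP K Q = v} =>
      (⟨P.1.asIdeal, P.1.isPrime, ⟨(congrArg HeightOneSpectrum.asIdeal P.2).symm⟩⟩ :
        v.asIdeal.primesOver (𝓞 L))) ⟨fun a b h => Subtype.ext (HeightOneSpectrum.ext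
          (congrArg Subtype.val h :)), fun P => ?_⟩).symm
    obtain ⟨hP, hPv⟩ := P.2
    exact ⟨⟨⟨P.1, hP, Ideal.ne_bot_of_liesOver_of_ne_bot v.ne_bot P.1⟩,
      HeightOneSpectrum.ext hPv.over.symm⟩, rfl⟩
  rw [he, one_mul, hcard, IsGalois.card_aut_eq_finrank] at hfund
  have hpos : 0 < Nat.card {Q : HeightOneSpectrum (𝓞 L) // belowP K Q = v} := by
    rcases Nat.eq_zero_or_pos (Nat.card {Q : HeightOneSpectrum (𝓞 L) // belowP K Q = v}) with
      h0 | h0
    · rw [h0, zero_mul] at hfund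
      exact absurd hfund Module.finrank_pos.ne
    · exact h0
  rw [finIdx, ← hfund, Nat.mul_div_cancel_left _ hpos]
  rfl

end FA.ArtinRec
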