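import Fermat.Agent.ArtinReciprocity.Cyclic
import Mathlib.GroupTheory.FiniteAbelian.Duality
import Mathlib.RingTheory.RootsOfUnity.AlgebraicallyClosed

/-!
# Artin reciprocity

For a finite abelian extension of number fields the Artin symbol factors through a narrow ray
class group with modulus at the ramified primes, onto the Galois group, with kernel generated by
the classes of the norms: cyclic quotients give the first, the second inequality the last.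
-/

set_option autoImplicit false
set_option linter.unusedSectionVars false
set_option linter.style.haveILetI false

noncomputable section

open NumberField IsDedekindDomain Finset
open FA.Hecke (IsRayElt coprimeIdeals rayCon rayClass RayClassGroup rayClass_eq_iff
  finite_rayClassGroup)
open FA.Ext (primeIdeal)
open scoped Pointwise nonZeroDivisors Classical

namespace FA.ArtinRec

variable {K L : Type*} [Field K] [NumberField K] [Field L] [NumberField L] [Algebra K L]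
  [IsGalois K L] [IsMulCommutative (L ≃ₐ[K] L)]

/-- A cyclic subextension seeing a given element. -/
theorem exists_cyclic_subfield {g : L ≃ₐ[K] L} (hg : g ≠ 1) :
    ∃ E : IntermediateField K L, ∃ _ : IsGalois K E,
      IsCyclic (E ≃ₐ[K] E) ∧ AlgEquiv.restrictNormalHom E g ≠ 1 := by
  let _ : CommGroup (L ≃ₐ[K] L) := { (inferInstance : Group (L ≃ₐ[K] L)) with mul_comm := mul_comm' }
  obtain ⟨φ, hφ⟩ := CommGroup.exists_apply_ne_one_of_hasEnoughRootsOfUnity (L ≃ₐ[K] L) ℂ hg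
  haveI : φ.ker.Normal := MonoidHom.normal_ker φ
  let E : IntermediateField K L := IntermediateField.fixedField φ.ker
  haveI hE : IsGalois K E := inferInstance
  have hker : (AlgEquiv.restrictNormalHom E : (L ≃ₐ[K] L) →* (E ≃ₐ[K] E)).ker = φ.ker :=
    (IntermediateField.restrictNormalHom_ker E).trans (IntermediateField.fixingSubgroup_fixedField _)
  haveI : IsCyclic φ.range :=
    isCyclic_of_injective_ringHom ((Units.coeHom ℂ).comp φ.range.subtype)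
      (Units.val_injective.comp φ.range.subtype_injective)
  obtain ⟨⟨_, h₁, rfl⟩, hgen⟩ := IsCyclic.exists_generator (α := φ.range)
  refine ⟨E, hE, ⟨⟨AlgEquiv.restrictNormalHom E h₁, fun x => ?_⟩⟩, fun h => hφ ?_⟩
  · obtain ⟨y, rfl⟩ := AlgEquiv.restrictNormalHom_surjective (F := K) (K₁ := E) L x
    obtain ⟨i, hi⟩ := hgen ⟨φ y, y, rfl⟩
    have hi' : φ h₁ ^ i = φ y := by simpa using congrArg Subtype.val hi
    refine ⟨i, ?_⟩
    have hmem : h₁ ^ i * y⁻¹ ∈ (AlgEquiv.restrictNormalHom E : (L ≃ₐ[K] L) →* (E ≃ₐ[K] E)).ker := by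
      rw [hker, MonoidHom.mem_ker, map_mul, map_zpow, map_inv, hi', mul_inv_cancel]
    rw [MonoidHom.mem_ker, map_mul, map_zpow, map_inv, mul_inv_eq_one] at hmem
    exact hmem
  · rwa [← MonoidHom.mem_ker, ← hker, MonoidHom.mem_ker]

/-- A smaller modulus. -/
theorem rayClass_eq_of_le {𝔪 𝔫 : Ideal (𝓞 K)} (h𝔪 : 𝔪 ≠ ⊥) (h𝔫 : 𝔫 ≠ ⊥) (hle : 𝔪 ≤ 𝔫)
    {I J : coprimeIdeals 𝔪} (h : rayClass h𝔪 I = rayClass h𝔪 J) (hI : I.1 ∈ coprimeIdeals 𝔫)
    (hJ : J.1 ∈ coprimeIdeals 𝔫) : rayClass h𝔫 ⟨I.1, hI⟩ = rayClass h𝔫 ⟨J.1, hJ⟩ := by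
  obtain ⟨x, y, hx, hy, hxy⟩ := (rayClass_eq_iff h𝔪).1 h
  exact (rayClass_eq_iff h𝔫).2
    ⟨x, y, ⟨hx.1, hle hx.2.1, hx.2.2⟩, ⟨hy.1, hle hy.2.1, hy.2.2⟩, hxy⟩

/-- The symbol restricts. -/
theorem restrict_artinHom (E : IntermediateField K L) [IsGalois K E]
    [IsMulCommutative (E ≃ₐ[K] E)] {𝔪 : Ideal (𝓞 K)} (hram : ∀ v, IsRam L v → 𝔪 ≤ v.asIdeal)
    (I : coprimeIdeals 𝔪) :
    AlgEquiv.restrictNormalHom E (artinHom L I.1) = artinHom E I.1 := by
  have h : ((AlgEquiv.restrictNormalHom E : (L ≃ₐ[K] L) →* (E ≃ₐ[K] E)).comp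
      ((artinHom L).comp (coprimeIdeals 𝔪).subtype)) =
      ((artinHom E).comp (coprimeIdeals 𝔪).subtype) := by
    let _ : CommMonoid (E ≃ₐ[K] E) :=
      { (inferInstance : Monoid (E ≃ₐ[K] E)) with mul_comm := mul_comm' }
    refine hom_ext_primes fun v hv => ?_
    show AlgEquiv.restrictNormalHom E (artinHom L (primeIdeal v)) = artinHom E (primeIdeal v)
    rw [artinHom_prime, artinHom_prime]
    obtain ⟨Q, hQ, hτ⟩ := artinAt_spec (L := L) v
    exact restrict_frob (L := E) (fun hr => (sup_eq_top_iff_not_le v 𝔪).1 hv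
      (hram v (isRam_of_tower hr))) hQ hτ
  exact DFunLike.congr_fun h I

/-- **The symbol only depends on the ray class.** -/
theorem exists_modulus :
    ∃ (𝔪 : Ideal (𝓞 K)) (h𝔪 : 𝔪 ≠ ⊥), (∀ v : HeightOneSpectrum (𝓞 K), v.asIdeal ∣ 𝔪 ↔ IsRam L v) ∧
      ∀ I J : coprimeIdeals 𝔪, rayClass h𝔪 I = rayClass h𝔪 J →
        artinHom L I.1 = artinHom L J.1 := by
  have hsub : ∀ g : L ≃ₐ[K] L, ∃ 𝔫 : Ideal (𝓞 K), 𝔫 ≠ ⊥ ∧
      (∀ v : HeightOneSpectrum (𝓞 K), v.asIdeal ∣ 𝔫 → IsRam L v) ∧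
      (g ≠ 1 → ∀ (𝔪 : Ideal (𝓞 K)) (h𝔪 : 𝔪 ≠ ⊥), 𝔪 ≤ 𝔫 → (∀ v, IsRam L v → 𝔪 ≤ v.asIdeal) →
        ∀ I J : coprimeIdeals 𝔪, rayClass h𝔪 I = rayClass h𝔪 J →
          artinHom L I.1 * (artinHom L J.1)⁻¹ ≠ g) := by
    intro g
    by_cases hg : g = 1
    · exact ⟨⊤, top_ne_bot, fun v hv => absurd (top_le_iff.1 (Ideal.le_of_dvd hv)) v.isPrime.ne_top,
        fun h => absurd hg h⟩
    obtain ⟨E, hE, hcyc, hgE⟩ := exists_cyclic_subfield hg
    haveI : IsMulCommutative (E ≃ₐ[K] E) := hcyc.isMulCommutative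
    obtain ⟨σ, hσ⟩ := IsCyclic.exists_generator (α := E ≃ₐ[K] E)
    obtain ⟨𝔫, h𝔫, hiff, hrec⟩ := exists_cyclic_reciprocity hσ
    refine ⟨𝔫, h𝔫, fun v hv => isRam_of_tower ((hiff v).1 hv),
      fun _ 𝔪 h𝔪 hle hram I J hIJ he => hgE ?_⟩
    have hIn : I.1 ∈ coprimeIdeals 𝔫 := top_le_iff.1 (I.2.symm.le.trans (sup_le_sup_left hle _))
    have hJn : J.1 ∈ coprimeIdeals 𝔫 := top_le_iff.1 (J.2.symm.le.trans (sup_le_sup_left hle _))
    rw [← he, map_mul, map_inv, restrict_artinHom E hram, restrict_artinHom E hram,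
      hrec ⟨I.1, hIn⟩ ⟨J.1, hJn⟩ (rayClass_eq_of_le h𝔪 h𝔫 hle hIJ hIn hJn), mul_inv_cancel]
  choose 𝔫 h𝔫 hdvd hsep using hsub
  set S := (finite_isRam K L).toFinset
  set 𝔪 : Ideal (𝓞 K) := (∏ v ∈ S, v.asIdeal) * ∏ g : L ≃ₐ[K] L, 𝔫 g
  have h𝔪 : 𝔪 ≠ ⊥ := mul_ne_zero (Finset.prod_ne_zero_iff.2 fun v _ => v.ne_bot)
    (Finset.prod_ne_zero_iff.2 fun g _ => h𝔫 g)
  have hiff : ∀ v : HeightOneSpectrum (𝓞 K), v.asIdeal ∣ 𝔪 ↔ IsRam L v := fun v => by
    refine ⟨fun hv => ?_, fun hv => dvd_mul_of_dvd_left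
      (Finset.dvd_prod_of_mem (fun u : HeightOneSpectrum (𝓞 K) => u.asIdeal)
        ((finite_isRam K L).mem_toFinset.2 hv)) _⟩
    rcases v.prime.dvd_or_dvd hv with h | h
    · obtain ⟨u, hu, hd⟩ := v.prime.exists_mem_finset_dvd h
      rw [show v = u from HeightOneSpectrum.ext ((prime_dvd_prime_iff_eq v.prime u.prime).1 hd)]
      exact (finite_isRam K L).mem_toFinset.1 hu
    · obtain ⟨g, -, hd⟩ := v.prime.exists_mem_finset_dvd h
      exact hdvd g v hd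
  refine ⟨𝔪, h𝔪, hiff, fun I J hIJ => by_contra fun hne => ?_⟩
  exact hsep (artinHom L I.1 * (artinHom L J.1)⁻¹) (fun h => hne (mul_inv_eq_one.1 h)) 𝔪 h𝔪
    (Ideal.le_of_dvd (dvd_mul_of_dvd_right (Finset.dvd_prod_of_mem 𝔫 (Finset.mem_univ _)) _))
    (fun v hv => Ideal.le_of_dvd ((hiff v).2 hv)) I J hIJ rfl

/-- A Frobenius element to the power of the residue degree is inert. -/
theorem artinAt_pow_fDeg {v : HeightOneSpectrum (𝓞 K)} (h : ¬ IsRam L v) :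
    artinAt L v ^ fDeg L v = 1 := by
  obtain ⟨Q, hQ, hτ⟩ := artinAt_spec (L := L) v
  set τ := artinAt L v
  set q := Nat.card (𝓞 K ⧸ Q.asIdeal.under (𝓞 K))
  haveI := Q.isMaximal
  haveI : Finite (𝓞 L ⧸ Q.asIdeal) := Ideal.finiteQuotientOfFreeOfNeBot _ Q.ne_bot
  haveI := Fintype.ofFinite (𝓞 L ⧸ Q.asIdeal)
  let _ : Field (𝓞 L ⧸ Q.asIdeal) := Ideal.Quotient.field _
  have hit : ∀ (i : ℕ) (x : 𝓞 L), Ideal.Quotient.mk Q.asIdeal (τ ^ i • x) =
      Ideal.Quotient.mk Q.asIdeal x ^ q ^ i := by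
    intro i
    induction i with
    | zero => simp
    | succ i ih =>
      intro x
      rw [pow_succ', mul_smul, pow_succ, pow_mul, ← ih, ← map_pow, Ideal.Quotient.eq]
      exact hτ _
  have hcard : q ^ fDeg L v = Nat.card (𝓞 L ⧸ Q.asIdeal) := by
    have hN := congrArg Ideal.absNorm (relNorm_prime (K := K) Q)
    rw [Ideal.absNorm_relNorm, map_pow, hQ, Ideal.absNorm_apply, Submodule.cardQuot_apply,
      Ideal.absNorm_apply, Submodule.cardQuot_apply] at hN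
    rw [hN]
    simp only [q]
    rw [show Q.asIdeal.under (𝓞 K) = v.asIdeal from congrArg HeightOneSpectrum.asIdeal hQ]
  have hI : τ ^ fDeg L v ∈ Q.asIdeal.inertia (L ≃ₐ[K] L) := fun x => by
    show τ ^ fDeg L v • x - x ∈ Q.asIdeal
    rw [← Ideal.Quotient.eq, hit, hcard, Nat.card_eq_fintype_card, FiniteField.pow_card]
  rwa [inertia_eq_bot h hQ, Subgroup.mem_bot] at hI

/-- **Artin reciprocity.** -/
theorem exists_artinRayHom :
    ∃ (𝔪 : Ideal (𝓞 K)) (h𝔪 : 𝔪 ≠ ⊥), (∀ v : HeightOneSpectrum (𝓞 K), v.asIdeal ∣ 𝔪 ↔ IsRam L v) ∧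
      ∃ ω : RayClassGroup 𝔪 →* (L ≃ₐ[K] L), Function.Surjective ω ∧
        ω.ker = normClasses L h𝔪 ∧
        ∀ I : coprimeIdeals 𝔪, ω (rayClass h𝔪 I) = artinHom L I.1 := by
  obtain ⟨𝔪, h𝔪, hiff, hrec⟩ := exists_modulus (K := K) (L := L)
  let Φ : coprimeIdeals 𝔪 →* (L ≃ₐ[K] L) := (artinHom L).comp (coprimeIdeals 𝔪).subtype
  have hker : rayCon 𝔪 ≤ Con.ker Φ := fun I J h => hrec I J ((rayClass_eq_iff h𝔪).2 h)
  let ω : RayClassGroup 𝔪 →* (L ≃ₐ[K] L) :=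
    ((rayCon 𝔪).lift Φ hker).comp (Units.coeHom _)
  have hω : ∀ I, ω (rayClass h𝔪 I) = artinHom L I.1 := fun I => by
    show (rayCon 𝔪).lift Φ hker ((rayClass h𝔪 I : (rayCon 𝔪).Quotient)) = _
    rw [rayClass, IsUnit.coe_liftRight]
    exact Con.lift_mk' _ _
  have hsurj : Function.Surjective ω := fun g => by
    obtain ⟨v, hv, hvm⟩ :=
      ((infinite_artinAt (L := L) g).sdiff (Ideal.finite_factors h𝔪)).nonempty
    have hvc : v.asIdeal ⊔ 𝔪 = ⊤ :=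
      (sup_eq_top_iff_not_le v 𝔪).2 fun h => hvm (Ideal.dvd_iff_le.2 h)
    exact ⟨rayClass h𝔪 ⟨primeIdeal v, hvc⟩, (hω _).trans ((artinHom_prime v).trans hv)⟩
  haveI := finite_rayClassGroup h𝔪
  have hle : normClasses L h𝔪 ≤ ω.ker := by
    rw [normClasses, Subgroup.closure_le]
    rintro _ ⟨Q, hQ, rfl⟩
    rw [SetLike.mem_coe, MonoidHom.mem_ker, hω]
    set v := belowP K Q
    have hv : v.asIdeal ⊔ 𝔪 = ⊤ := by
      have h1 : Ideal.relNorm (𝓞 K) Q.asIdeal ⊔ 𝔪 = ⊤ := hQ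
      rw [relNorm_prime] at h1
      exact top_le_iff.1 (h1.symm.le.trans
        (sup_le_sup_right (Ideal.pow_le_self (fDeg_ne_zero _)) _))
    have hnr : ¬ IsRam L v := fun hr =>
      (sup_eq_top_iff_not_le v 𝔪).1 hv (Ideal.le_of_dvd ((hiff v).2 hr))
    have e : normPrime K Q = primeIdeal v ^ fDeg L v :=
      Subtype.ext ((relNorm_prime Q).trans (by rw [SubmonoidClass.coe_pow]; rfl))
    show artinHom L (normPrime K Q) = 1
    rw [e, map_pow, artinHom_prime, artinAt_pow_fDeg hnr]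
  refine ⟨𝔪, h𝔪, hiff, ω, hsurj, le_antisymm ?_ hle, hω⟩
  have h1 := normClasses_index_le (L := L) h𝔪
  rw [← Subgroup.relIndex_mul_index hle, Subgroup.index_ker, MonoidHom.range_eq_top.2 hsurj,
    Nat.card_congr Subgroup.topEquiv.toEquiv, IsGalois.card_aut_eq_finrank] at h1
  have h0 : (normClasses L h𝔪).relIndex ω.ker ≠ 0 := Subgroup.index_ne_zero_of_finite
  rw [← Subgroup.relIndex_eq_one]
  have h2 : (normClasses L h𝔪).relIndex ω.ker ≤ 1 := by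
    refine Nat.le_of_mul_le_mul_right ?_ (Module.finrank_pos (R := K) (M := L))
    rwa [one_mul]
  omega

end FA.ArtinRec
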