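import Fermat.Agent.ArtinReciprocity.Places
import Fermat.Agent.NaturalChebotarev.RayClass

/-!
# Approximation at finitely many primes with prescribed signs

There are elements close to given ones at finitely many primes with given signs at the real places;
norms from a cyclic extension are positive at the real places that become complex.
-/

set_option autoImplicit false
set_option linter.unusedSectionVars false
set_option linter.style.haveILetI false

noncomputable section

open NumberField NumberField.InfinitePlace IsDedekindDomain Finset WithZero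
open scoped Pointwise nonZeroDivisors Classical

namespace FA.ArtinRec

variable {K : Type*} [Field K] [NumberField K]

theorem embedding_of_isReal_inj {w w' : InfinitePlace K} (hw : IsReal w) (hw' : IsReal w')
    (h : embedding_of_isReal hw = embedding_of_isReal hw') : w = w' :=
  InfinitePlace.ext _ _ fun x => by
    rw [← norm_embedding_of_isReal hw, h, norm_embedding_of_isReal hw']

/-- **Arbitrary signs at the real places.** -/
theorem exists_signs (s : (K →+* ℝ) → Bool) :
    ∃ t : 𝓞 K, t ≠ 0 ∧ ∀ φ : K →+* ℝ, 0 < φ t ↔ s φ = true := by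
  let tgt : InfinitePlace K → K := fun w =>
    if h : IsReal w then (if s (embedding_of_isReal h) = true then 1 else -1) else 1
  let U : Set ((w : InfinitePlace K) → WithAbs w.1) :=
    Set.univ.pi fun w => {y | w.1 (WithAbs.ofAbs y - tgt w) < 1}
  have hU : IsOpen U := isOpen_set_pi Set.finite_univ fun w _ => by
    have h : {y : WithAbs w.1 | w.1 (WithAbs.ofAbs y - tgt w) < 1} =
        Metric.ball (WithAbs.toAbs w.1 (tgt w)) 1 := by
      ext y
      rw [Metric.mem_ball, dist_eq_norm]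
      rfl
    rw [h]
    exact Metric.isOpen_ball
  obtain ⟨x, hx⟩ := (InfinitePlace.denseRange_algebraMap_pi K).exists_mem_open hU
    ⟨fun w => WithAbs.toAbs w.1 (tgt w), fun w _ => by
      show w.1 (tgt w - tgt w) < 1
      simp⟩
  have hx' : ∀ w : InfinitePlace K, w.1 (x - tgt w) < 1 := fun w => hx w trivial
  obtain ⟨a, b, hb, hab⟩ := IsFractionRing.div_surjective (A := 𝓞 K) x
  have hb0 : b ≠ 0 := nonZeroDivisors.ne_zero hb
  have hsign : ∀ φ : K →+* ℝ, φ x ≠ 0 ∧ (0 < φ x ↔ s φ = true) := fun φ => by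
    obtain ⟨⟨w, hw⟩, rfl⟩ := FA.Hecke.exists_isReal_embedding φ
    have h := hx' w
    rw [show tgt w = if s (embedding_of_isReal hw) = true then 1 else -1 from dif_pos hw] at h
    change w (x - _) < 1 at h
    rw [← norm_embedding_of_isReal hw, Real.norm_eq_abs, map_sub, abs_lt] at h
    by_cases hs : s (embedding_of_isReal hw) = true
    · rw [if_pos hs, map_one] at h
      exact ⟨by linarith [h.1], iff_of_true (by linarith [h.1]) hs⟩
    · rw [if_neg hs, map_neg, map_one] at h
      exact ⟨by linarith [h.2], iff_of_false (by linarith [h.2]) hs⟩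
  have ha0 : a ≠ 0 := fun h => by
    obtain ⟨w⟩ := (inferInstance : Nonempty (InfinitePlace K))
    have hxw := hx' w
    rw [← hab, h, map_zero, zero_div, zero_sub] at hxw
    have h1 : w.1 (-tgt w) = 1 := by
      rw [AbsoluteValue.map_neg]
      simp only [tgt]
      split_ifs <;> simp
    exact hxw.ne h1
  refine ⟨a * b, mul_ne_zero ha0 hb0, fun φ => ?_⟩
  obtain ⟨h0, hiff⟩ := hsign φ
  rw [← hiff]
  push_cast
  rw [map_mul]
  have hbφ : φ (b : K) ≠ 0 := by simpa using hb0
  have hax : φ (a : K) = φ x * φ (b : K) := by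
    rw [← hab, map_div₀, div_mul_cancel₀ _ hbφ]
  rw [hax, mul_assoc]
  exact mul_pos_iff_of_pos_right (mul_self_pos.2 hbφ)

/-- **Congruences and signs at once.** -/
theorem exists_approx (S : Finset (HeightOneSpectrum (𝓞 K)))
    (b : HeightOneSpectrum (𝓞 K) → Kˣ) (k : ℕ) (s : (K →+* ℝ) → Bool) :
    ∃ a : Kˣ, (∀ v ∈ S, v.valuation K ((a : K) / b v - 1) ≤ exp (-(k : ℤ))) ∧
      ∀ φ : K →+* ℝ, 0 < φ a ↔ s φ = true := by
  choose x y hx hy hb using fun v => exists_intU_div (b v)
  set D : 𝓞 K := (∏ v ∈ S, y v) ^ 2 with hD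
  have hD0 : D ≠ 0 := pow_ne_zero _ (Finset.prod_ne_zero_iff.2 fun v _ => hy v)
  let c : HeightOneSpectrum (𝓞 K) → 𝓞 K :=
    fun v => x v * (∏ w ∈ S.erase v, y w) * ∏ w ∈ S, y w
  have hc0 : ∀ v, c v ≠ 0 := fun v => mul_ne_zero (mul_ne_zero (hx v)
    (Finset.prod_ne_zero_iff.2 fun w _ => hy w)) (Finset.prod_ne_zero_iff.2 fun w _ => hy w)
  have hc : ∀ v ∈ S, (c v : K) = (b v : K) * D := fun v hv => by
    simp only [c, hD]
    rw [← Finset.mul_prod_erase S y hv, hb v, Units.val_div_eq_div_val, intU_val, intU_val]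
    have := RingOfIntegers.coe_ne_zero_iff.mpr (hy v)
    push_cast
    field_simp
  let e : HeightOneSpectrum (𝓞 K) → ℕ := fun v => multiplicity v.asIdeal (Ideal.span {c v}) + k
  obtain ⟨r, hr⟩ := IsDedekindDomain.exists_forall_sub_mem_ideal (s := S)
    (fun v : HeightOneSpectrum (𝓞 K) => v.asIdeal) e (fun v _ => v.prime)
    (fun v _ w _ hne h => hne (HeightOneSpectrum.ext h)) fun v => c v.1
  obtain ⟨t, ht0, ht⟩ := exists_signs (K := K) s
  set N : ℕ := Ideal.absNorm (∏ v ∈ S, v.asIdeal ^ e v) with hN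
  have hN0 : N ≠ 0 := by
    rw [hN, Ne, Ideal.absNorm_eq_zero_iff]
    exact Finset.prod_ne_zero_iff.2 fun v _ => pow_ne_zero _ v.ne_bot
  have hNmem : ∀ v ∈ S, (N : 𝓞 K) ∈ v.asIdeal ^ e v := fun v hv =>
    Ideal.le_of_dvd (Finset.dvd_prod_of_mem (fun v : HeightOneSpectrum (𝓞 K) => v.asIdeal ^ e v) hv)
      (Ideal.absNorm_mem _)
  obtain ⟨M, hM⟩ : ∃ M : ℕ, ∀ φ : K →+* ℝ, |φ r| < M * |φ t| := by
    refine ⟨∑ φ : K →+* ℝ, (⌊|φ r| / |φ t|⌋₊ + 1), fun φ => ?_⟩
    have htφ : 0 < |φ t| := abs_pos.2 (by simpa using ht0)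
    refine (div_lt_iff₀ htφ).1 ((Nat.lt_floor_add_one _).trans_le ?_)
    exact_mod_cast Finset.single_le_sum (f := fun φ : K →+* ℝ => ⌊|φ r| / |φ t|⌋₊ + 1)
      (fun _ _ => Nat.zero_le _) (Finset.mem_univ φ)
  obtain ⟨M', hMM', hne⟩ : ∃ M', M ≤ M' ∧ r + t * ((N * M' : ℕ) : 𝓞 K) ≠ 0 := by
    by_cases h : r + t * ((N * M : ℕ) : 𝓞 K) = 0
    · refine ⟨M + 1, by omega, fun h' => ?_⟩
      rw [Nat.mul_succ, Nat.cast_add, mul_add, ← add_assoc, h, zero_add] at h'
      exact mul_ne_zero ht0 (Nat.cast_ne_zero.2 hN0) h'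
    · exact ⟨M, le_rfl, h⟩
  refine ⟨intU _ hne / intU D hD0, fun v hv => ?_, fun φ => ?_⟩
  · have hmem : r + t * ((N * M' : ℕ) : 𝓞 K) - c v ∈ v.asIdeal ^ e v := by
      rw [show r + t * ((N * M' : ℕ) : 𝓞 K) - c v = (r - c v) + t * ((N * M' : ℕ) : 𝓞 K) by ring]
      refine Ideal.add_mem _ (hr v hv) (Ideal.mul_mem_left _ _ ?_)
      rw [Nat.cast_mul]
      exact Ideal.mul_mem_right _ _ (hNmem v hv)
    have hle := (v.intValuation_le_pow_iff_mem _ _).2 hmem
    rw [← v.valuation_of_algebraMap (K := K)] at hle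
    replace hle : v.valuation K
        (algebraMap (𝓞 K) K (r + t * ((N * M' : ℕ) : 𝓞 K) - c v)) ≤ exp (-(e v : ℤ)) := hle
    rw [map_sub] at hle
    rw [Units.val_div_eq_div_val, intU_val, intU_val, div_div, mul_comm (D : K), ← hc v hv,
      div_sub_one (RingOfIntegers.coe_ne_zero_iff.mpr (hc0 v)), map_div₀,
      div_le_iff₀ (zero_lt_iff.2 (by simpa using hc0 v))]
    refine hle.trans (le_of_eq ?_)
    rw [show algebraMap (𝓞 K) K (c v) = (intU (c v) (hc0 v) : K) from rfl, valuation_eq_exp, ← exp_add,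
      ord_intU]
    congr 1
    simp [e]
  · have hDφ : 0 < φ (D : K) := by
      rw [hD]
      push_cast
      rw [map_pow]
      exact pow_two_pos_of_ne_zero (by simpa [Finset.prod_eq_zero_iff] using fun v _ => hy v)
    rw [Units.val_div_eq_div_val, intU_val, intU_val, map_div₀, div_pos_iff_of_pos_right hDφ,
      ← ht φ]
    push_cast
    rw [map_add, map_mul, map_mul, map_natCast, map_natCast]
    have hN1 : (1 : ℝ) ≤ N := by exact_mod_cast Nat.one_le_iff_ne_zero.2 hN0
    have hM' : (M : ℝ) ≤ M' := by exact_mod_cast hMM'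
    have hlt : |φ r| < (N : ℝ) * M' * |φ t| := by
      refine (hM φ).trans_le (mul_le_mul_of_nonneg_right ?_ (abs_nonneg _))
      nlinarith [Nat.cast_nonneg (α := ℝ) M']
    rcases lt_trichotomy (φ (t : K)) 0 with h | h | h
    · rw [abs_of_neg h] at hlt
      refine iff_of_false ?_ h.not_gt
      have := le_abs_self (φ (r : K))
      nlinarith
    · exact absurd h (by simpa using ht0)
    · rw [abs_of_pos h] at hlt
      refine iff_of_true ?_ h
      have := neg_abs_le (φ (r : K))
      nlinarith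

variable {L : Type*} [Field L] [NumberField L] [Algebra K L] [IsGalois K L]

/-- **Norms are positive at a real place with a nontrivial decomposition group.** -/
theorem norm_pos_of_isRamified {σ : L ≃ₐ[K] L} (hσ : ∀ g, g ∈ Subgroup.zpowers σ)
    {w : InfinitePlace L} (hw : w.IsRamified K) (x : Lˣ) :
    0 < embedding_of_isReal hw.isReal (Algebra.norm K (x : L)) := by
  set ψ := w.embedding
  obtain ⟨τ, hτ⟩ := exists_isConj_of_isRamified (k := K) (φ := ψ) (by rwa [mk_embedding])
  have hψx : ∀ z : L, ψ (τ z) = starRingEnd ℂ (ψ z) := fun z => hτ.eq z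
  have hτ1 : τ ≠ 1 := by
    rintro rfl
    exact (not_isReal_iff_isComplex.2 hw.isComplex)
      (isReal_iff.2 (ComplexEmbedding.isReal_iff.2 (RingHom.ext fun z => (hψx z).symm)))
  have hτ2 : τ * τ = 1 := AlgEquiv.ext fun z => ψ.injective (by
    show ψ (τ (τ z)) = ψ z
    rw [hψx, hψx, Complex.conj_conj])
  set n := Module.finrank K L
  have hord : orderOf σ = n := by
    rw [orderOf_eq_card_of_forall_mem_zpowers hσ, IsGalois.card_aut_eq_finrank]
  obtain ⟨m, hm, hτm⟩ : ∃ m, 2 * m = n ∧ σ ^ m = τ := by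
    obtain ⟨i, rfl⟩ := exists_pow_eq hσ τ
    rw [← pow_add, ← orderOf_dvd_iff_pow_eq_one, hord] at hτ2
    have hi : ¬ n ∣ i := fun h => hτ1 (orderOf_dvd_iff_pow_eq_one.1 (hord ▸ h))
    refine ⟨i % n, ?_, by rw [← hord, pow_mod_orderOf]⟩
    have hlt : i % n < n := Nat.mod_lt i (Module.finrank_pos (R := K) (M := L))
    have hpos : i % n ≠ 0 := fun h => hi (Nat.dvd_of_mod_eq_zero h)
    have hdvd : n ∣ 2 * (i % n) := by
      have h1 : (2 * (i % n)) % n = 0 := by
        rw [Nat.mul_mod, Nat.mod_mod, ← Nat.mul_mod, two_mul]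
        exact Nat.mod_eq_zero_of_dvd hτ2
      exact Nat.dvd_of_mod_eq_zero h1
    obtain ⟨c, hc⟩ := hdvd
    rcases c with _ | _ | c
    · omega
    · omega
    · exfalso
      nlinarith
  set y : L := ∏ i ∈ Finset.range m, (σ ^ i) (x : L)
  have hN : algebraMap K L (Algebra.norm K (x : L)) = y * τ y := by
    have h := congrArg Units.val (baseU_norm hσ x)
    rw [baseU_val, Units.coe_map, normHom_apply, Units.coe_prod] at h
    simp only [galU_iterate, galU_val] at h
    rw [← h, show Module.finrank K L = m + m by omega, Finset.prod_range_add, map_prod]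
    refine congrArg₂ _ rfl (Finset.prod_congr rfl fun i _ => ?_)
    rw [← hτm, ← AlgEquiv.mul_apply, ← pow_add]
  have hy : y ≠ 0 := Finset.prod_ne_zero_iff.2 fun i _ => (map_ne_zero _).2 x.ne_zero
  have hkey : ((embedding_of_isReal hw.isReal (Algebra.norm K (x : L)) : ℝ) : ℂ) =
      ((Complex.normSq (ψ y) : ℝ) : ℂ) := by
    rw [embedding_of_isReal_apply, hw.comap_embedding, RingHom.comp_apply, hN, map_mul, hψx,
      Complex.mul_conj]
  rw [Complex.ofReal_inj] at hkey
  rw [hkey]
  exact Complex.normSq_pos.2 ((map_ne_zero _).2 hy)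

end FA.ArtinRec
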