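import Fermat.Agent.ArtinReciprocity.Frobenius
import Fermat.Agent.IsogenyNF.CyclotomicLevelNF

/-!
# The compositum with a cyclotomic field

For `L/K` abelian and `m` prime to the discriminant of `L` the extension `L(ζ_m)/K` is abelian
with group `Gal(L/K) × (ℤ/m)ˣ`, the second factor giving `N v` at a Frobenius element of `v`.
-/

set_option autoImplicit false
set_option linter.unusedSectionVars false
set_option linter.style.haveILetI false

noncomputable section

open NumberField IsDedekindDomain IntermediateField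
open scoped nonZeroDivisors Classical

namespace FA.ArtinRec

variable {K L : Type*} [Field K] [NumberField K] [Field L] [NumberField L] [Algebra K L]
  [IsGalois K L] (m : ℕ) [NeZero m]

local notation "Mf" => CyclotomicField m L

instance numberField_compositum : NumberField Mf := NumberField.of_module_finite L _

instance isGalois_compositum : IsGalois K Mf := by
  have hζ : IsPrimitiveRoot (IsCyclotomicExtension.zeta m L Mf) m :=
    IsCyclotomicExtension.zeta_spec m L Mf
  set ζ := IsCyclotomicExtension.zeta m L Mf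
  let L' : IntermediateField K Mf := (IsScalarTower.toAlgHom K L Mf).fieldRange
  let Z : IntermediateField K Mf := K⟮ζ⟯
  haveI : Normal K L' := Normal.of_algEquiv (AlgEquiv.ofInjectiveField (IsScalarTower.toAlgHom K L Mf))
  haveI : IsCyclotomicExtension {m} K Z := hζ.intermediateField_adjoin_isCyclotomicExtension K
  haveI : IsGalois K Z := IsCyclotomicExtension.isGalois {m} K Z
  have htop : L' ⊔ Z = ⊤ := by
    refine top_le_iff.1 fun x hxtop => ?_
    clear hxtop
    have hx : x ∈ Algebra.adjoin L {b : Mf | ∃ k ∈ ({m} : Set ℕ), k ≠ 0 ∧ b ^ k = 1} :=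
      IsCyclotomicExtension.adjoin_roots x
    induction hx using Algebra.adjoin_induction with
    | mem y hy =>
      obtain ⟨k, hk, -, hy⟩ := hy
      rw [Set.mem_singleton_iff] at hk
      subst hk
      obtain ⟨i, -, rfl⟩ := hζ.eq_pow_of_pow_eq_one hy
      exact pow_mem ((le_sup_right : Z ≤ L' ⊔ Z) (mem_adjoin_simple_self K ζ)) i
    | algebraMap c => exact (le_sup_left : L' ≤ L' ⊔ Z) ⟨c, rfl⟩
    | add y z _ _ hy hz => exact add_mem hy hz
    | mul y z _ _ hy hz => exact mul_mem hy hz
  haveI : Normal K (L' ⊔ Z : IntermediateField K Mf) := inferInstance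
  haveI : Normal K (⊤ : IntermediateField K Mf) := htop ▸ ‹Normal K (L' ⊔ Z : IntermediateField K Mf)›
  haveI : Normal K Mf := Normal.of_algEquiv (IntermediateField.topEquiv (F := K) (E := Mf))
  exact ⟨⟩

variable (K L) in
/-- The cyclotomic character of the compositum. -/
def cycChar : (Mf ≃ₐ[K] Mf) →* (ZMod m)ˣ :=
  (IsCyclotomicExtension.zeta_spec m L Mf).autToPow K

theorem cycChar_spec (g : Mf ≃ₐ[K] Mf) :
    IsCyclotomicExtension.zeta m L Mf ^ (cycChar K L m g : ZMod m).val =
      g (IsCyclotomicExtension.zeta m L Mf) :=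
  (IsCyclotomicExtension.zeta_spec m L Mf).autToPow_spec K g

theorem cycChar_eq_iff {g : Mf ≃ₐ[K] Mf} {t : ℕ} :
    ((cycChar K L m g : (ZMod m)ˣ) : ZMod m) = t ↔
      g (IsCyclotomicExtension.zeta m L Mf) = IsCyclotomicExtension.zeta m L Mf ^ t := by
  have hζ := IsCyclotomicExtension.zeta_spec m L Mf
  rw [← cycChar_spec]
  constructor
  · intro h
    rw [h, ZMod.val_natCast]
    exact (pow_eq_pow_mod t hζ.pow_eq_one).symm
  · intro h
    rw [pow_eq_pow_mod t hζ.pow_eq_one] at h
    have h1 := hζ.pow_inj (ZMod.val_lt _) (Nat.mod_lt _ (NeZero.pos m)) h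
    rw [← ZMod.natCast_mod t m, ← h1, ZMod.natCast_zmod_val]

variable {m} in
theorem autEquivPow_eq (hirr : Irreducible (Polynomial.cyclotomic m L)) (h : Mf ≃ₐ[L] Mf) :
    IsCyclotomicExtension.autEquivPow Mf hirr h = cycChar K L m (h.restrictScalars K) := by
  refine Units.ext (ZMod.val_injective m ?_)
  have hζ := IsCyclotomicExtension.zeta_spec m L Mf
  refine hζ.pow_inj (ZMod.val_lt _) (ZMod.val_lt _) ?_
  rw [cycChar_spec]
  exact hζ.autToPow_spec L h

variable (hd : ∀ p ∈ m.primeFactors, ¬ (p : ℤ) ∣ NumberField.discr L)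
include hd

theorem eq_one_of_restrict_cycChar {g : Mf ≃ₐ[K] Mf}
    (h1 : AlgEquiv.restrictNormalHom L g = 1) (h2 : cycChar K L m g = 1) : g = 1 := by
  have hirr := FA.IsogenyNF.irreducible_cyclotomic_level (NeZero.ne m) hd
  let h : Mf ≃ₐ[L] Mf := { g with
    commutes' := fun x => by
      show g (algebraMap L Mf x) = algebraMap L Mf x
      have h3 := g.restrictNormal_commutes L x
      rw [show g.restrictNormal L x = x from DFunLike.congr_fun h1 x] at h3
      exact h3.symm }
  have hg : h.restrictScalars K = g := AlgEquiv.ext fun _ => rfl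
  have h3 : h = 1 := (IsCyclotomicExtension.autEquivPow Mf hirr).injective (by
    rw [map_one, autEquivPow_eq (K := K) hirr, hg, h2])
  rw [← hg, h3]
  exact AlgEquiv.ext fun _ => rfl

theorem isMulCommutative_compositum [IsMulCommutative (L ≃ₐ[K] L)] :
    IsMulCommutative (Mf ≃ₐ[K] Mf) := by
  refine ⟨⟨fun g h => ?_⟩⟩
  have hL : ∀ a b : L ≃ₐ[K] L, a * b = b * a := fun a b => mul_comm' a b
  rw [← mul_inv_eq_one]
  refine eq_one_of_restrict_cycChar m hd ?_ ?_
  · rw [map_mul, map_inv, map_mul, map_mul,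
      hL (AlgEquiv.restrictNormalHom L g) (AlgEquiv.restrictNormalHom L h), mul_inv_cancel]
  · rw [map_mul, map_inv, map_mul, map_mul, mul_comm (cycChar K L m g), mul_inv_cancel]

theorem exists_restrict_cycChar (g₀ : L ≃ₐ[K] L) (u : (ZMod m)ˣ) :
    ∃ g : Mf ≃ₐ[K] Mf, AlgEquiv.restrictNormalHom L g = g₀ ∧ cycChar K L m g = u := by
  have hirr := FA.IsogenyNF.irreducible_cyclotomic_level (NeZero.ne m) hd
  obtain ⟨g', hg'⟩ := AlgEquiv.restrictNormalHom_surjective (F := K) (K₁ := L) Mf g₀
  set h := (IsCyclotomicExtension.autEquivPow Mf hirr).symm (u * (cycChar K L m g')⁻¹) with hh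
  refine ⟨h.restrictScalars K * g', ?_, ?_⟩
  · rw [map_mul, hg', show AlgEquiv.restrictNormalHom L (h.restrictScalars K) = 1 from
      FA.ArtinL.restrictNormal_restrictScalars h, one_mul]
  · rw [map_mul, ← autEquivPow_eq hirr, hh, MulEquiv.apply_symm_apply, inv_mul_cancel_right]

omit hd in
/-- The character at a Frobenius element. -/
theorem cycChar_frob {Q : HeightOneSpectrum (𝓞 Mf)} {τ : Mf ≃ₐ[K] Mf}
    (hm : (m : 𝓞 K) ∉ (belowP K Q).asIdeal) (hτ : IsArithFrobAt (𝓞 K) τ Q.asIdeal) :
    ((cycChar K L m τ : (ZMod m)ˣ) : ZMod m) = (Ideal.absNorm (belowP K Q).asIdeal : ℕ) := by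
  exact (cycChar_eq_iff m).2
    (frob_apply_root hτ hm (IsCyclotomicExtension.zeta_spec m L Mf).pow_eq_one)

end FA.ArtinRec
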