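import Fermat.Agent.ArtinReciprocity.Norms
import Fermat.Agent.NaturalChebotarev.RayClass

/-!
# Norms of totally positive elements congruent to one

The norm of a totally positive element is totally positive; the absolute norm of the ideal of one
congruent to `1` modulo `m` is congruent to `1`; norms from a Galois extension preserve rays.
-/

set_option autoImplicit false
set_option linter.unusedSectionVars false
set_option linter.style.haveILetI false

noncomputable section

open NumberField NumberField.InfinitePlace IsDedekindDomain Finset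
open FA.Hecke (IsRayElt)
open scoped Pointwise nonZeroDivisors Classical

namespace FA.ArtinRec

variable {K E : Type*} [Field K] [NumberField K] [Field E] [NumberField E] [Algebra K E]

/-- **The norm of an element positive above a real embedding is positive at it.** -/
theorem norm_pos_of_positive_above {x : E} (hx0 : x ≠ 0) (φ : K →+* ℝ)
    (hx : ∀ ψ : E →+* ℝ, ψ.comp (algebraMap K E) = φ → 0 < ψ x) :
    0 < φ (Algebra.norm K x) := by
  letI : Algebra K ℂ := (Complex.ofRealHom.comp φ).toAlgebra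
  have hN : ((φ (Algebra.norm K x) : ℝ) : ℂ) = ∏ σ : E →ₐ[K] ℂ, σ x :=
    Algebra.norm_eq_prod_embeddings K ℂ x
  let cj : (E →ₐ[K] ℂ) → (E →ₐ[K] ℂ) := fun σ =>
    { (starRingEnd ℂ).comp σ.toRingHom with
      commutes' := fun k => by
        show starRingEnd ℂ (σ (algebraMap K E k)) = _
        rw [σ.commutes]
        exact Complex.conj_ofReal _ }
  have hcj : ∀ σ z, cj σ z = starRingEnd ℂ (σ z) := fun σ z => rfl
  have hcj2 : ∀ σ, cj (cj σ) = σ := fun σ => AlgHom.ext fun z => Complex.conj_conj (σ z)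
  let g : (E →ₐ[K] ℂ) → Sym2 (E →ₐ[K] ℂ) := fun σ => s(σ, cj σ)
  rw [← Finset.prod_fiberwise_of_maps_to (g := g) (t := Finset.univ.image g)
    (fun σ _ => Finset.mem_image_of_mem _ (Finset.mem_univ σ))] at hN
  suffices h : ∀ c ∈ Finset.univ.image g, ∃ r : ℝ, 0 < r ∧
      (r : ℂ) = ∏ σ ∈ Finset.univ.filter (fun σ => g σ = c), σ x by
    obtain ⟨r, hr, he⟩ := Finset.prod_induction
      (fun c : Sym2 (E →ₐ[K] ℂ) => ∏ σ ∈ Finset.univ.filter (fun σ => g σ = c), σ x)
      (fun z : ℂ => ∃ r : ℝ, 0 < r ∧ (r : ℂ) = z)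
      (fun _ _ ⟨r, hr, e⟩ ⟨r', hr', e'⟩ => ⟨r * r', mul_pos hr hr', by rw [← e, ← e']; simp⟩)
      ⟨1, one_pos, by simp⟩ h
    rw [← he, Complex.ofReal_inj] at hN
    exact hN ▸ hr
  intro c hc
  obtain ⟨σ, -, rfl⟩ := Finset.mem_image.1 hc
  have hfib : Finset.univ.filter (fun τ => g τ = g σ) = {σ, cj σ} := by
    ext τ
    simp only [g, Finset.mem_filter, Finset.mem_univ, true_and, Finset.mem_insert,
      Finset.mem_singleton, Sym2.eq_iff]
    refine ⟨fun h => h.imp (·.1) (·.1), ?_⟩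
    rintro (rfl | rfl)
    · exact Or.inl ⟨rfl, rfl⟩
    · exact Or.inr ⟨rfl, hcj2 σ⟩
  rw [hfib]
  by_cases h : cj σ = σ
  · have hr : ComplexEmbedding.IsReal σ.toRingHom :=
      ComplexEmbedding.isReal_iff.2 (RingHom.ext fun z => DFunLike.congr_fun h z)
    refine ⟨hr.embedding x, hx _ (RingHom.ext fun k => Complex.ofReal_injective
      ((ComplexEmbedding.IsReal.coe_embedding_apply hr _).trans (σ.commutes k))), ?_⟩
    rw [h, Finset.pair_eq_singleton, Finset.prod_singleton]
    exact ComplexEmbedding.IsReal.coe_embedding_apply hr x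
  · refine ⟨Complex.normSq (σ x), Complex.normSq_pos.2 ((map_ne_zero _).2 hx0), ?_⟩
    rw [Finset.prod_pair (Ne.symm h), hcj, Complex.mul_conj]

/-- **Norms of totally positive elements are totally positive.** -/
theorem norm_pos_of_totallyPositive {x : E} (hx0 : x ≠ 0) (hx : ∀ ψ : E →+* ℝ, 0 < ψ x)
    (φ : K →+* ℝ) : 0 < φ (Algebra.norm K x) :=
  norm_pos_of_positive_above hx0 φ fun ψ _ => hx ψ

/-- **The absolute norm of a ray element.** -/
theorem absNorm_of_ray (m : ℕ) [NeZero m] {x : 𝓞 E}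
    (hx : IsRayElt (Ideal.span {(m : 𝓞 E)}) x) :
    ((Ideal.absNorm (Ideal.span {x}) : ℕ) : ZMod m) = 1 := by
  obtain ⟨hx0, hx1, hxp⟩ := hx
  have hpos : 0 < Algebra.norm ℤ x := by
    have h := norm_pos_of_totallyPositive (K := ℚ) (RingOfIntegers.coe_ne_zero_iff.mpr hx0) hxp
      (algebraMap ℚ ℝ)
    rw [← Algebra.coe_norm_int, map_intCast, Int.cast_pos] at h
    exact h
  rw [Ideal.absNorm_span_singleton, ← Int.cast_natCast (R := ZMod m), Int.natAbs_of_nonneg hpos.le]
  set b := Module.Free.chooseBasis ℤ (𝓞 E)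
  let red := (Int.castRingHom (ZMod m)).mapMatrix.comp (Algebra.leftMulMatrix b).toRingHom
  have hred : red x = 1 := by
    obtain ⟨z, hz⟩ := Ideal.mem_span_singleton.mp hx1
    have hm : red (m : 𝓞 E) = 0 := by
      rw [map_natCast, ← Matrix.diagonal_natCast, ZMod.natCast_self, Matrix.diagonal_zero]
    rw [← sub_add_cancel x 1, map_add, hz, map_mul, hm, zero_mul, map_one, zero_add]
  rw [Algebra.norm_eq_matrix_det b]
  calc ((Matrix.det (Algebra.leftMulMatrix b x) : ℤ) : ZMod m) = (red x).det :=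
        (Int.castRingHom (ZMod m)).map_det _
    _ = 1 := by rw [hred, Matrix.det_one]

/-- An element in the extension of an ideal lies in it. -/
theorem mem_of_algebraMap_mem {𝔪 : Ideal (𝓞 K)} {a : 𝓞 K}
    (h : algebraMap (𝓞 K) (𝓞 E) a ∈ 𝔪.map (algebraMap (𝓞 K) (𝓞 E))) : a ∈ 𝔪 := by
  have hd : 𝔪.map (algebraMap (𝓞 K) (𝓞 E)) ∣
      (Ideal.span {a}).map (algebraMap (𝓞 K) (𝓞 E)) := by
    rw [Ideal.map_span, Set.image_singleton, Ideal.dvd_span_singleton]
    exact h
  have h2 := map_dvd (Ideal.relNorm (𝓞 K)) hd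
  rw [Ideal.relNorm_algebraMap, Ideal.relNorm_algebraMap,
    UniqueFactorizationMonoid.pow_dvd_pow_iff_dvd Module.finrank_pos.ne', Ideal.dvd_span_singleton] at h2
  exact h2

/-- Norms preserve congruences to `1`. -/
theorem norm_sub_one_mem [IsGalois K E] {𝔪 : Ideal (𝓞 K)} {x : 𝓞 E}
    (hx : x - 1 ∈ 𝔪.map (algebraMap (𝓞 K) (𝓞 E))) : RingOfIntegers.norm K x - 1 ∈ 𝔪 := by
  refine mem_of_algebraMap_mem (E := E) ?_
  set J := 𝔪.map (algebraMap (𝓞 K) (𝓞 E))
  rw [← Ideal.Quotient.eq_zero_iff_mem, map_sub, map_sub, map_one, map_one, sub_eq_zero,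
    show algebraMap (𝓞 K) (𝓞 E) (RingOfIntegers.norm K x) = ∏ g : E ≃ₐ[K] E, g • x from
      RingOfIntegers.ext (by
        show algebraMap K E (Algebra.norm K (x : E)) = algebraMap (𝓞 E) E (∏ g : E ≃ₐ[K] E, g • x)
        rw [map_prod]
        exact Algebra.norm_eq_prod_automorphisms K (x : E)), map_prod]
  refine Finset.prod_eq_one fun g _ => ?_
  rw [← map_one (Ideal.Quotient.mk J), Ideal.Quotient.eq]
  have hJ : g • J = J := by
    rw [Ideal.pointwise_smul_def, Ideal.map_map]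
    congr 1
    exact RingHom.ext fun y => smul_algebraMap g y
  have h := Ideal.smul_mem_pointwise_smul g _ J hx
  rwa [hJ, smul_sub, smul_one] at h

/-- **Norms of ray elements are ray elements.** -/
theorem isRayElt_norm [IsGalois K E] {𝔪 : Ideal (𝓞 K)} {𝔐 : Ideal (𝓞 E)}
    (hle : 𝔐 ≤ 𝔪.map (algebraMap (𝓞 K) (𝓞 E))) {x : 𝓞 E} (hx : IsRayElt 𝔐 x) :
    IsRayElt 𝔪 (RingOfIntegers.norm K x) := by
  obtain ⟨hx0, hx1, hxp⟩ := hx
  have hxK : (x : E) ≠ 0 := RingOfIntegers.coe_ne_zero_iff.mpr hx0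
  exact ⟨fun h => hxK (Algebra.norm_eq_zero_iff.1 (congrArg (fun y : 𝓞 K => (y : K)) h :)),
    norm_sub_one_mem (hle hx1), fun φ => norm_pos_of_totallyPositive hxK hxp φ⟩

end FA.ArtinRec
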