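import Fermat.Agent.ArtinReciprocity.Frobenius
import Fermat.Agent.ArtinReciprocity.RayNorm

/-!
# The crossing argument

If two primes of `K` have Frobenius elements in a subgroup `U` of an abelian extension `M ⊇ L` on
which a character with the values `N v` mod `m` at Frobenius elements is injective, a product of
their powers with trivial symbol in `L` is in the class of a norm: every ray class of the fixed
field of `U` contains primes of degree one, which lie over primes splitting in `L`.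
-/

set_option autoImplicit false
set_option linter.unusedSectionVars false
set_option linter.style.haveILetI false

noncomputable section

open NumberField IsDedekindDomain Finset Filter Topology
open FA.Hecke (IsRayElt coprimeIdeals rayClass RayClassGroup rayClass_eq_iff rayInd hasMean_rayInd
  hasMean_congr finite_rayClassGroup)
open FA.Ext (primeIdeal)
open scoped Pointwise nonZeroDivisors Classical

namespace FA.ArtinRec

instance rayClassGroup_isMulCommutative {F : Type*} [Field F] [NumberField F]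
    {𝔐 : Ideal (𝓞 F)} : IsMulCommutative (RayClassGroup 𝔐) := ⟨⟨fun a b => mul_comm a b⟩⟩

instance rayClassQuotient_commGroup {F : Type*} [Field F] [NumberField F] {𝔐 : Ideal (𝓞 F)}
    (H : Subgroup (RayClassGroup 𝔐)) : CommGroup (RayClassGroup 𝔐 ⧸ H) :=
  { (inferInstance : Group (RayClassGroup 𝔐 ⧸ H)) with
    mul_comm := fun a b => Quotient.inductionOn₂' a b fun a b => congrArg _ (mul_comm a b) }

theorem sup_eq_top_iff_not_le {F : Type*} [Field F] [NumberField F]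
    (v : HeightOneSpectrum (𝓞 F)) (I : Ideal (𝓞 F)) : v.asIdeal ⊔ I = ⊤ ↔ ¬ I ≤ v.asIdeal :=
  ⟨fun h hle => v.isPrime.ne_top (top_le_iff.1 (h ▸ sup_le le_rfl hle)),
    fun h => v.isMaximal.out.2 _ (lt_of_le_of_ne le_sup_left fun he =>
      h (le_sup_right.trans he.symm.le))⟩

/-- Every ray class contains a prime of prime norm. -/
theorem exists_prime_in_class {F : Type*} [Field F] [NumberField F] {𝔐 : Ideal (𝓞 F)}
    (h𝔐 : 𝔐 ≠ ⊥) (γ : RayClassGroup 𝔐) :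
    ∃ (v : HeightOneSpectrum (𝓞 F)) (hv : v.asIdeal ⊔ 𝔐 = ⊤),
      (Ideal.absNorm v.asIdeal).Prime ∧ rayClass h𝔐 ⟨primeIdeal v, hv⟩ = γ := by
  obtain ⟨S, hS⟩ : ∃ S : Set (HeightOneSpectrum (𝓞 F)), ∀ v, v ∈ S ↔
      (Ideal.absNorm v.asIdeal).Prime ∧
        ∃ hv : v.asIdeal ⊔ 𝔐 = ⊤, rayClass h𝔐 ⟨primeIdeal v, hv⟩ = γ := ⟨_, fun _ => Iff.rfl⟩
  have h : FA.Hecke.HasMean (fun v => if v ∈ S then (1 : ℝ) else 0)
      (Nat.card (RayClassGroup 𝔐) : ℝ)⁻¹ := by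
    refine hasMean_congr ∅ Set.finite_empty (B := 1) (fun v => ?_) (fun v _ hp => ?_)
      (hasMean_rayInd h𝔐 γ)
    · rw [rayInd]
      split_ifs <;> simp
    · rw [rayInd]
      exact if_congr ⟨fun h => ((hS v).1 h).2, fun h => (hS v).2 ⟨hp, h⟩⟩ rfl rfl
  have hcard : (Nat.card (RayClassGroup 𝔐) : ℝ)⁻¹ ≠ 0 := by
    haveI := finite_rayClassGroup h𝔐
    haveI : Nonempty (RayClassGroup 𝔐) := ⟨γ⟩
    exact inv_ne_zero (Nat.cast_ne_zero.2 (Nat.card_pos (α := RayClassGroup 𝔐)).ne')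
  obtain ⟨v, hvS⟩ := (infinite_of_hasMean (S := S) hcard h).nonempty
  obtain ⟨hp, hv, hγ⟩ := (hS v).1 hvS
  exact ⟨v, hv, hp, hγ⟩

variable {K L M : Type*} [Field K] [NumberField K] [Field L] [NumberField L] [Field M]
  [NumberField M] [Algebra K L] [Algebra K M] [Algebra L M] [IsScalarTower K L M] [IsGalois K L]
  [IsGalois K M] [IsMulCommutative (L ≃ₐ[K] L)] [IsMulCommutative (M ≃ₐ[K] M)]

/-- **The crossing lemma.** -/
theorem crossing {m : ℕ} [NeZero m] (c : (M ≃ₐ[K] M) →* (ZMod m)ˣ)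
    (hc : ∀ (Q : HeightOneSpectrum (𝓞 M)) (τ : M ≃ₐ[K] M), (m : 𝓞 K) ∉ (belowP K Q).asIdeal →
      IsArithFrobAt (𝓞 K) τ Q.asIdeal →
        ((c τ : (ZMod m)ˣ) : ZMod m) = (Ideal.absNorm (belowP K Q).asIdeal : ℕ))
    (U : Subgroup (M ≃ₐ[K] M)) (hU : ∀ g ∈ U, c g = 1 → g = 1)
    {𝔪 : Ideal (𝓞 K)} (h𝔪 : 𝔪 ≠ ⊥) (hram : ∀ v, IsRam L v → 𝔪 ≤ v.asIdeal)
    {QP QR : HeightOneSpectrum (𝓞 M)} {τP τR : M ≃ₐ[K] M}
    (hτP : IsArithFrobAt (𝓞 K) τP QP.asIdeal) (hτR : IsArithFrobAt (𝓞 K) τR QR.asIdeal)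
    (hPU : τP ∈ U) (hRU : τR ∈ U)
    (hmP : (m : 𝓞 K) ∉ (belowP K QP).asIdeal) (hmR : (m : 𝓞 K) ∉ (belowP K QR).asIdeal)
    (hP : (belowP K QP).asIdeal ⊔ 𝔪 = ⊤) (hR : (belowP K QR).asIdeal ⊔ 𝔪 = ⊤) (k : ℕ)
    (h : artinAt L (belowP K QP) * artinAt L (belowP K QR) ^ k = 1) :
    rayClass h𝔪 ⟨primeIdeal (belowP K QP), hP⟩ *
      rayClass h𝔪 ⟨primeIdeal (belowP K QR), hR⟩ ^ k ∈ normClasses L h𝔪 := by
  let E : IntermediateField K M := IntermediateField.fixedField U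
  haveI : NumberField E := NumberField.of_module_finite K E
  haveI : IsGalois E M := IsGalois.tower_top_of_isGalois K E M
  -- primes of degree one
  have hdeg : ∀ (Q : HeightOneSpectrum (𝓞 M)) (τ : M ≃ₐ[K] M), τ ∈ U →
      IsArithFrobAt (𝓞 K) τ Q.asIdeal →
      Ideal.relNorm (𝓞 K) (belowP E Q).asIdeal = (belowP K Q).asIdeal := by
    intro Q τ hτU hτ
    have h1 : AlgEquiv.restrictNormalHom E τ = 1 := AlgEquiv.ext fun y =>
      (algebraMap E M).injective ((τ.restrictNormal_commutes E y).trans (y.2 ⟨τ, hτU⟩))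
    have h2 := isArithFrobAt_restrictNormal (L := E) hτ
    rw [h1] at h2
    rw [relNorm_of_frob_one h2, belowP_belowP]
  set P := belowP K QP
  set R := belowP K QR
  set vP := belowP E QP with hvP
  set vR := belowP E QR with hvR
  have hrelP := hdeg QP τP hPU hτP
  have hrelR := hdeg QR τR hRU hτR
  -- the modulus
  set 𝔐 : Ideal (𝓞 E) := 𝔪.map (algebraMap (𝓞 K) (𝓞 E)) * Ideal.span {(m : 𝓞 E)}
  have h𝔐 : 𝔐 ≠ ⊥ := mul_ne_zero (Ideal.map_ne_bot_of_ne_bot h𝔪) (by simp [NeZero.ne m])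
  have hle₂ : 𝔐 ≤ Ideal.span {(m : 𝓞 E)} := Ideal.mul_le_right
  have hle₁ : 𝔐 ≤ 𝔪.map (algebraMap (𝓞 K) (𝓞 E)) := Ideal.mul_le_left
  have hcop : ∀ v : HeightOneSpectrum (𝓞 E), v.asIdeal ⊔ 𝔐 = ⊤ ↔
      (belowP K v).asIdeal ⊔ 𝔪 = ⊤ ∧ (m : 𝓞 K) ∉ (belowP K v).asIdeal := fun v => by
    rw [sup_eq_top_iff_not_le, sup_eq_top_iff_not_le]
    rw [show 𝔐 ≤ v.asIdeal ↔ 𝔪 ≤ (belowP K v).asIdeal ∨ (m : 𝓞 K) ∈ (belowP K v).asIdeal from ?_]
    · exact not_or
    · rw [v.isPrime.mul_le, Ideal.map_le_iff_le_comap, Ideal.span_singleton_le_iff_mem]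
      refine or_congr Iff.rfl ?_
      show _ ↔ (m : 𝓞 K) ∈ v.asIdeal.under (𝓞 K)
      rw [Ideal.mem_comap, map_natCast]
  have hvPc : vP.asIdeal ⊔ 𝔐 = ⊤ := (hcop vP).2 (by rw [hvP, belowP_belowP]; exact ⟨hP, hmP⟩)
  have hvRc : vR.asIdeal ⊔ 𝔐 = ⊤ := (hcop vR).2 (by rw [hvR, belowP_belowP]; exact ⟨hR, hmR⟩)
  -- a prime of degree one in the class
  obtain ⟨v, hv, hpv, hγ⟩ := exists_prime_in_class h𝔐
    (rayClass h𝔐 ⟨primeIdeal vP, hvPc⟩ * rayClass h𝔐 ⟨primeIdeal vR, hvRc⟩ ^ k)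
  rw [← map_pow, ← map_mul, rayClass_eq_iff] at hγ
  obtain ⟨x, y, hx, hy, hxy⟩ := hγ
  have hxy' : Ideal.span {x} * v.asIdeal = Ideal.span {y} * (vP.asIdeal * vR.asIdeal ^ k) := hxy
  set P' := belowP K v with hP'
  obtain ⟨hP'c, hmP'⟩ := (hcop v).1 hv
  have hrelv : Ideal.relNorm (𝓞 K) v.asIdeal = P'.asIdeal := by
    have hN := congrArg Ideal.absNorm (relNorm_prime (K := K) v)
    rw [Ideal.absNorm_relNorm, map_pow] at hN
    rw [hN] at hpv
    rw [relNorm_prime, hpv.eq_one_of_pow, pow_one]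
  have hNv : Ideal.absNorm v.asIdeal = Ideal.absNorm P'.asIdeal := by
    rw [← hrelv, Ideal.absNorm_relNorm]
  -- its Frobenius element
  obtain ⟨Q, hQ⟩ := exists_belowP E M v
  obtain ⟨τ₀, hτ₀⟩ := exists_frob (K := E) Q
  set τ : M ≃ₐ[K] M := τ₀.restrictScalars K
  have hQK : belowP K Q = P' := by rw [hP', ← hQ, belowP_belowP]
  have hτ : IsArithFrobAt (𝓞 K) τ Q.asIdeal := fun z => by
    have h1 : Nat.card (𝓞 K ⧸ Q.asIdeal.under (𝓞 K)) =
        Nat.card (𝓞 E ⧸ Q.asIdeal.under (𝓞 E)) := by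
      rw [show Q.asIdeal.under (𝓞 K) = P'.asIdeal from congrArg HeightOneSpectrum.asIdeal hQK,
        show Q.asIdeal.under (𝓞 E) = v.asIdeal from congrArg HeightOneSpectrum.asIdeal hQ]
      simpa [Ideal.absNorm_apply, Submodule.cardQuot_apply] using hNv.symm
    rw [h1]
    exact hτ₀ z
  have hτU : τ ∈ U := by
    rw [← IntermediateField.fixingSubgroup_fixedField U, IntermediateField.mem_fixingSubgroup_iff]
    exact fun z hz => τ₀.commutes (⟨z, hz⟩ : E)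
  have hNxy : ((Ideal.absNorm v.asIdeal : ℕ) : ZMod m) =
      (Ideal.absNorm P.asIdeal : ℕ) * ((Ideal.absNorm R.asIdeal : ℕ) : ZMod m) ^ k := by
    have hray : ∀ z : 𝓞 E, IsRayElt 𝔐 z →
        ((Ideal.absNorm (Ideal.span {z}) : ℕ) : ZMod m) = 1 := fun z hz =>
      absNorm_of_ray (E := E) m ⟨hz.1, hle₂ hz.2.1, hz.2.2⟩
    have h1 := congrArg (fun I => ((Ideal.absNorm I : ℕ) : ZMod m)) hxy'
    simp only [map_mul, map_pow, Nat.cast_mul, Nat.cast_pow, hray x hx, hray y hy, one_mul] at h1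
    rw [h1, ← hrelP, ← hrelR, Ideal.absNorm_relNorm, Ideal.absNorm_relNorm]
  have hτeq : τ = τP * τR ^ k := by
    rw [← mul_inv_eq_one]
    refine hU _ (mul_mem hτU (inv_mem (mul_mem hPU (pow_mem hRU k)))) ?_
    rw [map_mul, map_inv, mul_inv_eq_one, map_mul, map_pow]
    refine Units.ext ?_
    rw [Units.val_mul, Units.val_pow_eq_pow_val, hc Q τ (hQK ▸ hmP') hτ, hc QP τP hmP hτP,
      hc QR τR hmR hτR, hQK, ← hNv, hNxy]
  have hnr : ∀ w : HeightOneSpectrum (𝓞 K), w.asIdeal ⊔ 𝔪 = ⊤ → ¬ IsRam L w := fun w hw hr =>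
    (sup_eq_top_iff_not_le w 𝔪).1 hw (hram w hr)
  have hsplit : artinAt L P' = 1 := by
    rw [← restrict_frob (L := L) (hnr P' hP'c) hQK hτ, hτeq, map_mul, map_pow,
      restrict_frob (L := L) (hnr P hP) rfl hτP, restrict_frob (L := L) (hnr R hR) rfl hτR, h]
  -- push down
  have hclass : rayClass h𝔪 ⟨primeIdeal P', hP'c⟩ =
      rayClass h𝔪 ⟨primeIdeal P, hP⟩ * rayClass h𝔪 ⟨primeIdeal R, hR⟩ ^ k := by
    rw [← map_pow, ← map_mul, rayClass_eq_iff]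
    refine ⟨RingOfIntegers.norm K x, RingOfIntegers.norm K y,
      isRayElt_norm hle₁ hx, isRayElt_norm hle₁ hy, ?_⟩
    have h1 := congrArg (Ideal.relNorm (𝓞 K)) hxy'
    rw [map_mul, map_mul, map_mul, map_pow, span_norm, span_norm, hrelv, hrelP, hrelR] at h1
    exact h1
  rw [← hclass]
  exact rayClass_mem_of_artinAt h𝔪 hP'c hsplit

end FA.ArtinRec
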