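import Fermat.Agent.ArtinReciprocity.NumberLemma
import Fermat.Agent.ArtinReciprocity.Crossing
import Fermat.Agent.ArtinReciprocity.Compositum

/-!
# Artin reciprocity for cyclic extensions

For a cyclic extension the classes of the primes modulo the norm classes are those of the powers
of one prime of symbol a generator, by crossing with auxiliary cyclotomic fields; so the symbol
gives an isomorphism of the Galois group with the norm class group, and only depends on the class.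
-/

set_option autoImplicit false
set_option linter.unusedSectionVars false
set_option linter.style.haveILetI false

noncomputable section

open NumberField IsDedekindDomain Finset
open FA.Hecke (coprimeIdeals rayClass RayClassGroup rayClass_surjective finite_rayClassGroup)
open FA.Ext (primeIdeal)
open scoped Pointwise nonZeroDivisors Classical

namespace FA.ArtinRec

variable {K L : Type*} [Field K] [NumberField K] [Field L] [NumberField L] [Algebra K L]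
  [IsGalois K L] [IsMulCommutative (L ≃ₐ[K] L)]

theorem absNorm_coprime_mem {v : HeightOneSpectrum (𝓞 K)} {m : ℕ}
    (h : (Ideal.absNorm v.asIdeal).Coprime m) : (m : 𝓞 K) ∉ v.asIdeal := fun hm => by
  obtain ⟨s, t, hst⟩ := Int.isCoprime_iff_nat_coprime.2
    (show (Ideal.absNorm v.asIdeal : ℤ).natAbs.Coprime (m : ℤ).natAbs by simpa using h)
  refine v.isPrime.ne_top ((Ideal.eq_top_iff_one _).2 ?_)
  have h1 := congrArg (fun z : ℤ => (z : 𝓞 K)) hst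
  push_cast at h1
  rw [← h1]
  exact Ideal.add_mem _ (Ideal.mul_mem_left _ _ (Ideal.absNorm_mem _)) (Ideal.mul_mem_left _ _ hm)

theorem eq_one_of_mem_sup_zpowers {G A C : Type*} [Group G] [IsMulCommutative G] [Group A]
    [Group C] (res : G →* A) (c : G →* C) (hinj : ∀ g, res g = 1 → c g = 1 → g = 1) {n : ℕ}
    (hn : ∀ a : A, a ^ n = 1) {x y : G}
    (hsep : ∀ i j : ℤ, c x ^ i * c y ^ j = 1 → (n : ℤ) ∣ i ∧ (n : ℤ) ∣ j) :
    ∀ g ∈ Subgroup.zpowers x ⊔ Subgroup.zpowers y, c g = 1 → g = 1 := by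
  intro g hg hcg
  obtain ⟨_, ⟨i, rfl⟩, _, ⟨j, rfl⟩, rfl⟩ := Subgroup.mem_sup_of_normal_right.1 hg
  have hcg' : c x ^ i * c y ^ j = 1 := by simpa using hcg
  obtain ⟨⟨i', rfl⟩, ⟨j', rfl⟩⟩ := hsep i j hcg'
  refine hinj _ ?_ hcg
  simp [zpow_mul, zpow_natCast, hn]

/-- **Two primes are compared through an auxiliary one.** -/
theorem exists_reference (σ : L ≃ₐ[K] L) {𝔪 : Ideal (𝓞 K)}
    (h𝔪 : 𝔪 ≠ ⊥) (hram : ∀ v, IsRam L v → 𝔪 ≤ v.asIdeal) (P₁ P₂ : HeightOneSpectrum (𝓞 K))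
    (h₁ : P₁.asIdeal ⊔ 𝔪 = ⊤) (h₂ : P₂.asIdeal ⊔ 𝔪 = ⊤) (d₁ d₂ : ℕ)
    (hd₁ : σ ^ d₁ = artinAt L P₁) (hd₂ : σ ^ d₂ = artinAt L P₂) :
    ∃ r : RayClassGroup 𝔪 ⧸ normClasses L h𝔪, r ^ Module.finrank K L = 1 ∧
      QuotientGroup.mk (rayClass h𝔪 ⟨primeIdeal P₁, h₁⟩) = r ^ d₁ ∧
      QuotientGroup.mk (rayClass h𝔪 ⟨primeIdeal P₂, h₂⟩) = r ^ d₂ := by
  set n := Module.finrank K L
  have hn : 0 < n := Module.finrank_pos
  have hpown : ∀ g : L ≃ₐ[K] L, g ^ n = 1 := fun g => by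
    rw [show n = Nat.card (L ≃ₐ[K] L) from (IsGalois.card_aut_eq_finrank K L).symm, pow_card_eq_one']
  obtain ⟨m, hm0, hmB, b, hb⟩ := exists_crossing_modulus (a₁ := Ideal.absNorm P₁.asIdeal)
    (a₂ := Ideal.absNorm P₂.asIdeal) (FA.Ext.two_le_absNorm P₁) (FA.Ext.two_le_absNorm P₂) hn
    (NumberField.discr L).natAbs
  haveI : NeZero m := ⟨hm0⟩
  have hd : ∀ p ∈ m.primeFactors, ¬ (p : ℤ) ∣ NumberField.discr L := fun p hp hdvd => by
    have h1 := hmB p (Nat.prime_of_mem_primeFactors hp) (Nat.dvd_of_mem_primeFactors hp)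
    have h2 := Nat.le_of_dvd (Int.natAbs_pos.2 (NumberField.discr_ne_zero L))
      (Int.natCast_dvd.1 hdvd)
    omega
  haveI : IsMulCommutative (CyclotomicField m L ≃ₐ[K] CyclotomicField m L) :=
    isMulCommutative_compositum m hd
  set c := cycChar K L m
  obtain ⟨g₀, hg₀L, hg₀c⟩ := exists_restrict_cycChar m hd σ b
  -- the auxiliary prime
  have hbad : ({v : HeightOneSpectrum (𝓞 K) | v.asIdeal ∣ 𝔪} ∪
      {v | v.asIdeal ∣ Ideal.span {(m : 𝓞 K)}}).Finite :=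
    (Ideal.finite_factors h𝔪).union (Ideal.finite_factors (by simp [hm0]))
  obtain ⟨R, hR, hRbad⟩ :=
    ((infinite_artinAt (L := CyclotomicField m L) g₀).sdiff hbad).nonempty
  simp only [Set.mem_union, Set.mem_ofPred_eq, not_or, Ideal.dvd_span_singleton] at hRbad
  obtain ⟨hR𝔪, hRm⟩ := hRbad
  have hRc : R.asIdeal ⊔ 𝔪 = ⊤ :=
    (sup_eq_top_iff_not_le R 𝔪).2 fun h => hR𝔪 (Ideal.dvd_iff_le.2 h)
  have hnr : ∀ w : HeightOneSpectrum (𝓞 K), w.asIdeal ⊔ 𝔪 = ⊤ → ¬ IsRam L w := fun w hw hr =>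
    (sup_eq_top_iff_not_le w 𝔪).1 hw (hram w hr)
  obtain ⟨QR, hQR, hτR⟩ := artinAt_spec (L := CyclotomicField m L) R
  rw [show artinAt (CyclotomicField m L) R = g₀ from hR] at hτR
  subst hQR
  have hσR : artinAt L (belowP K QR) = σ := by
    rw [← restrict_frob (L := L) (hnr _ hRc) rfl hτR, hg₀L]
  -- a prime against the auxiliary one
  have key : ∀ P : HeightOneSpectrum (𝓞 K), P = P₁ ∨ P = P₂ → ∀ (hP : P.asIdeal ⊔ 𝔪 = ⊤) (k : ℕ),
      artinAt L P * artinAt L (belowP K QR) ^ k = 1 →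
      rayClass h𝔪 ⟨primeIdeal P, hP⟩ * rayClass h𝔪 ⟨primeIdeal (belowP K QR), hRc⟩ ^ k ∈
        normClasses L h𝔪 ∧
      rayClass h𝔪 ⟨primeIdeal (belowP K QR), hRc⟩ ^ n ∈ normClasses L h𝔪 := by
    intro P hP' hP k hk
    have ha := hb (Ideal.absNorm P.asIdeal)
      (by rcases hP' with rfl | rfl; exacts [Or.inl rfl, Or.inr rfl])
    obtain ⟨hcop, hsep⟩ := ha
    have hmP : (m : 𝓞 K) ∉ P.asIdeal := absNorm_coprime_mem hcop
    obtain ⟨QP, hQP, hτP⟩ := artinAt_spec (L := CyclotomicField m L) P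
    subst hQP
    set τP := artinAt (CyclotomicField m L) (belowP K QP)
    have hcP : ((c τP : (ZMod m)ˣ) : ZMod m) = (Ideal.absNorm (belowP K QP).asIdeal : ℕ) :=
      cycChar_frob m hmP hτP
    have hU : ∀ g ∈ Subgroup.zpowers τP ⊔ Subgroup.zpowers g₀, c g = 1 → g = 1 :=
      eq_one_of_mem_sup_zpowers (AlgEquiv.restrictNormalHom L) c
        (fun g h1 h2 => eq_one_of_restrict_cycChar m hd h1 h2) hpown
        (fun i j h => by rw [hg₀c] at h; exact hsep (c τP) hcP i j h)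
    refine ⟨crossing c (fun Q τ hQ hτ => cycChar_frob m hQ hτ) _ hU h𝔪 hram hτP hτR
      (Subgroup.mem_sup_left (Subgroup.mem_zpowers _)) (Subgroup.mem_sup_right (Subgroup.mem_zpowers _))
      hmP hRm hP hRc k hk, ?_⟩
    have h1 := crossing c (fun Q τ hQ hτ => cycChar_frob m hQ hτ) _ hU h𝔪 hram hτR hτR
      (Subgroup.mem_sup_right (Subgroup.mem_zpowers _)) (Subgroup.mem_sup_right (Subgroup.mem_zpowers _))
      hRm hRm hRc hRc (n - 1) (by rw [← pow_succ', Nat.sub_add_cancel hn, hpown])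
    rwa [← pow_succ', Nat.sub_add_cancel hn] at h1
  set r : RayClassGroup 𝔪 ⧸ normClasses L h𝔪 :=
    QuotientGroup.mk (rayClass h𝔪 ⟨primeIdeal (belowP K QR), hRc⟩) with hr
  have hexp : ∀ (P : HeightOneSpectrum (𝓞 K)) (hP : P.asIdeal ⊔ 𝔪 = ⊤) (d : ℕ),
      P = P₁ ∨ P = P₂ → σ ^ d = artinAt L P →
      r ^ n = 1 ∧ QuotientGroup.mk (rayClass h𝔪 ⟨primeIdeal P, hP⟩) = r ^ d := by
    intro P hP d hP' hd'
    obtain ⟨h1, h2⟩ := key P hP' hP ((n - 1) * d) (by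
      rw [hσR, ← hd', ← pow_add, add_comm d, ← Nat.succ_mul, Nat.succ_eq_add_one,
        Nat.sub_add_cancel hn, pow_mul, hpown, one_pow])
    rw [← QuotientGroup.eq_one_iff, QuotientGroup.mk_pow, ← hr] at h2
    rw [← QuotientGroup.eq_one_iff, QuotientGroup.mk_mul, QuotientGroup.mk_pow, ← hr] at h1
    refine ⟨h2, ?_⟩
    have h3 : r ^ ((n - 1) * d) * r ^ d = 1 := by
      rw [← pow_add, ← Nat.succ_mul, Nat.succ_eq_add_one, Nat.sub_add_cancel hn, pow_mul, h2,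
        one_pow]
    rw [eq_inv_of_mul_eq_one_left h1, inv_eq_iff_mul_eq_one, h3]
  exact ⟨r, (hexp P₁ h₁ d₁ (Or.inl rfl) hd₁).1, (hexp P₁ h₁ d₁ (Or.inl rfl) hd₁).2,
    (hexp P₂ h₂ d₂ (Or.inr rfl) hd₂).2⟩

/-- **Artin reciprocity for cyclic extensions.** -/
theorem exists_cyclic_reciprocity {σ : L ≃ₐ[K] L} (hσ : ∀ g, g ∈ Subgroup.zpowers σ) :
    ∃ (𝔪 : Ideal (𝓞 K)) (h𝔪 : 𝔪 ≠ ⊥), (∀ v : HeightOneSpectrum (𝓞 K), v.asIdeal ∣ 𝔪 ↔ IsRam L v) ∧
      ∀ I J : coprimeIdeals 𝔪, rayClass h𝔪 I = rayClass h𝔪 J →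
        artinHom L I.1 = artinHom L J.1 := by
  obtain ⟨𝔪, h𝔪, hiff, hidx⟩ := exists_norm_index hσ
  refine ⟨𝔪, h𝔪, hiff, ?_⟩
  have hram : ∀ v, IsRam L v → 𝔪 ≤ v.asIdeal := fun v hv => Ideal.le_of_dvd ((hiff v).2 hv)
  haveI := finite_rayClassGroup h𝔪
  obtain ⟨P₀, hP₀, hP₀m⟩ :=
    ((infinite_artinAt (L := L) σ).sdiff (Ideal.finite_factors h𝔪)).nonempty
  have hP₀c : P₀.asIdeal ⊔ 𝔪 = ⊤ :=
    (sup_eq_top_iff_not_le P₀ 𝔪).2 fun h => hP₀m (Ideal.dvd_iff_le.2 h)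
  set r₀ : RayClassGroup 𝔪 ⧸ normClasses L h𝔪 :=
    QuotientGroup.mk (rayClass h𝔪 ⟨primeIdeal P₀, hP₀c⟩) with hr₀
  have hdata : ∀ (P : HeightOneSpectrum (𝓞 K)) (hP : P.asIdeal ⊔ 𝔪 = ⊤) (d : ℕ),
      σ ^ d = artinAt L P → r₀ ^ Module.finrank K L = 1 ∧
        QuotientGroup.mk (rayClass h𝔪 ⟨primeIdeal P, hP⟩) = r₀ ^ d := by
    intro P hP d hd
    obtain ⟨r, hr, h1, h2⟩ := exists_reference σ h𝔪 hram P P₀ hP hP₀c d 1 hd
      (by rw [pow_one]; exact hP₀.symm)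
    rw [pow_one, ← hr₀] at h2
    subst h2
    exact ⟨hr, h1⟩
  have hord : orderOf r₀ ∣ orderOf σ := by
    rw [orderOf_eq_card_of_forall_mem_zpowers hσ, IsGalois.card_aut_eq_finrank]
    exact orderOf_dvd_of_pow_eq_one
      (hdata P₀ hP₀c 1 (by rw [pow_one]; exact hP₀.symm)).1
  let ψ : (L ≃ₐ[K] L) →* RayClassGroup 𝔪 ⧸ normClasses L h𝔪 :=
    monoidHomOfForallMemZpowers hσ hord
  have hψ : ∀ d : ℕ, ψ (σ ^ d) = r₀ ^ d := fun d => by
    rw [map_pow]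
    congr 1
    exact monoidHomOfForallMemZpowers_apply_gen hσ hord
  have hcomm : (ψ.comp ((artinHom L).comp (coprimeIdeals 𝔪).subtype)) =
      (QuotientGroup.mk' (normClasses L h𝔪)).comp (rayClass h𝔪) := by
    refine hom_ext_primes fun v hv => ?_
    obtain ⟨d, hd⟩ := exists_pow_eq hσ (artinAt L v)
    show ψ (artinHom L (primeIdeal v)) = QuotientGroup.mk (rayClass h𝔪 ⟨primeIdeal v, hv⟩)
    rw [artinHom_prime, ← hd, hψ, (hdata v hv d hd).2]
  have hbij : Function.Bijective ψ := by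
    refine (Nat.bijective_iff_surjective_and_card ψ).2 ⟨fun q => ?_, ?_⟩
    · obtain ⟨γ, rfl⟩ := QuotientGroup.mk_surjective q
      obtain ⟨I, rfl⟩ := rayClass_surjective h𝔪 γ
      exact ⟨_, DFunLike.congr_fun hcomm I⟩
    · rw [IsGalois.card_aut_eq_finrank, ← hidx]
      rfl
  intro I J hIJ
  refine hbij.1 ?_
  have h1 := DFunLike.congr_fun hcomm I
  have h2 := DFunLike.congr_fun hcomm J
  exact h1.trans ((congrArg (QuotientGroup.mk' _) hIJ).trans h2.symm)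

end FA.ArtinRec
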