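import Fermat.Agent.ArtinReciprocity.Places

/-!
# Congruence subgroups with trivial cohomology

For a prime `v` of `K` the elements of `L` whose coordinates in a normal basis are divisible by a
high power of `v` give congruence subgroups `1 + Λ` of `Lˣ` on whose cosets an element fixed by a
generator comes from `K`: no completion is needed.
-/

set_option autoImplicit false
set_option linter.unusedSectionVars false
set_option linter.style.haveILetI false

noncomputable section

open NumberField IsDedekindDomain Finset WithZero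
open scoped Pointwise nonZeroDivisors Classical

namespace FA.ArtinRec

variable {K L : Type*} [Field K] [NumberField K] [Field L] [NumberField L] [Algebra K L]
  [IsGalois K L]

variable (K L) in
/-- The normal basis used for the coordinates. -/
def nbas : Module.Basis (L ≃ₐ[K] L) K L := IsGalois.normalBasis K L

theorem nbas_smul (g h : L ≃ₐ[K] L) : g (nbas K L h) = nbas K L (g * h) := by
  rw [nbas, IsGalois.normalBasis_apply h, IsGalois.normalBasis_apply (g * h)]
  rfl

theorem repr_gal (g : L ≃ₐ[K] L) (z : L) (h : L ≃ₐ[K] L) :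
    (nbas K L).repr (g z) h = (nbas K L).repr z (g⁻¹ * h) := by
  conv_lhs => rw [← (nbas K L).sum_repr z]
  rw [map_sum, map_sum, Finsupp.finsetSum_apply, Finset.sum_eq_single (g⁻¹ * h)]
  · rw [Algebra.smul_def, map_mul, AlgEquiv.commutes, ← Algebra.smul_def, map_smul, nbas_smul,
      mul_inv_cancel_left, Module.Basis.repr_self]
    simp
  · intro k _ hk
    rw [Algebra.smul_def, map_mul, AlgEquiv.commutes, ← Algebra.smul_def, map_smul, nbas_smul,
      Module.Basis.repr_self, Finsupp.smul_apply,
      Finsupp.single_eq_of_ne (fun e => hk (by rw [e, inv_mul_cancel_left])), smul_zero]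
  · exact fun h0 => absurd (Finset.mem_univ _) h0

variable (K L) in
/-- The trace of the basis vector. -/
def nTr : K := Algebra.trace K L (nbas K L 1)

theorem algebraMap_nTr : algebraMap K L (nTr K L) = ∑ g : L ≃ₐ[K] L, nbas K L g := by
  rw [nTr, trace_eq_sum_automorphisms]
  refine Finset.sum_congr rfl fun g _ => ?_
  rw [nbas_smul, mul_one]

theorem nTr_ne_zero : nTr K L ≠ 0 := fun h => by
  have h1 := algebraMap_nTr (K := K) (L := L)
  rw [h, map_zero] at h1
  have h2 := Fintype.linearIndependent_iff.1 (nbas K L).linearIndependent (fun _ => 1)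
    (by simpa using h1.symm) 1
  exact one_ne_zero h2

theorem repr_algebraMap (a : K) (g : L ≃ₐ[K] L) :
    (nbas K L).repr (algebraMap K L a) g = a / nTr K L := by
  have h : algebraMap K L a = ∑ h : L ≃ₐ[K] L, (a / nTr K L) • nbas K L h := by
    rw [← Finset.smul_sum, ← algebraMap_nTr, Algebra.smul_def, ← map_mul,
      div_mul_cancel₀ _ nTr_ne_zero]
  rw [h, map_sum, Finsupp.finsetSum_apply]
  simp

variable (v : HeightOneSpectrum (𝓞 K))

/-- The coordinates are divisible by `v ^ j`. -/
def InLam (j : ℤ) (z : L) : Prop :=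
  ∀ g, v.valuation K ((nbas K L).repr z g) ≤ exp (-j)

variable {v}

theorem InLam.mono {j j' : ℤ} {z : L} (h : InLam v j z) (hj : j' ≤ j) : InLam v j' z :=
  fun g => (h g).trans (exp_le_exp.2 (by omega))

theorem InLam.add {j : ℤ} {z w : L} (hz : InLam v j z) (hw : InLam v j w) :
    InLam v j (z + w) := fun g => by
  rw [map_add, Finsupp.add_apply]
  exact Valuation.map_add_le _ (hz g) (hw g)

theorem InLam.neg {j : ℤ} {z : L} (hz : InLam v j z) : InLam v j (-z) := fun g => by
  rw [map_neg, Finsupp.neg_apply, Valuation.map_neg]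
  exact hz g

theorem InLam.sub {j : ℤ} {z w : L} (hz : InLam v j z) (hw : InLam v j w) :
    InLam v j (z - w) := sub_eq_add_neg z w ▸ hz.add hw.neg

theorem inLam_zero (j : ℤ) : InLam v j (0 : L) := fun g => by simp

theorem InLam.sum {ι : Type*} (s : Finset ι) {f : ι → L} {j : ℤ}
    (h : ∀ i ∈ s, InLam v j (f i)) : InLam v j (∑ i ∈ s, f i) := by
  induction s using Finset.induction with
  | empty => exact inLam_zero j
  | insert a s ha ih =>
    rw [sum_insert ha]
    exact (h a (mem_insert_self _ _)).add (ih fun i hi => h i (mem_insert_of_mem hi))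

theorem InLam.gal (g : L ≃ₐ[K] L) {j : ℤ} {z : L} (hz : InLam v j z) : InLam v j (g z) :=
  fun h => by rw [repr_gal]; exact hz _

theorem InLam.smul {j i : ℤ} {z : L} {a : K} (ha : v.valuation K a ≤ exp (-i))
    (hz : InLam v j z) : InLam v (i + j) (a • z) := fun g => by
  rw [map_smul, Finsupp.smul_apply, smul_eq_mul, map_mul, show -(i + j) = -i + -j by ring, exp_add]
  exact mul_le_mul' ha (hz g)

theorem valuation_sum_le {ι : Type*} (s : Finset ι) {f : ι → K} {b : ℤᵐ⁰}
    (h : ∀ i ∈ s, v.valuation K (f i) ≤ b) : v.valuation K (∑ i ∈ s, f i) ≤ b :=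
  (v.valuation K).map_sum_le h

theorem exists_valuation_le_exp {ι : Type*} [Fintype ι] (f : ι → K) :
    ∃ C : ℤ, 0 ≤ C ∧ ∀ i, v.valuation K (f i) ≤ exp C := by
  refine ⟨∑ i, |log (v.valuation K (f i))|, Finset.sum_nonneg fun i _ => abs_nonneg _, fun i => ?_⟩
  by_cases h : v.valuation K (f i) = 0
  · rw [h]; exact zero_le
  · conv_lhs => rw [← exp_log h]
    exact exp_le_exp.2 ((le_abs_self _).trans (Finset.single_le_sum
      (f := fun i => |log (v.valuation K (f i))|) (fun i _ => abs_nonneg _) (Finset.mem_univ i)))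

variable (v L) in
/-- **A bound for products.** -/
theorem exists_inLam_mul :
    ∃ C : ℤ, 0 ≤ C ∧ ∀ (i j : ℤ) (z w : L), InLam v i z → InLam v j w →
      InLam v (i + j - C) (z * w) := by
  obtain ⟨C, hC, hCb⟩ := exists_valuation_le_exp (v := v)
    fun p : (L ≃ₐ[K] L) × (L ≃ₐ[K] L) × (L ≃ₐ[K] L) =>
      (nbas K L).repr (nbas K L p.1 * nbas K L p.2.1) p.2.2
  refine ⟨C, hC, fun i j z w hz hw g => ?_⟩
  conv_lhs => rw [← (nbas K L).sum_repr z, ← (nbas K L).sum_repr w]
  rw [Finset.sum_mul, map_sum, Finsupp.finsetSum_apply]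
  refine valuation_sum_le _ fun a _ => ?_
  rw [Finset.mul_sum, map_sum, Finsupp.finsetSum_apply]
  refine valuation_sum_le _ fun b _ => ?_
  rw [smul_mul_smul_comm, map_smul, Finsupp.smul_apply, smul_eq_mul, map_mul, map_mul,
    show -(i + j - C) = -i + -j + C by ring, exp_add, exp_add]
  exact mul_le_mul' (mul_le_mul' (hz a) (hw b)) (hCb (a, b, g))

/-- A multiplication constant. -/
def mulC (v : HeightOneSpectrum (𝓞 K)) (L : Type*) [Field L] [NumberField L] [Algebra K L]
    [IsGalois K L] : ℤ :=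
  (exists_inLam_mul L v).choose

theorem mulC_nonneg : 0 ≤ mulC v L := (exists_inLam_mul L v).choose_spec.1

theorem InLam.mul {i j : ℤ} {z w : L} (hz : InLam v i z) (hw : InLam v j w) :
    InLam v (i + j - mulC v L) (z * w) :=
  (exists_inLam_mul L v).choose_spec.2 i j z w hz hw

theorem exists_max_coord (z : L) :
    ∃ g, ∀ h, v.valuation K ((nbas K L).repr z h) ≤ v.valuation K ((nbas K L).repr z g) := by
  obtain ⟨g, -, hg⟩ := Finset.exists_max_image (Finset.univ : Finset (L ≃ₐ[K] L))
    (fun g => v.valuation K ((nbas K L).repr z g)) Finset.univ_nonempty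
  exact ⟨g, fun h => hg h (Finset.mem_univ h)⟩

/-- A solution of `w = b - z w` is as small as `b`. -/
theorem inLam_of_eq_sub {j : ℤ} {z w b : L} (hz : InLam v j z) (hj : mulC v L < j)
    (hb : InLam v j b) (h : w = b - z * w) : InLam v j w := by
  obtain ⟨g, hg⟩ := exists_max_coord (v := v) w
  intro h'
  refine (hg h').trans ?_
  by_contra hlt
  rw [not_le] at hlt
  set μ := v.valuation K ((nbas K L).repr w g) with hμ
  have hμ0 : μ ≠ 0 := (lt_of_le_of_lt zero_le hlt).ne'
  have hw : InLam v (-log μ) w := fun k => by rw [neg_neg, exp_log hμ0]; exact hg k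
  have hzw := hz.mul hw g
  have hlog : -j < log μ := exp_lt_exp.1 (hlt.trans_eq (exp_log hμ0).symm)
  have h1 : v.valuation K ((nbas K L).repr (b - z * w) g) < μ := by
    rw [map_sub, Finsupp.sub_apply]
    refine Valuation.map_sub_lt _ ((hb g).trans_lt hlt) (hzw.trans_lt ?_)
    exact (exp_lt_exp.2 (by omega)).trans_eq (exp_log hμ0)
  rw [← h] at h1
  exact lt_irrefl _ h1

theorem one_add_ne_zero {j : ℤ} {z : L} (hz : InLam v j z) (hj : mulC v L < j) : 1 + z ≠ 0 := by
  intro h0
  have hz1 : z = -1 := eq_neg_of_add_eq_zero_right h0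
  have h1 : ∀ k : ℕ, InLam v (j + k) (1 : L) := fun k => by
    induction k with
    | zero => rw [Nat.cast_zero, add_zero]; simpa [hz1] using hz.neg
    | succ k ih => exact (one_mul (1 : L) ▸ ih.mul (by simpa [hz1] using hz.neg)).mono (by
        push_cast; omega)
  have h2 : v.valuation K (1 / nTr K L) ≠ 0 := by simp [nTr_ne_zero]
  obtain ⟨k, hk⟩ : ∃ k : ℕ, -(log (v.valuation K (1 / nTr K L))) < j + k :=
    ⟨(-(log (v.valuation K (1 / nTr K L))) - j).toNat + 1, by omega⟩
  have h3 := h1 k 1
  rw [← map_one (algebraMap K L), repr_algebraMap] at h3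
  have h4 := exp_le_exp.1 ((exp_log h2).trans_le h3)
  omega

variable (v L) in
/-- **The congruence subgroup of level `j`.** -/
def congUnits (j : ℤ) (hj : mulC v L < j) : Subgroup Lˣ where
  carrier := {x | InLam v j ((x : L) - 1)}
  one_mem' := by simpa using inLam_zero j
  mul_mem' {x y} hx hy := by
    show InLam v j (((x * y : Lˣ) : L) - 1)
    rw [Units.val_mul, show (x : L) * y - 1 = ((x : L) - 1) + (y - 1) + (x - 1) * (y - 1) by ring]
    exact (InLam.add (v := v) hx hy).add ((InLam.mul (v := v) hx hy).mono (by omega))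
  inv_mem' {x} hx := by
    show InLam v j (((x⁻¹ : Lˣ) : L) - 1)
    refine inLam_of_eq_sub hx hj (InLam.neg hx) ?_
    rw [Units.val_inv_eq_inv_val]
    field_simp
    ring

theorem mem_congUnits {j : ℤ} (hj : mulC v L < j) {x : Lˣ} :
    x ∈ congUnits L v j hj ↔ InLam v j ((x : L) - 1) := Iff.rfl

theorem isStable_congUnits {j : ℤ} (hj : mulC v L < j) (g : L ≃ₐ[K] L) :
    IsStable (galU g) (congUnits L v j hj) := fun x hx => by
  rw [mem_congUnits, galU_val, ← map_one g, ← map_sub]
  exact InLam.gal g hx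

theorem baseU_mem_congUnits {j : ℤ} (hj : mulC v L < j) {a : Kˣ}
    (h : v.valuation K ((a : K) - 1) ≤ exp (-j) * v.valuation K (nTr K L)) :
    baseU a ∈ congUnits L v j hj := fun g => by
  rw [baseU_val, ← map_one (algebraMap K L), ← map_sub, repr_algebraMap, map_div₀,
    div_le_iff₀ (zero_lt_iff.2 (by simp [nTr_ne_zero]))]
  exact h

/-- Products of elements near one. -/
theorem prod_one_add {ι : Type*} (s : Finset ι) {f : ι → L} {k : ℤ} (hk : mulC v L < k)
    (hf : ∀ i ∈ s, InLam v k (f i)) :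
    InLam v k (∏ i ∈ s, (1 + f i) - 1) ∧
      InLam v (k + 1) (∏ i ∈ s, (1 + f i) - 1 - ∑ i ∈ s, f i) := by
  induction s using Finset.induction with
  | empty => simp [inLam_zero]
  | insert a s ha ih =>
    obtain ⟨h1, h2⟩ := ih fun i hi => hf i (mem_insert_of_mem hi)
    have ha' := hf a (mem_insert_self _ _)
    rw [prod_insert ha, sum_insert ha]
    set P := ∏ i ∈ s, (1 + f i)
    set S := ∑ i ∈ s, f i
    refine ⟨?_, ?_⟩
    · rw [show (1 + f a) * P - 1 = f a + (P - 1) + f a * (P - 1) by ring]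
      exact (ha'.add h1).add ((ha'.mul h1).mono (by omega))
    · rw [show (1 + f a) * P - 1 - (f a + S) = (P - 1 - S) + f a * (P - 1) by ring]
      exact h2.add ((ha'.mul h1).mono (by omega))

variable {σ : L ≃ₐ[K] L} (hσ : ∀ g, g ∈ Subgroup.zpowers σ)

include hσ in
/-- **The additive step.** -/
theorem exists_diff_inLam {k : ℤ} {l : L} (hl : InLam v k l)
    (hsum : InLam v (k + 1) (∑ g : L ≃ₐ[K] L, g l)) :
    ∃ m : L, InLam v k m ∧ InLam v (k + 1) (l + m - σ m) := by
  set c : (L ≃ₐ[K] L) → K := fun g => (nbas K L).repr l g with hc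
  set S : K := ∑ g, c g
  have hS : v.valuation K S ≤ exp (-(k + 1)) := by
    have h := hsum 1
    rw [map_sum, Finsupp.finsetSum_apply] at h
    refine le_of_eq_of_le ?_ h
    congr 1
    exact Fintype.sum_equiv ((Equiv.inv _).trans (Equiv.mulRight 1)) _ _ fun g => by
      rw [repr_gal]; simp [hc]
  have hord : 0 < orderOf σ := orderOf_pos σ
  choose idx hidx using fun g : L ≃ₐ[K] L =>
    (show ∃ i, i < orderOf σ ∧ σ ^ i = g from by
      obtain ⟨i, hi⟩ := exists_pow_eq hσ g
      exact ⟨i % orderOf σ, Nat.mod_lt _ hord, (pow_mod_orderOf σ i).trans hi⟩)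
  have hidx_eq : ∀ i, i < orderOf σ → idx (σ ^ i) = i := fun i hi =>
    pow_injOn_Iio_orderOf (hidx _).1 hi (hidx _).2
  set d : (L ≃ₐ[K] L) → K := fun g => -∑ i ∈ Finset.range (idx g), c (σ ^ (i + 1))
  set m : L := (nbas K L).equivFun.symm d with hm
  have hmrepr : ∀ g, (nbas K L).repr m g = d g := fun g =>
    congrFun ((nbas K L).equivFun.apply_symm_apply d) g
  refine ⟨m, fun g => ?_, fun g => ?_⟩
  · rw [hmrepr]
    show v.valuation K (-_) ≤ _
    rw [Valuation.map_neg]
    exact valuation_sum_le _ fun i _ => hl _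
  rw [map_sub, map_add, Finsupp.sub_apply, Finsupp.add_apply, repr_gal, hmrepr, hmrepr]
  show v.valuation K (c g + d g - d (σ⁻¹ * g)) ≤ _
  rcases Nat.eq_zero_or_pos (idx g) with h0 | hpos
  · have hg : g = 1 := by rw [← (hidx g).2, h0, pow_zero]
    obtain ⟨o, ho⟩ : ∃ o, orderOf σ = o + 1 := ⟨orderOf σ - 1, by omega⟩
    have hlast : idx (σ⁻¹ * g) = o := by
      rw [hg, mul_one, ← hidx_eq o (by omega)]
      refine congrArg idx (inv_eq_of_mul_eq_one_right ?_)
      rw [← pow_succ', ← ho, pow_orderOf_eq_one]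
    have hS' : S = c g + ∑ i ∈ Finset.range o, c (σ ^ (i + 1)) := by
      have e : S = ∑ i ∈ Finset.range (orderOf σ), c (σ ^ i) :=
        (Finset.sum_bij (fun i _ => σ ^ i) (fun i _ => Finset.mem_univ _)
          (fun a ha b hb hab => pow_injOn_Iio_orderOf (Finset.mem_range.1 ha)
            (Finset.mem_range.1 hb) hab)
          (fun g _ => ⟨idx g, Finset.mem_range.2 (hidx g).1, (hidx g).2⟩) fun _ _ => rfl).symm
      rw [e, ho, Finset.sum_range_succ', pow_zero, hg, add_comm]
    simp only [d, h0, hlast, Finset.sum_range_zero, neg_zero, add_zero, sub_neg_eq_add]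
    exact hS' ▸ hS
  · obtain ⟨i, hi⟩ : ∃ i, idx g = i + 1 := ⟨idx g - 1, by omega⟩
    have hprev : σ⁻¹ * g = σ ^ i := by
      conv_lhs => rw [← (hidx g).2, hi, pow_succ']
      rw [inv_mul_cancel_left]
    simp only [d, hprev, hidx_eq i (by have := (hidx g).1; omega), hi, Finset.sum_range_succ]
    rw [show σ ^ (i + 1) = g by rw [← hi]; exact (hidx g).2]
    simp

include hσ in
/-- **An element with `σ x / x` near one is near `K` times an element near one.** -/
theorem exists_step {j : ℤ} (hj : mulC v L < j) {x : Lˣ}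
    (hx : diffHom (galU σ) x ∈ congUnits L v j hj) (i : ℕ) :
    ∃ w ∈ congUnits L v j hj, InLam v (j + i) ((diffHom (galU σ) (x / w) : L) - 1) := by
  induction i with
  | zero => exact ⟨1, one_mem _, by rw [div_one, Nat.cast_zero, add_zero]; exact hx⟩
  | succ i ih =>
    obtain ⟨w₀, hw₀, hk⟩ := ih
    set u := diffHom (galU σ) (x / w₀) with hu
    set l : L := (u : L) - 1 with hl
    have hul : (u : L) = 1 + l := by rw [hl]; ring
    have hk' : mulC v L < j + i := by omega
    have hnorm : ∏ t ∈ Finset.range (Module.finrank K L), (σ ^ t) (u : L) = 1 := by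
      have h1 : normHom (galU σ) (Module.finrank K L) u = 1 := by
        have hper := galU_period (K := K) (pow_finrank_eq_one hσ)
        rw [hu, diffHom_apply, map_div, norm_apply_s hper, div_self']
      rw [← Units.val_one, ← h1, normHom_apply, Units.coe_prod]
      simp only [galU_iterate, galU_val]
    have hsum : InLam v (j + i + 1) (∑ g : L ≃ₐ[K] L, g l) := by
      have h2 := (prod_one_add (Finset.range (Module.finrank K L)) hk'
        (f := fun t => (σ ^ t) l) fun t _ => InLam.gal _ hk).2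
      rw [Finset.prod_congr rfl fun t _ => show 1 + (σ ^ t) l = (σ ^ t) (u : L) by
        rw [hul, map_add, map_one]] at h2
      rw [hnorm, sub_self, zero_sub] at h2
      have h3 := h2.neg
      rw [neg_neg] at h3
      have hcard : orderOf σ = Module.finrank K L := by
        rw [orderOf_eq_card_of_forall_mem_zpowers hσ, IsGalois.card_aut_eq_finrank]
      refine (congrArg (InLam v (j + i + 1)) ?_).mp h3
      refine Finset.sum_bij (fun t _ => σ ^ t) (fun t _ => Finset.mem_univ _)
        (fun a ha b hb hab => ?_) (fun g _ => ?_) fun _ _ => rfl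
      · rw [Finset.mem_range, ← hcard] at ha hb
        exact pow_injOn_Iio_orderOf ha hb hab
      · obtain ⟨t, rfl⟩ := exists_pow_eq hσ g
        exact ⟨t % orderOf σ, Finset.mem_range.mpr (hcard ▸ Nat.mod_lt _ (orderOf_pos σ)),
          pow_mod_orderOf σ t⟩
    obtain ⟨m, hm, hm'⟩ := exists_diff_inLam hσ hk hsum
    set w : Lˣ := Units.mk0 (1 + m) (one_add_ne_zero hm hk')
    have hwv : (w : L) = 1 + m := rfl
    have hw : w ∈ congUnits L v j hj := by
      rw [mem_congUnits, hwv, add_sub_cancel_left]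
      exact hm.mono (by omega)
    have hgw : InLam v j (((galU σ w)⁻¹ : Lˣ) - 1 : L) :=
      inv_mem (isStable_congUnits hj σ _ hw)
    have hkey : InLam v (j + i + 1) ((u : L) * w - galU σ w) := by
      rw [hul, hwv, galU_val, hwv, map_add, map_one,
        show (1 + l) * (1 + m) - (1 + σ m) = (l + m - σ m) + l * m by ring]
      exact hm'.add ((hk.mul hm).mono (by omega))
    refine ⟨w₀ * w, mul_mem hw₀ hw, ?_⟩
    have e : diffHom (galU σ) (x / (w₀ * w)) = u * w * (galU σ w)⁻¹ := by
      rw [← div_div, map_div (diffHom (galU σ)), ← hu, diffHom_apply, div_div_eq_mul_div,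
        div_eq_mul_inv]
    have e2 : ((u * w * (galU σ w)⁻¹ : Lˣ) : L) - 1 = ((u : L) * w - galU σ w) +
        ((u : L) * w - galU σ w) * ((((galU σ w)⁻¹ : Lˣ) : L) - 1) := by
      rw [Units.val_mul, Units.val_mul, mul_sub, mul_one, add_sub_cancel, sub_mul,
        Units.mul_inv]
    rw [e, e2]
    refine InLam.mono (hkey.add ((hkey.mul hgw).mono (by omega))) (by push_cast; omega)

include hσ in
/-- **The fixed classes modulo the congruence subgroup come from `K`.** -/
theorem mem_baseU_mul_congUnits {j : ℤ} (hj : mulC v L < j) {x : Lˣ}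
    (hx : diffHom (galU σ) x ∈ congUnits L v j hj) :
    ∃ a : Kˣ, ∃ w ∈ congUnits L v j hj, baseU a * w = x := by
  have ht : v.valuation K (nTr K L) ≠ 0 := by simp [nTr_ne_zero]
  set T := log (v.valuation K (nTr K L))
  obtain ⟨i, hi⟩ : ∃ i : ℕ, mulC v L + j - T ≤ j + i ∧ mulC v L < j + i :=
    ⟨(mulC v L + j - T - j).toNat + 1, by omega, by omega⟩
  obtain ⟨w, hw, hd⟩ := exists_step hσ hj hx i
  set y := x / w with hy
  set c : (L ≃ₐ[K] L) → K := fun g => (nbas K L).repr (y : L) g with hc
  obtain ⟨g₀, hg₀⟩ := exists_max_coord (v := v) (y : L)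
  have hc0 : v.valuation K (c g₀) ≠ 0 := fun h0 => y.ne_zero (by
    rw [← (nbas K L).sum_repr (y : L)]
    refine Finset.sum_eq_zero fun g _ => ?_
    have := hg₀ g
    simp only [hc] at h0
    rw [h0, le_zero_iff, map_eq_zero] at this
    rw [this, zero_smul])
  set m := log (v.valuation K (c g₀))
  have hyl : InLam v (-m) (y : L) := fun g => by rw [neg_neg, exp_log hc0]; exact hg₀ g
  have hdiff : ∀ g, v.valuation K (c (σ⁻¹ * g) - c g) ≤ exp (m - (j + i - mulC v L)) := fun g => by
    have h := (hyl.mul hd) g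
    rw [show (y : L) * ((diffHom (galU σ) y : L) - 1) = σ (y : L) - y by
      rw [mul_sub, mul_one, diffHom_apply, ← Units.val_mul, mul_div_cancel, galU_val]] at h
    rw [map_sub, Finsupp.sub_apply, repr_gal] at h
    exact h.trans (exp_le_exp.2 (by omega))
  have hall : ∀ g, v.valuation K (c g - c 1) ≤ exp (m - (j + i - mulC v L)) := fun g => by
    obtain ⟨t, rfl⟩ := exists_pow_eq hσ g
    induction t with
    | zero => rw [pow_zero, sub_self, map_zero]; exact zero_le
    | succ t ih =>
      rw [show c (σ ^ (t + 1)) - c 1 = (c (σ ^ t) - c 1) - (c (σ⁻¹ * σ ^ (t + 1)) - c (σ ^ (t + 1)))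
        by rw [pow_succ', inv_mul_cancel_left]; ring]
      exact Valuation.map_sub_le _ ih (hdiff _)
  have hlt : v.valuation K (c 1 - c g₀) < v.valuation K (c g₀) := by
    rw [Valuation.map_sub_swap]
    exact (hall g₀).trans_lt ((exp_lt_exp.2 (by omega)).trans_eq (exp_log hc0))
  have hc1 : v.valuation K (c 1) = exp m :=
    (Valuation.map_eq_of_sub_lt _ hlt).trans (exp_log hc0).symm
  have hc1' : c 1 ≠ 0 := fun h => exp_ne_zero (hc1.symm.trans (by rw [h, map_zero]))
  set a : Kˣ := Units.mk0 (c 1 * nTr K L) (mul_ne_zero hc1' nTr_ne_zero)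
  have hz : InLam v j ((y : L) * ((a : K)⁻¹ • (1 : L)) - 1) := fun g => by
    rw [mul_smul_comm, mul_one, map_sub, map_smul, Finsupp.sub_apply, Finsupp.smul_apply,
      smul_eq_mul, ← map_one (algebraMap K L), repr_algebraMap,
      show (a : K)⁻¹ * (nbas K L).repr (y : L) g - 1 / nTr K L = (c g - c 1) / (c 1 * nTr K L) by
        have e : ∀ p q t : K, q ≠ 0 → t ≠ 0 → (q * t)⁻¹ * p - 1 / t = (p - q) / (q * t) :=
          fun p q t hq ht => by field_simp
        exact e _ _ _ hc1' nTr_ne_zero,
      map_div₀, map_mul, hc1, div_le_iff₀ (zero_lt_iff.2 (mul_ne_zero exp_ne_zero ht))]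
    refine (hall g).trans ?_
    rw [show v.valuation K (nTr K L) = exp T from (exp_log ht).symm, ← exp_add, ← exp_add,
      exp_le_exp]
    omega
  refine ⟨a, y / baseU a * w, mul_mem ?_ hw, by rw [← mul_assoc, mul_div_cancel, hy, div_mul_cancel]⟩
  rw [mem_congUnits, Units.val_div_eq_div_val, baseU_val, div_eq_mul_inv, ← map_inv₀,
    Algebra.algebraMap_eq_smul_one]
  exact hz

end FA.ArtinRec
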