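import Fermat.Agent.ArtinReciprocity.Units
import Fermat.Agent.ArtinReciprocity.LocalLattice

/-!
# The local norm index

For a cyclic extension `L/K` and a prime `v` of `K` there are `k` and a subgroup `N` of `Kˣ` of
finite index at least the order of the decomposition group, containing the norms from `Lˣ` and the
elements congruent to `1` modulo `v ^ k`.
-/

set_option autoImplicit false
set_option linter.unusedSectionVars false
set_option linter.style.haveILetI false

noncomputable section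

open NumberField IsDedekindDomain Finset WithZero
open scoped Pointwise nonZeroDivisors Classical

namespace FA.ArtinRec

variable {K L : Type*} [Field K] [NumberField K] [Field L] [NumberField L] [Algebra K L]
  [IsGalois K L] {v : HeightOneSpectrum (𝓞 K)}

theorem valuation_baseU (Q : HeightOneSpectrum (𝓞 L)) (a : K) :
    Q.valuation L (algebraMap K L a) = (belowP K Q).valuation K a ^ eIdx K Q := by
  haveI : Q.asIdeal.LiesOver (belowP K Q).asIdeal := ⟨rfl⟩
  exact (HeightOneSpectrum.valuation_liesOver L (belowP K Q) Q a).symm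

variable (v L) in
/-- A high level of congruence makes small at every prime over `v`. -/
theorem exists_level :
    ∃ j, mulC v L < j ∧
      ∀ z : L, InLam v j z → ∀ Q : HeightOneSpectrum (𝓞 L), belowP K Q = v → Q.valuation L z < 1 := by
  have := (finite_belowP (L := L) v).to_subtype
  obtain ⟨C, hC, hCb⟩ : ∃ C : ℤ, 0 ≤ C ∧
      ∀ (Q : HeightOneSpectrum (𝓞 L)) g, belowP K Q = v →
        Q.valuation L (nbas K L g) ≤ exp C := by
    refine ⟨∑ Q ∈ (finite_belowP (L := L) v).toFinset, ∑ g : L ≃ₐ[K] L,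
      |log (Q.valuation L (nbas K L g))|, Finset.sum_nonneg fun _ _ => Finset.sum_nonneg
        fun _ _ => abs_nonneg _, fun Q g hQ => ?_⟩
    rw [← exp_log (x := Q.valuation L (nbas K L g)) (by simp [(nbas K L).ne_zero g]), exp_le_exp]
    refine (le_abs_self _).trans ?_
    refine le_trans ?_ (Finset.single_le_sum (f := fun Q : HeightOneSpectrum (𝓞 L) =>
      ∑ g : L ≃ₐ[K] L, |log (Q.valuation L (nbas K L g))|)
      (fun _ _ => Finset.sum_nonneg fun _ _ => abs_nonneg _)
      ((finite_belowP (L := L) v).mem_toFinset.2 hQ))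
    exact Finset.single_le_sum (f := fun g => |log (Q.valuation L (nbas K L g))|)
      (fun _ _ => abs_nonneg _) (Finset.mem_univ g)
  refine ⟨mulC v L + C + 1, by omega, fun z hz Q hQ => ?_⟩
  rw [← (nbas K L).sum_repr z]
  refine Valuation.map_sum_lt _ one_ne_zero fun g _ => ?_
  rw [Algebra.smul_def, map_mul, valuation_baseU, hQ]
  have h0 : v.valuation K ((nbas K L).repr z g) ≤ exp (-(C + 1)) :=
    (hz g).trans (exp_le_exp.2 (by have := mulC_nonneg (v := v) (L := L); omega))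
  have h1 : v.valuation K ((nbas K L).repr z g) ^ eIdx K Q ≤ exp (-(C + 1)) :=
    (pow_le_of_le_one zero_le (h0.trans (by rw [← exp_zero, exp_le_exp]; omega))
      (eIdx_pos Q).ne').trans h0
  refine lt_of_le_of_lt (mul_le_mul' h1 (hCb Q g hQ)) ?_
  rw [← exp_add, ← exp_zero, exp_lt_exp]
  omega

variable (v L) in
/-- The level used at `v`. -/
def lvlAt : ℤ := (exists_level L v).choose

theorem mulC_lt_lvlAt : mulC v L < lvlAt L v := (exists_level L v).choose_spec.1

variable (v L) in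
/-- The congruence subgroup used at `v`. -/
def congAt : Subgroup Lˣ := congUnits L v (lvlAt L v) mulC_lt_lvlAt

theorem ord_eq_zero_of_mem_congAt {x : Lˣ} (hx : x ∈ congAt L v) {Q : HeightOneSpectrum (𝓞 L)}
    (hQ : belowP K Q = v) : ord Q x = 0 := by
  rw [ord_eq_iff, neg_zero, exp_zero, show (x : L) = ((x : L) - 1) + 1 by ring]
  have h := (exists_level L v).choose_spec.2 _ hx Q hQ
  rw [Valuation.map_add_eq_of_lt_right _ (by rwa [map_one]), map_one]

/-- Integral at the primes over `v` means integral up to a factor prime to `v`. -/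
theorem exists_clear {z : L} (h : ∀ Q : HeightOneSpectrum (𝓞 L), belowP K Q = v → Q.valuation L z ≤ 1) :
    ∃ (s : 𝓞 K) (a : 𝓞 L), s ∉ v.asIdeal ∧ algebraMap K L s * z = a := by
  rcases eq_or_ne z 0 with rfl | hz
  · exact ⟨1, 0, fun h => v.isPrime.ne_top ((Ideal.eq_top_iff_one _).2 h), by simp⟩
  set x : Lˣ := Units.mk0 z hz
  set bad := (finite_ord_ne_zero x).toFinset.filter fun Q => ord Q x < 0
  have hne : ∀ Q ∈ bad, ∃ r : 𝓞 K, r ∈ (belowP K Q).asIdeal ∧ r ∉ v.asIdeal := fun Q hQ => by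
    refine SetLike.not_le_iff_exists.1 fun hle => ?_
    have he : belowP K Q = v := HeightOneSpectrum.ext
      (((belowP K Q).isMaximal.eq_of_le v.isPrime.ne_top hle))
    have h1 := h Q he
    rw [show z = (x : L) from rfl, valuation_eq_exp, ← exp_zero, exp_le_exp] at h1
    have := (Finset.mem_filter.1 hQ).2
    omega
  choose! r hr hrv using hne
  set N : HeightOneSpectrum (𝓞 L) → ℕ := fun Q => (-ord Q x).toNat
  set s := ∏ Q ∈ bad, r Q ^ N Q with hs_def
  have hs : s ∉ v.asIdeal := fun hmem => by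
    haveI := v.isPrime
    obtain ⟨Q, hQ, hQ'⟩ := Ideal.IsPrime.prod_mem_iff.1 hmem
    exact hrv Q hQ (Ideal.IsPrime.mem_of_pow_mem ‹_› _ hQ')
  have hs0 : s ≠ 0 := fun h0 => hs (h0 ▸ v.asIdeal.zero_mem)
  obtain ⟨a, ha0, ha⟩ := exists_intU_of_ord_nonneg (x := baseU (intU s hs0) * x) fun Q => by
    rw [ord_mul, ord_baseU]
    have hn := ord_intU_nonneg (belowP K Q) hs0
    have he : (1 : ℤ) ≤ eIdx K Q := by exact_mod_cast eIdx_pos Q
    by_cases hlt : ord Q x < 0
    · have hQ : Q ∈ bad := Finset.mem_filter.2 ⟨(finite_ord_ne_zero x).mem_toFinset.2 hlt.ne, hlt⟩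
      have hmem : s ∈ (belowP K Q).asIdeal ^ N Q :=
        Ideal.mem_of_dvd _ (Finset.dvd_prod_of_mem _ hQ) (Ideal.pow_mem_pow (hr Q hQ) _)
      have h1 := (le_ord_intU_iff (belowP K Q) hs0 (N Q)).2 hmem
      simp only [N] at h1
      have h2 : ord (belowP K Q) (intU s hs0) ≤ eIdx K Q * ord (belowP K Q) (intU s hs0) :=
        le_mul_of_one_le_left hn he
      omega
    · have := mul_nonneg (Int.natCast_nonneg (eIdx K Q)) hn
      omega
  exact ⟨s, a, hs, by simpa [x] using congrArg Units.val ha⟩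

variable (v L) in
/-- **Small at every prime over `v` means deep in the lattice.** -/
theorem exists_inLam_of_small (j : ℤ) :
    ∃ π₀ : 𝓞 K, π₀ ≠ 0 ∧ ∀ z : L,
      (∀ Q : HeightOneSpectrum (𝓞 L), belowP K Q = v → Q.valuation L z ≤ Q.valuation L (algebraMap K L π₀)) →
        InLam v j z := by
  have : Module.Finite ℤ (𝓞 L) := inferInstance
  obtain ⟨S, hS⟩ := Module.Finite.fg_top (R := ℤ) (M := 𝓞 L)
  obtain ⟨C, hC, hCb⟩ := exists_valuation_le_exp (v := v)
    fun p : S × (L ≃ₐ[K] L) => (nbas K L).repr ((p.1.1 : 𝓞 L) : L) p.2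
  have hint : ∀ a : 𝓞 L, InLam v (-C) (a : L) := fun a => by
    have ha : a ∈ Submodule.span ℤ (S : Set (𝓞 L)) := hS ▸ Submodule.mem_top
    induction ha using Submodule.span_induction with
    | mem b hb => intro g; rw [neg_neg]; exact hCb (⟨b, hb⟩, g)
    | zero => simpa using inLam_zero (v := v) (-C)
    | add b c _ _ h1 h2 => rw [show ((b + c : 𝓞 L) : L) = (b : L) + c from rfl]; exact h1.add h2
    | smul m b _ h1 =>
      rw [show ((m • b : 𝓞 L) : L) = m • (b : L) from map_zsmul (algebraMap (𝓞 L) L) m b]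
      intro g
      rw [map_zsmul, Finsupp.smul_apply, zsmul_eq_mul, map_mul]
      refine le_trans (mul_le_of_le_one_left zero_le ?_) (h1 g)
      rw [← map_intCast (algebraMap (𝓞 K) K)]
      exact v.valuation_le_one _
  obtain ⟨π, hπ⟩ := v.intValuation_exists_uniformizer
  have hπ0 : π ≠ 0 := fun h => exp_ne_zero (hπ.symm.trans (by rw [h, map_zero]))
  set k := (j + C).toNat with hk
  refine ⟨π ^ k, pow_ne_zero _ hπ0, fun z hz => ?_⟩
  set c : K := algebraMap (𝓞 K) K (π ^ k)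
  have hc : v.valuation K c = exp (-(k : ℤ)) := by
    rw [HeightOneSpectrum.valuation_of_algebraMap, map_pow, hπ, ← exp_nsmul]
    simp
  have hc0 : c ≠ 0 := fun h => exp_ne_zero (hc.symm.trans (by rw [h, map_zero]))
  obtain ⟨s, a, hs, ha⟩ := exists_clear (v := v) (z := z / algebraMap K L c) fun Q hQ => by
    rw [map_div₀]
    exact div_le_one_of_le₀ (hz Q hQ) zero_le
  have hs0 : algebraMap (𝓞 K) K s ≠ 0 := fun h => hs (by
    rw [(FaithfulSMul.algebraMap_injective (𝓞 K) K).eq_iff' (map_zero _)] at h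
    exact h ▸ v.asIdeal.zero_mem)
  have hz' : z = (c / algebraMap (𝓞 K) K s) • (a : L) := by
    rw [Algebra.smul_def, map_div₀, ← ha]
    field_simp [(map_ne_zero (algebraMap K L)).2 hs0, (map_ne_zero (algebraMap K L)).2 hc0]
  rw [hz']
  refine ((hint a).smul (i := k) ?_).mono (by omega)
  rw [map_div₀, hc, HeightOneSpectrum.valuation_of_algebraMap,
    HeightOneSpectrum.intValuation_eq_one_iff.2 hs, div_one]

/-! ### The local group -/

variable (v L) in
/-- The elements of order zero at the primes over `v`. -/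
def unitsOver : Subgroup Lˣ where
  carrier := {x | ∀ Q : HeightOneSpectrum (𝓞 L), belowP K Q = v → ord Q x = 0}
  one_mem' Q _ := ord_one Q
  mul_mem' {x y} hx hy Q hQ := by rw [ord_mul, hx Q hQ, hy Q hQ, add_zero]
  inv_mem' {x} hx Q hQ := by rw [ord_inv, hx Q hQ, neg_zero]

variable (v L) in
/-- **Finitely many classes of units.** -/
theorem finite_unitsOver_map :
    Finite ((unitsOver L v).map (QuotientGroup.mk' (congAt L v))) := by
  obtain ⟨π₀, hπ₀, hsmall⟩ := exists_inLam_of_small L v (lvlAt L v)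
  set I : Ideal (𝓞 L) := Ideal.span {algebraMap (𝓞 K) (𝓞 L) π₀}
  have : Finite (𝓞 L ⧸ I) := Ideal.finiteQuotientOfFreeOfNeBot I (by
    rw [Ne, Ideal.span_singleton_eq_bot]
    exact fun h => hπ₀ (FaithfulSMul.algebraMap_injective (𝓞 K) (𝓞 L) (by rw [h, map_zero])))
  have hrep : ∀ x : unitsOver L v, ∃ a : 𝓞 L, ∀ Q : HeightOneSpectrum (𝓞 L), belowP K Q = v →
      Q.valuation L ((x.1 : L) - a) ≤ Q.valuation L (algebraMap K L π₀) := fun x => by
    have hx1 : ∀ Q : HeightOneSpectrum (𝓞 L), belowP K Q = v → Q.valuation L (x.1 : L) = 1 := fun Q hQ => by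
      rw [valuation_eq_exp, x.2 Q hQ, neg_zero, exp_zero]
    obtain ⟨s, a, hs, ha⟩ := exists_clear (v := v) fun Q hQ => (hx1 Q hQ).le
    obtain ⟨k, hk⟩ : ∃ k : ℕ, v.intValuation π₀ = exp (-(k : ℤ)) :=
      ⟨_, v.intValuation_if_neg hπ₀⟩
    have hcop : Ideal.span {s} ⊔ v.asIdeal ^ k = ⊤ :=
      Ideal.sup_pow_eq_top (by
        refine v.isMaximal.out.2 _ (lt_of_le_of_ne le_sup_right fun he => hs ?_)
        rw [he]
        exact Ideal.mem_sup_left (Ideal.mem_span_singleton_self s))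
    obtain ⟨p, hp, q, hq, hpq⟩ := Submodule.mem_sup.1 ((Ideal.eq_top_iff_one _).1 hcop)
    obtain ⟨s', rfl⟩ := Ideal.mem_span_singleton.1 hp
    refine ⟨a * algebraMap (𝓞 K) (𝓞 L) s', fun Q hQ => ?_⟩
    have e : (x.1 : L) - ((a * algebraMap (𝓞 K) (𝓞 L) s' : 𝓞 L) : L) =
        (x.1 : L) * algebraMap K L (q : K) := by
      have h1 : algebraMap K L (s : K) * algebraMap K L (s' : K) + algebraMap K L (q : K) = 1 := by
        rw [← map_mul, ← map_add, ← map_one (algebraMap K L)]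
        exact congrArg _ (by exact_mod_cast congrArg (fun r : 𝓞 K => (r : K)) hpq)
      rw [show ((a * algebraMap (𝓞 K) (𝓞 L) s' : 𝓞 L) : L) = (a : L) * algebraMap K L (s' : K) from
        map_mul (algebraMap (𝓞 L) L) a _,
        show (a : L) = algebraMap K L (s : K) * (x.1 : L) from ha.symm]
      linear_combination -(x.1 : L) * h1
    rw [e, map_mul, hx1 Q hQ, one_mul, valuation_baseU, valuation_baseU, hQ]
    refine pow_le_pow_left₀ zero_le ?_ _
    rw [show v.valuation K (q : K) = v.intValuation q from v.valuation_of_algebraMap q,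
      show v.valuation K (π₀ : K) = v.intValuation π₀ from v.valuation_of_algebraMap π₀, hk]
    exact (v.intValuation_le_pow_iff_mem q k).2 hq
  choose rep hrep using hrep
  choose pre hpre using fun c : ((unitsOver L v).map (QuotientGroup.mk' (congAt L v))) =>
    Subgroup.mem_map.1 c.2
  refine Finite.of_injective (fun c => Ideal.Quotient.mk I (rep ⟨pre c, (hpre c).1⟩))
    fun c c' h => Subtype.ext ?_
  rw [← (hpre c).2, ← (hpre c').2, QuotientGroup.mk'_apply, QuotientGroup.mk'_apply,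
    QuotientGroup.eq]
  obtain ⟨r, hr⟩ := Ideal.mem_span_singleton.1 (Ideal.Quotient.eq.1 h)
  refine hsmall _ fun Q hQ => ?_
  set X : unitsOver L v := ⟨pre c, (hpre c).1⟩
  set Y : unitsOver L v := ⟨pre c', (hpre c').1⟩
  have hX1 : Q.valuation L ((pre c : Lˣ) : L) = 1 := by
    rw [valuation_eq_exp, (hpre c).1 Q hQ, neg_zero, exp_zero]
  rw [Units.val_mul, Units.val_inv_eq_inv_val,
    show ((pre c : Lˣ) : L)⁻¹ * (pre c' : Lˣ) - 1 =
      ((pre c : Lˣ) : L)⁻¹ * (((pre c' : Lˣ) : L) - (pre c : Lˣ)) by field_simp,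
    map_mul, map_inv₀, hX1, inv_one, one_mul]
  have hr' : ((rep X : 𝓞 L) : L) - rep Y = algebraMap K L (π₀ : K) * (r : L) := by
    rw [← map_sub, hr, map_mul]
    rfl
  rw [show ((pre c' : Lˣ) : L) - (pre c : Lˣ) =
      ((Y.1 : L) - rep Y) - ((X.1 : L) - rep X) - algebraMap K L (π₀ : K) * (r : L) by
    rw [← hr']; ring]
  refine Valuation.map_sub_le _ (Valuation.map_sub_le _ (hrep Y Q hQ) (hrep X Q hQ)) ?_
  rw [map_mul]
  exact mul_le_of_le_one_right zero_le (Q.valuation_le_one r)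

variable (v L) in
/-- **Monomials with triangular orders have finite index among the classes.** -/
theorem relIndex_range_ne_zero_of_ord (P : Finset (HeightOneSpectrum (𝓞 L)))
    (hP : ∀ Q, Q ∈ P ↔ belowP K Q = v) (u : {Q // Q ∈ P} → Lˣ)
    (hu : ∀ Q : {Q // Q ∈ P}, 0 < ord Q.1 (u Q))
    (hord : ∀ (x : Multiplicative ({Q // Q ∈ P} → ℤ)) (Q : {Q // Q ∈ P}),
      ord Q.1 (∏ Q' : {Q // Q ∈ P}, u Q' ^ Multiplicative.toAdd x Q') =
        Multiplicative.toAdd x Q * ord Q.1 (u Q))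
    (ψ : Multiplicative ({Q // Q ∈ P} → ℤ) →* Lˣ ⧸ congAt L v)
    (hψ : ∀ x, ψ x = QuotientGroup.mk (∏ Q : {Q // Q ∈ P}, u Q ^ Multiplicative.toAdd x Q)) :
    ψ.range.relIndex ⊤ ≠ 0 := by
  rw [Subgroup.relIndex_top_right]
  have := finite_unitsOver_map L v
  have hdec : ∀ x : Lˣ, ∃ (q : Multiplicative ({Q // Q ∈ P} → ℤ))
      (r : ∀ Q : {Q // Q ∈ P}, Fin (ord Q.1 (u Q)).toNat), ∀ Q : {Q // Q ∈ P},
        ord Q.1 x = Multiplicative.toAdd q Q * ord Q.1 (u Q) + (r Q : ℕ) := fun x => by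
    refine ⟨Multiplicative.ofAdd fun Q => ord Q.1 x / ord Q.1 (u Q),
      fun Q => ⟨(ord Q.1 x % ord Q.1 (u Q)).toNat, ?_⟩, fun Q => ?_⟩
    · have h1 := Int.emod_lt_of_pos (ord Q.1 x) (hu Q)
      have h2 := hu Q
      omega
    · rw [toAdd_ofAdd, Int.toNat_of_nonneg (Int.emod_nonneg _ (hu Q).ne'), mul_comm,
        Int.mul_ediv_add_emod]
  choose q r hqr using hdec
  let rc : ((∀ Q : {Q // Q ∈ P}, Fin (ord Q.1 (u Q)).toNat)) → Lˣ := fun r' =>
    if h : ∃ x, r x = r' then
      h.choose / ∏ Q : {Q // Q ∈ P}, u Q ^ Multiplicative.toAdd (q h.choose) Q else 1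
  have hfin : Finite ((Lˣ ⧸ congAt L v) ⧸ ψ.range) := Finite.of_surjective
    (fun p : (∀ Q : {Q // Q ∈ P}, Fin (ord Q.1 (u Q)).toNat) ×
        ((unitsOver L v).map (QuotientGroup.mk' (congAt L v))) =>
      (QuotientGroup.mk ((QuotientGroup.mk (rc p.1) : Lˣ ⧸ congAt L v) * p.2.1) : (Lˣ ⧸ congAt L v) ⧸ ψ.range)) fun c => by
    obtain ⟨m, rfl⟩ := QuotientGroup.mk_surjective c
    obtain ⟨x, rfl⟩ := QuotientGroup.mk_surjective m
    have hr : ∃ x', r x' = r x := ⟨x, rfl⟩
    set x₀ := x / ∏ Q : {Q // Q ∈ P}, u Q ^ Multiplicative.toAdd (q x) Q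
    set y := x₀ / rc (r x) with hy
    have hyU : y ∈ unitsOver L v := fun Q hQ => by
      have hQ' : Q ∈ P := (hP Q).2 hQ
      have h1 : ord Q x₀ = (r x ⟨Q, hQ'⟩ : ℕ) := by
        rw [ord_div, hord (q x) ⟨Q, hQ'⟩, hqr x ⟨Q, hQ'⟩]; ring
      have h2 : ord Q (rc (r x)) = (r x ⟨Q, hQ'⟩ : ℕ) := by
        simp only [rc, dif_pos hr]
        rw [ord_div, hord (q hr.choose) ⟨Q, hQ'⟩, hqr hr.choose ⟨Q, hQ'⟩, hr.choose_spec]
        ring
      rw [ord_div, h1, h2, sub_self]
    refine ⟨(r x, ⟨_, Subgroup.mem_map.2 ⟨y, hyU, rfl⟩⟩), ?_⟩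
    show (QuotientGroup.mk ((QuotientGroup.mk (rc (r x)) : Lˣ ⧸ congAt L v) * QuotientGroup.mk y) : (Lˣ ⧸ congAt L v) ⧸ ψ.range)
      = QuotientGroup.mk (QuotientGroup.mk x)
    rw [← QuotientGroup.mk_mul, hy, mul_div_cancel, QuotientGroup.eq]
    refine ⟨q x, ?_⟩
    rw [hψ]
    show _ = (QuotientGroup.mk x₀ : Lˣ ⧸ congAt L v)⁻¹ * QuotientGroup.mk x
    rw [← QuotientGroup.mk_inv, ← QuotientGroup.mk_mul, inv_div, div_mul_cancel]
  exact Subgroup.index_ne_zero_of_finite

variable {σ : L ≃ₐ[K] L} (hσ : ∀ g, g ∈ Subgroup.zpowers σ)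

variable (v L) in
/-- The action on the classes. -/
def galCls (g : L ≃ₐ[K] L) : Lˣ ⧸ congAt L v →* Lˣ ⧸ congAt L v :=
  QuotientGroup.map _ _ (galU g) fun _ hx => isStable_congUnits mulC_lt_lvlAt g _ hx

theorem galCls_mk (g : L ≃ₐ[K] L) (x : Lˣ) :
    galCls L v g (QuotientGroup.mk x) = QuotientGroup.mk (galU g x) := rfl

theorem galCls_iterate (g : L ≃ₐ[K] L) (i : ℕ) (x : Lˣ) :
    (galCls L v g)^[i] (QuotientGroup.mk x) = QuotientGroup.mk ((galU g)^[i] x) := by
  induction i with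
  | zero => rfl
  | succ i ih =>
    rw [Function.iterate_succ_apply', ih, galCls_mk]
    exact congrArg _ (Function.iterate_succ_apply' (galU g) i x).symm

include hσ

omit hσ

variable (v L) in
/-- The primes over `v`. -/
def primesOverV : Finset (HeightOneSpectrum (𝓞 L)) := (finite_belowP (L := L) v).toFinset

theorem mem_primesOverV {Q : HeightOneSpectrum (𝓞 L)} :
    Q ∈ primesOverV L v ↔ belowP K Q = v := by simp [primesOverV]

theorem galPrime_mem_primesOverV (g : L ≃ₐ[K] L) {Q : HeightOneSpectrum (𝓞 L)}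
    (hQ : Q ∈ primesOverV L v) : galPrime g Q ∈ primesOverV L v := by
  rwa [mem_primesOverV, belowP_galPrime, ← mem_primesOverV]

variable (v) in
/-- The permutation of the primes over `v`. -/
def overPerm (g : L ≃ₐ[K] L) : Equiv.Perm {Q // Q ∈ primesOverV L v} where
  toFun Q := ⟨galPrime g Q.1, galPrime_mem_primesOverV g Q.2⟩
  invFun Q := ⟨galPrime g⁻¹ Q.1, galPrime_mem_primesOverV g⁻¹ Q.2⟩
  left_inv Q := Subtype.ext (by
    show galPrime g⁻¹ (galPrime g Q.1) = Q.1
    rw [← galPrime_mul, inv_mul_cancel, galPrime_one])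
  right_inv Q := Subtype.ext (by
    show galPrime g (galPrime g⁻¹ Q.1) = Q.1
    rw [← galPrime_mul, mul_inv_cancel, galPrime_one])

theorem overPerm_iterate (g : L ≃ₐ[K] L) (i : ℕ) (Q : {Q // Q ∈ primesOverV L v}) :
    ((overPerm v g)^[i] Q).1 = galPrime (g ^ i) Q.1 := by
  induction i with
  | zero => rw [pow_zero, galPrime_one]; rfl
  | succ i ih =>
    rw [Function.iterate_succ_apply']
    show galPrime g ((overPerm v g)^[i] Q).1 = _
    rw [ih, pow_succ', galPrime_mul]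

variable (v) in
/-- The monomials in a family indexed by the primes. -/
def monHom (uP : HeightOneSpectrum (𝓞 L) → Lˣ) :
    Multiplicative ({Q // Q ∈ primesOverV L v} → ℤ) →* Lˣ :=
  MonoidHom.mk' (fun x => ∏ Q : {Q // Q ∈ primesOverV L v},
      uP Q.1 ^ Multiplicative.toAdd x Q) fun x y => by
    rw [← Finset.prod_mul_distrib]
    simp [zpow_add]

theorem ord_monHom {uP : HeightOneSpectrum (𝓞 L) → Lˣ}
    (huP : ∀ Q, 0 < ord Q (uP Q) ∧ ∀ Q', Q' ≠ Q → ord Q' (uP Q) = 0)
    (x : Multiplicative ({Q // Q ∈ primesOverV L v} → ℤ)) (Q : {Q // Q ∈ primesOverV L v}) :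
    ord Q.1 (monHom v uP x) = Multiplicative.toAdd x Q * ord Q.1 (uP Q.1) := by
  show ord Q.1 (∏ Q' : {Q // Q ∈ primesOverV L v}, uP Q'.1 ^ Multiplicative.toAdd x Q') = _
  rw [ord_prod, Fintype.sum_eq_single Q fun Q' h => ?_, ord_zpow]
  rw [ord_zpow, (huP Q'.1).2 _ fun he => h (Subtype.ext he.symm), mul_zero]

theorem monHom_perm {uP : HeightOneSpectrum (𝓞 L) → Lˣ}
    (huPg : ∀ (g : L ≃ₐ[K] L) Q, uP (galPrime g Q) = galU g (uP Q)) (g : L ≃ₐ[K] L)
    (x : Multiplicative ({Q // Q ∈ primesOverV L v} → ℤ)) :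
    monHom v uP (permHom (overPerm v g⁻¹) x) = galU g (monHom v uP x) := by
  show (∏ Q : {Q // Q ∈ primesOverV L v},
      uP Q.1 ^ Multiplicative.toAdd x (overPerm v g⁻¹ Q)) = galU g (∏ _, _)
  rw [map_prod]
  refine Fintype.prod_equiv (overPerm v g⁻¹) _ _ fun Q => ?_
  rw [map_zpow, ← huPg]
  congr 2
  show Q.1 = galPrime g (galPrime g⁻¹ Q.1)
  rw [← galPrime_mul, mul_inv_cancel, galPrime_one]

theorem injective_monHom_mk {uP : HeightOneSpectrum (𝓞 L) → Lˣ}
    (huP : ∀ Q, 0 < ord Q (uP Q) ∧ ∀ Q', Q' ≠ Q → ord Q' (uP Q) = 0) :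
    Function.Injective ((QuotientGroup.mk' (congAt L v)).comp (monHom v uP)) := by
  rw [injective_iff_map_eq_one]
  intro x hx
  refine Multiplicative.ext (funext fun Q => ?_)
  have h := ord_eq_zero_of_mem_congAt ((QuotientGroup.eq_one_iff (N := congAt L v) _).1 hx)
    (mem_primesOverV.1 Q.2)
  rw [ord_monHom huP] at h
  exact (mul_eq_zero.1 h).resolve_right (huP Q.1).1.ne'

include hσ

theorem galCls_period (m : Lˣ ⧸ congAt L v) :
    (galCls L v σ)^[Module.finrank K L] m = m := by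
  obtain ⟨x, rfl⟩ := QuotientGroup.mk_surjective m
  rw [galCls_iterate, galU_period (pow_finrank_eq_one hσ)]

theorem herbrand_overPerm :
    hFix (permHom (overPerm v σ⁻¹)) (Module.finrank K L) ⊤ = finIdx L v ∧
      hOne (permHom (overPerm v σ⁻¹)) (Module.finrank K L) ⊤ = 1 := by
  obtain ⟨Q₀, hQ₀⟩ := exists_belowP K L v
  have h := herbrand_perm (overPerm v σ⁻¹) Module.finrank_pos (fun Q => Subtype.ext (by
      rw [overPerm_iterate, inv_pow, pow_finrank_eq_one hσ, inv_one, galPrime_one]))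
    (fun _ => ()) (fun _ => ⟨⟨Q₀, mem_primesOverV.2 hQ₀⟩, rfl⟩) (fun _ => rfl)
    (fun Q Q' _ => by
      obtain ⟨i, hi⟩ := exists_iterate_eq (inv_generator hσ)
        ((mem_primesOverV.1 Q.2).trans (mem_primesOverV.1 Q'.2).symm)
      rw [galPrime_iterate] at hi
      exact ⟨i, Subtype.ext ((overPerm_iterate _ i Q).trans hi)⟩)
    (fun _ => finIdx L v) fun _ => by
      rw [← finIdx_mul_card hσ v]
      congr 1
      exact Nat.card_congr ((Equiv.subtypeUnivEquiv fun _ => rfl).trans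
        (Equiv.subtypeEquivRight fun Q => mem_primesOverV))
  rwa [Fintype.prod_unique] at h

/-- **The zeroth Tate group of the local classes.** -/
theorem finIdx_le_hFix :
    hFix (M := Lˣ ⧸ congAt L v) (galCls L v σ) (Module.finrank K L) ⊤ ≠ 0 ∧
      finIdx L v ≤ hFix (M := Lˣ ⧸ congAt L v) (galCls L v σ) (Module.finrank K L) ⊤ := by
  obtain ⟨uP, huP, huPg⟩ := exists_prime_units (K := K) (L := L)
  set ψ := (QuotientGroup.mk' (congAt L v)).comp (monHom v uP)
  have hcomm : ∀ x, ψ (permHom (overPerm v σ⁻¹) x) = galCls L v σ (ψ x) := fun x =>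
    congrArg (QuotientGroup.mk' (congAt L v)) (monHom_perm huPg σ x)
  have hfinB : ψ.range.relIndex ⊤ ≠ 0 :=
    relIndex_range_ne_zero_of_ord L v (primesOverV L v) (fun Q => mem_primesOverV)
      (fun Q => uP Q.1) (fun Q => (huP Q.1).1) (ord_monHom huP) ψ fun _ => rfl
  obtain ⟨hm0, hm1⟩ := herbrand_map (M' := Lˣ ⧸ congAt L v) (n := Module.finrank K L)
    (s := permHom (overPerm v σ⁻¹)) (s' := galCls L v σ) ψ (injective_monHom_mk huP) hcomm ⊤
  rw [← MonoidHom.range_eq_map] at hm0 hm1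
  have hst : IsStable (M := Lˣ ⧸ congAt L v) (galCls L v σ) ψ.range := fun m hm => by
    obtain ⟨x, rfl⟩ := hm
    exact ⟨_, hcomm x⟩
  have hst' : IsStable (M := Lˣ ⧸ congAt L v) (galCls L v σ) ⊤ := fun m _ => Subgroup.mem_top _
  obtain ⟨hc, h0, h1⟩ := herbrand_mul (M := Lˣ ⧸ congAt L v) (s := galCls L v σ)
    (n := Module.finrank K L) (galCls_period hσ) hst' hst le_top hfinB
  rw [hm0, (herbrand_overPerm hσ).1] at h0 hc
  rw [hm1, (herbrand_overPerm hσ).2] at h1 hc
  have hne : finIdx L v ≠ 0 := fun h => by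
    have := finIdx_mul_card hσ v
    rw [h, zero_mul] at this
    exact Module.finrank_pos.ne this
  refine ⟨h0 hne, ?_⟩
  rw [mul_one] at hc
  rw [hc]
  exact Nat.le_mul_of_pos_right _ (Nat.pos_of_ne_zero (h1 one_ne_zero))

variable (v) in
/-- **The local norm index.** -/
theorem exists_localNorm :
    ∃ N : Subgroup Kˣ, N.index ≠ 0 ∧ finIdx L v ≤ N.index ∧
      (∀ x : Lˣ, Units.map (Algebra.norm K (S := L)) x ∈ N) ∧
      ∃ k : ℕ, ∀ a : Kˣ, v.valuation K ((a : K) - 1) ≤ exp (-(k : ℤ)) → a ∈ N := by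
  set β : Kˣ →* Lˣ ⧸ congAt L v := (QuotientGroup.mk' (congAt L v)).comp baseU
  set nK : Lˣ →* Kˣ := Units.map (Algebra.norm K (S := L))
  have hnorm : ∀ x : Lˣ, normHom (M := Lˣ ⧸ congAt L v) (galCls L v σ) (Module.finrank K L) (QuotientGroup.mk x) =
      β (nK x) := fun x => by
    show _ = QuotientGroup.mk (baseU _)
    rw [← baseU_norm hσ, normHom_apply, normHom_apply, QuotientGroup.mk_prod]
    exact Finset.prod_congr rfl fun i _ => galCls_iterate σ i x
  have hrange : (⊤ : Subgroup (Lˣ ⧸ congAt L v)) ⊓ (diffHom (M := Lˣ ⧸ congAt L v) (galCls L v σ)).ker = β.range := by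
    rw [top_inf_eq]
    refine le_antisymm (fun m hm => ?_) ?_
    · obtain ⟨x, rfl⟩ := QuotientGroup.mk_surjective m
      have hx : diffHom (galU σ) x ∈ congAt L v := by
        rw [← QuotientGroup.eq_one_iff, diffHom_apply, QuotientGroup.mk_div, ← galCls_mk]
        exact hm
      obtain ⟨a, w, hw, he⟩ := mem_baseU_mul_congUnits hσ mulC_lt_lvlAt hx
      refine ⟨a, ?_⟩
      show QuotientGroup.mk (baseU a) = QuotientGroup.mk x
      rw [← he, QuotientGroup.mk_mul, (QuotientGroup.eq_one_iff (N := congAt L v) w).2 hw]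
      exact (mul_one (M := Lˣ ⧸ congAt L v) _).symm
    · rintro _ ⟨a, rfl⟩
      refine (mem_ker_diffHom _).2 ?_
      show galCls L v σ (QuotientGroup.mk (baseU a)) = QuotientGroup.mk (baseU a)
      rw [galCls_mk, galU_baseU]
  have himage : (⊤ : Subgroup (Lˣ ⧸ congAt L v)).map
      (normHom (M := Lˣ ⧸ congAt L v) (galCls L v σ) (Module.finrank K L)) = nK.range.map β := by
    ext m
    constructor
    · rintro ⟨x, -, rfl⟩
      obtain ⟨x, rfl⟩ := QuotientGroup.mk_surjective x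
      exact ⟨nK x, ⟨x, rfl⟩, (hnorm x).symm⟩
    · rintro ⟨_, ⟨x, rfl⟩, rfl⟩
      exact ⟨QuotientGroup.mk x, trivial, hnorm x⟩
  have hidx : hFix (M := Lˣ ⧸ congAt L v) (galCls L v σ) (Module.finrank K L) ⊤ = (nK.range ⊔ β.ker).index := by
    rw [hFix, himage, hrange, ← Subgroup.comap_map_eq, Subgroup.index_comap]
  obtain ⟨h0, h1⟩ := finIdx_le_hFix (v := v) hσ
  rw [hidx] at h0 h1
  refine ⟨nK.range ⊔ β.ker, h0, h1, fun x => le_sup_left (a := nK.range) ⟨x, rfl⟩,
    (lvlAt L v - log (v.valuation K (nTr K L))).toNat, fun a ha => le_sup_right (b := β.ker) ?_⟩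
  refine (QuotientGroup.eq_one_iff _).2 (baseU_mem_congUnits mulC_lt_lvlAt (ha.trans ?_))
  rw [show v.valuation K (nTr K L) = exp (log (v.valuation K (nTr K L))) from
    (exp_log (by simp [nTr_ne_zero])).symm, ← exp_add, exp_le_exp, log_exp]
  omega

end FA.ArtinRec
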