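import Fermat.Agent.ArtinReciprocity.Norms
import Fermat.Agent.ArtinReciprocity.LocalIndex
import Fermat.Agent.ArtinReciprocity.Approximation

/-!
# The first inequality

For a cyclic extension `L/K` of degree `n` there is a modulus supported at the ramified primes
such that the classes of the norms of primes generate a subgroup of index at least `n` in the
narrow ray class group: the local norm indices over the Herbrand quotient of the units outside a
finite set of primes.
-/

set_option autoImplicit false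
set_option linter.unusedSectionVars false
set_option linter.style.haveILetI false

noncomputable section

open NumberField NumberField.InfinitePlace IsDedekindDomain Finset WithZero
open FA.Hecke (IsRayElt coprimeIdeals rayCon RayClassGroup rayClass rayClass_surjective
  finite_rayClassGroup)
open scoped Pointwise nonZeroDivisors Classical

namespace FA.ArtinRec

variable {K L : Type*} [Field K] [NumberField K] [Field L] [NumberField L] [Algebra K L]

/-- The norm of a prime. -/
def normPrime (K : Type*) {L : Type*} [Field K] [NumberField K] [Field L] [NumberField L]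
    [Algebra K L] (Q : HeightOneSpectrum (𝓞 L)) : (Ideal (𝓞 K))⁰ :=
  ⟨Ideal.relNorm (𝓞 K) Q.asIdeal, mem_nonZeroDivisors_iff_ne_zero.mpr fun h =>
    Q.ne_bot (Ideal.relNorm_eq_bot_iff.1 h)⟩

/-- The subgroup of the ray class group generated by the norms of the primes. -/
def normClasses (L : Type*) [Field L] [NumberField L] [Algebra K L] {𝔪 : Ideal (𝓞 K)}
    (h𝔪 : 𝔪 ≠ ⊥) : Subgroup (RayClassGroup 𝔪) :=
  Subgroup.closure {γ | ∃ (Q : HeightOneSpectrum (𝓞 L)) (h : normPrime K Q ∈ coprimeIdeals 𝔪),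
    rayClass h𝔪 ⟨normPrime K Q, h⟩ = γ}

theorem rayClass_normPrime_mem {𝔪 : Ideal (𝓞 K)} (h𝔪 : 𝔪 ≠ ⊥) (Q : HeightOneSpectrum (𝓞 L))
    (h : normPrime K Q ∈ coprimeIdeals 𝔪) :
    rayClass h𝔪 ⟨normPrime K Q, h⟩ ∈ normClasses L h𝔪 :=
  Subgroup.subset_closure ⟨Q, h, rfl⟩

theorem ord_eq_zero_of_near {v : HeightOneSpectrum (𝓞 K)} {a : Kˣ} {k : ℕ} (hk : 0 < k)
    (ha : v.valuation K ((a : K) - 1) ≤ exp (-(k : ℤ))) : ord v a = 0 := by
  rw [ord_eq_iff, neg_zero, exp_zero]
  have h1 : v.valuation K ((a : K) - 1) < v.valuation K 1 := by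
    rw [map_one, ← exp_zero]
    exact ha.trans_lt (exp_lt_exp.2 (by omega))
  have h2 := (v.valuation K).map_add_eq_of_lt_right h1
  rwa [sub_add_cancel, map_one] at h2

variable [IsGalois K L] {σ : L ≃ₐ[K] L} (hσ : ∀ g, g ∈ Subgroup.zpowers σ)
include hσ

/-- **The subgroup at a prime.** -/
theorem exists_locSub (v : HeightOneSpectrum (𝓞 K)) :
    ∃ (N : Subgroup Kˣ) (k : ℕ), N.index ≠ 0 ∧ finIdx L v ≤ N.index ∧
      (∀ x : Lˣ, normU' x ∈ N) ∧
      (∀ a : Kˣ, v.valuation K ((a : K) - 1) ≤ exp (-(k : ℤ)) → a ∈ N) ∧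
      (¬ IsRam L v → ∀ a : Kˣ, (fDeg L v : ℤ) ∣ ord v a → a ∈ N) := by
  by_cases hr : IsRam L v
  · obtain ⟨N, h0, h1, h2, k, h3⟩ := exists_localNorm v hσ
    exact ⟨N, k, h0, h1, h2, h3, fun h => absurd hr h⟩
  · haveI : NeZero (fDeg L v) := ⟨fDeg_ne_zero v⟩
    let g : Kˣ →* Multiplicative (ZMod (fDeg L v)) :=
      MonoidHom.mk' (fun a => Multiplicative.ofAdd (ord v a : ZMod (fDeg L v))) fun a b => by
        rw [ord_mul, Int.cast_add, ofAdd_add]
    have hg : ∀ a, a ∈ g.ker ↔ (fDeg L v : ℤ) ∣ ord v a := fun a => by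
      rw [MonoidHom.mem_ker, ← ZMod.intCast_zmod_eq_zero_iff_dvd]
      exact ⟨fun h => congrArg Multiplicative.toAdd h, fun h => congrArg Multiplicative.ofAdd h⟩
    have hidx : g.ker.index = fDeg L v := by
      rw [Subgroup.index_ker, MonoidHom.range_eq_top.2 fun y => ?_,
        Nat.card_congr Subgroup.topEquiv.toEquiv, Nat.card_congr Multiplicative.toAdd,
        Nat.card_zmod]
      obtain ⟨j, hj⟩ := ZMod.intCast_surjective (Multiplicative.toAdd y)
      obtain ⟨π, hπ⟩ := exists_ord_eq_one v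
      refine ⟨π ^ j, Multiplicative.toAdd.injective ?_⟩
      show ((ord v (π ^ j) : ℤ) : ZMod (fDeg L v)) = _
      rw [ord_zpow, hπ, mul_one, hj]
    refine ⟨g.ker, 1, by rw [hidx]; exact fDeg_ne_zero v, by rw [hidx, finIdx_eq_fDeg hr],
      fun x => (hg _).2 ?_, fun a ha => (hg _).2 ?_, fun _ a ha => (hg a).2 ha⟩
    · rw [ord_normU']
      exact dvd_mul_right _ _
    · rw [ord_eq_zero_of_near one_pos ha]
      exact dvd_zero _

/-- The order of the decomposition group at an infinite place is that of the stabiliser. -/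
theorem infIdx_eq_card (w : InfinitePlace L) :
    infIdx L (w.comap (algebraMap K L)) =
      Nat.card (MulAction.stabilizer (L ≃ₐ[K] L) w) := by
  have h1 := infIdx_mul_card (L := L) hσ (w.comap (algebraMap K L))
  have h2 := Nat.card_congr (MulAction.orbitProdStabilizerEquivGroup (L ≃ₐ[K] L) w)
  have h3 : Nat.card (MulAction.orbit (L ≃ₐ[K] L) w) =
      Nat.card {w' : InfinitePlace L // w'.comap (algebraMap K L) = w.comap (algebraMap K L)} :=
    Nat.card_congr (Equiv.subtypeEquivRight fun w' => InfinitePlace.mem_orbit_iff.trans eq_comm)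
  rw [Nat.card_prod, h3, IsGalois.card_aut_eq_finrank, mul_comm] at h2
  refine Nat.eq_of_mul_eq_mul_right ?_ (h1.trans h2.symm)
  exact Nat.card_pos_iff.2 ⟨⟨⟨w, rfl⟩⟩, inferInstance⟩

/-- **The subgroup at an infinite place.** -/
theorem exists_infSub (v : InfinitePlace K) :
    ∃ N : Subgroup Kˣ, N.index ≠ 0 ∧ infIdx L v ≤ N.index ∧ (∀ x : Lˣ, normU' x ∈ N) ∧
      ∀ a : Kˣ, (∀ h : IsReal v, ¬ v.IsUnramifiedIn L → 0 < embedding_of_isReal h a) → a ∈ N := by
  by_cases hv : ∃ w : InfinitePlace L, w.comap (algebraMap K L) = v ∧ w.IsRamified K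
  · obtain ⟨w, rfl, hw⟩ := hv
    set φ := embedding_of_isReal hw.isReal
    let N : Subgroup Kˣ :=
      { carrier := {a | 0 < φ a}
        one_mem' := by simp
        mul_mem' := fun {a b} ha hb => by
          show 0 < φ (((a * b : Kˣ) : K))
          rw [Units.val_mul, map_mul]
          exact mul_pos ha hb
        inv_mem' := fun {a} ha => by
          show 0 < φ (((a⁻¹ : Kˣ) : K))
          rw [Units.val_inv_eq_inv_val, map_inv₀]
          exact inv_pos.2 ha }
    have hidx : N.index = 2 := by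
      refine Subgroup.index_eq_two_iff.2 ⟨-1, fun b => ?_⟩
      have hmem : b * -1 ∈ N ↔ φ (b : K) < 0 := by
        show 0 < φ (((b * -1 : Kˣ) : K)) ↔ _
        simp
      rcases lt_or_gt_of_ne (show φ (b : K) ≠ 0 by simp) with hb | hb
      · exact Or.inl ⟨hmem.2 hb, fun h => lt_asymm hb h⟩
      · exact Or.inr ⟨hb, fun h => lt_asymm hb (hmem.1 h)⟩
    refine ⟨N, by rw [hidx]; exact two_ne_zero, ?_, fun x => norm_pos_of_isRamified hσ hw x,
      fun a ha => ha hw.isReal fun hu => hw (hu w rfl)⟩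
    rw [hidx, infIdx_eq_card hσ]
    rcases nat_card_stabilizer_eq_one_or_two K w with h | h <;> omega
  · refine ⟨⊤, by simp, ?_, fun x => trivial, fun a _ => trivial⟩
    obtain ⟨w, rfl⟩ := InfinitePlace.comap_surjective (K := L) v
    have hu : w.IsUnramified K := by_contra fun h => hv ⟨w, rfl, h⟩
    rw [Subgroup.index_top, infIdx_eq_card hσ, isUnramified_iff_card_stabilizer_eq_one.1 hu]

/-- The norm index of the units outside `T`. -/
theorem relIndex_norm_tUnit (T : Finset (HeightOneSpectrum (𝓞 K))) :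
    ((tUnit (primesAbove L T)).map normU').relIndex (tUnit T) =
      hFix (galU σ) (Module.finrank K L) (tUnit (primesAbove L T)) := by
  rw [hFix, ← Subgroup.relIndex_map_map_of_injective _ _ (baseU_injective (L := L))]
  congr 1
  · rw [Subgroup.map_map]
    congr 1
    exact MonoidHom.ext fun x => (baseU_norm hσ x).symm
  · ext x
    constructor
    · rintro ⟨a, ha, rfl⟩
      exact ⟨(baseU_mem_tUnit T).2 ha, (mem_ker_diffHom _).2 (galU_baseU σ a)⟩
    · rintro ⟨hx, hx'⟩
      obtain ⟨a, rfl⟩ := exists_baseU_eq hσ ((mem_ker_diffHom _).1 hx')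
      exact ⟨a, (baseU_mem_tUnit T).1 hx, rfl⟩

omit hσ

/-! ### Ideals to local classes modulo the units -/

section local_classes

variable (T : Finset (HeightOneSpectrum (𝓞 K)))
  (N : InfinitePlace K ⊕ {v // v ∈ T} → Subgroup Kˣ)

/-- The product of the local quotients. -/
def LocProd := (i : InfinitePlace K ⊕ {v // v ∈ T}) → Kˣ ⧸ N i

instance instCommGroupLocProd : CommGroup (LocProd T N) :=
  inferInstanceAs (CommGroup ((i : InfinitePlace K ⊕ {v // v ∈ T}) → Kˣ ⧸ N i))

instance instFiniteLocProd [∀ i, Finite (Kˣ ⧸ N i)] : Finite (LocProd T N) :=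
  inferInstanceAs (Finite ((i : InfinitePlace K ⊕ {v // v ∈ T}) → Kˣ ⧸ N i))

variable {T N} in
@[ext]
theorem LocProd.ext {f g : LocProd T N} (h : ∀ i, f i = g i) : f = g := funext h

/-- An element in all local quotients. -/
def diag : Kˣ →* LocProd T N :=
  (MonoidHom.pi fun i => QuotientGroup.mk' (N i) :
    Kˣ →* ((i : InfinitePlace K ⊕ {v // v ∈ T}) → Kˣ ⧸ N i))

/-- The local classes modulo the units outside `T`. -/
abbrev LocClasses := LocProd T N ⧸ (tUnit T).map (diag T N)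

/-- A fixed uniformiser. -/
def unif (v : HeightOneSpectrum (𝓞 K)) : Kˣ := (exists_ord_eq_one v).choose

theorem ord_unif (v : HeightOneSpectrum (𝓞 K)) : ord v (unif v) = 1 :=
  (exists_ord_eq_one v).choose_spec

/-- The local components of an ideal. -/
def expo (I : Ideal (𝓞 K)) : LocProd T N :=
  fun i => QuotientGroup.mk (Sum.elim (fun _ => (1 : Kˣ)) (fun v => unif v.1 ^ ordI v.1 I) i)

variable {T} (hcl : IsClassSet T)

theorem exists_ord_ideal (hcl : IsClassSet T) {I : Ideal (𝓞 K)} (hI : I ≠ ⊥) :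
    ∃ a : Kˣ, ∀ w, w ∉ T → ord w a = ordI w I :=
  hcl.exists_ord (fun w => (ordI w I : ℤ))
    ((finite_ordI_ne_zero hI).subset fun w hw => by
      have := hw.2
      exact fun h => this (by rw [h, Nat.cast_zero]))

/-- The local class of an ideal. -/
def idealClass (I : Ideal (𝓞 K)) : LocClasses T N :=
  if h : I ≠ ⊥ then
    QuotientGroup.mk (expo T N I / diag T N (exists_ord_ideal hcl h).choose)
  else 1

theorem idealClass_eq {I : Ideal (𝓞 K)} (hI : I ≠ ⊥) {a : Kˣ}
    (ha : ∀ w, w ∉ T → ord w a = ordI w I) :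
    idealClass N hcl I = QuotientGroup.mk (expo T N I / diag T N a) := by
  rw [idealClass, dif_pos hI]
  refine QuotientGroup.eq.2 ?_
  have hmem : (exists_ord_ideal hcl hI).choose / a ∈ tUnit T := fun w hw => by
    rw [ord_div, (exists_ord_ideal hcl hI).choose_spec w hw, ha w hw, sub_self]
  refine ⟨_, hmem, ?_⟩
  rw [map_div]
  simp only [div_eq_mul_inv, mul_inv_rev, inv_inv]
  rw [mul_assoc, inv_mul_cancel_left]

theorem idealClass_mul {I J : Ideal (𝓞 K)} (hI : I ≠ ⊥) (hJ : J ≠ ⊥) :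
    idealClass N hcl (I * J) = idealClass N hcl I * idealClass N hcl J := by
  obtain ⟨a, ha⟩ := exists_ord_ideal hcl hI
  obtain ⟨b, hb⟩ := exists_ord_ideal hcl hJ
  rw [idealClass_eq N hcl hI ha, idealClass_eq N hcl hJ hb,
    idealClass_eq N hcl (mul_ne_zero hI hJ) (a := a * b) fun w hw => by
      rw [ord_mul, ha w hw, hb w hw, ordI_mul w hI hJ, Nat.cast_add],
    ← QuotientGroup.mk_mul, map_mul, div_mul_div_comm]
  congr 1
  refine congrArg (· / _) (LocProd.ext fun i => ?_)
  rcases i with i | v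
  · exact (congrArg (QuotientGroup.mk (s := N (Sum.inl i))) (mul_one (1 : Kˣ)).symm).trans
      (QuotientGroup.mk_mul _ _ _)
  · show QuotientGroup.mk (unif v.1 ^ ordI v.1 (I * J)) = _
    rw [ordI_mul v.1 hI hJ, pow_add, QuotientGroup.mk_mul]
    rfl

/-- An element whose local discrepancies are in the subgroups kills the class. -/
theorem idealClass_eq_one {I : Ideal (𝓞 K)} (hI : I ≠ ⊥) {a : Kˣ}
    (ha : ∀ w, w ∉ T → ord w a = ordI w I) (hinf : ∀ v : InfinitePlace K, a ∈ N (Sum.inl v))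
    (hfin : ∀ v : {v // v ∈ T}, unif v.1 ^ ordI v.1 I / a ∈ N (Sum.inr v)) :
    idealClass N hcl I = 1 := by
  rw [idealClass_eq N hcl hI ha, show expo T N I / diag T N a = 1 from LocProd.ext fun i => ?_,
    QuotientGroup.mk_one]
  rcases i with v | v
  · show (QuotientGroup.mk (1 : Kˣ) : Kˣ ⧸ N (Sum.inl v)) / QuotientGroup.mk a = 1
    rw [(QuotientGroup.eq_one_iff a).2 (hinf v), QuotientGroup.mk_one, div_one]
  · show (QuotientGroup.mk (unif v.1 ^ ordI v.1 I) : Kˣ ⧸ N (Sum.inr v)) / QuotientGroup.mk a = 1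
    rw [← QuotientGroup.mk_div, (QuotientGroup.eq_one_iff _).2 (hfin v)]

variable (T) in
/-- **The diagonal is onto.** -/
theorem diag_surjective (k : {v // v ∈ T} → ℕ)
    (hinf : ∀ v : InfinitePlace K, ∀ a : Kˣ, (∀ h : IsReal v, 0 < embedding_of_isReal h a) → a ∈ N (Sum.inl v))
    (hfin : ∀ v : {v // v ∈ T}, ∀ a : Kˣ, v.1.valuation K ((a : K) - 1) ≤ exp (-(k v : ℤ)) →
      a ∈ N (Sum.inr v)) :
    Function.Surjective (diag T N) := by
  intro g
  choose b hb using fun i => QuotientGroup.mk_surjective (g i)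
  let bv : HeightOneSpectrum (𝓞 K) → Kˣ :=
    fun v => if h : v ∈ T then b (Sum.inr ⟨v, h⟩) else 1
  obtain ⟨a, ha, hs⟩ := exists_approx T bv (∑ v, k v) fun φ =>
    decide (∃ (v : InfinitePlace K) (h : IsReal v),
      embedding_of_isReal h = φ ∧ 0 < φ (b (Sum.inl v) : K))
  refine ⟨a, LocProd.ext fun i => ?_⟩
  rw [← hb i]
  show QuotientGroup.mk a = QuotientGroup.mk (b i)
  rw [QuotientGroup.eq_iff_div_mem]
  rcases i with v | v
  · refine hinf v _ fun h => ?_
    rw [Units.val_div_eq_div_val, map_div₀]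
    set φ := embedding_of_isReal h with hφ
    have hiff : 0 < φ (a : K) ↔ 0 < φ (b (Sum.inl v) : K) := by
      rw [hs φ, decide_eq_true_iff]
      refine ⟨fun ⟨v', h', e, h''⟩ => ?_, fun h'' => ⟨v, h, rfl, h''⟩⟩
      obtain rfl := embedding_of_isReal_inj h' h e
      exact h''
    rcases lt_or_gt_of_ne (show φ (b (Sum.inl v) : K) ≠ 0 by simp) with hb' | hb'
    · refine div_pos_of_neg_of_neg (lt_of_le_of_ne (not_lt.1 fun h' => ?_) (by simp)) hb'
      exact lt_asymm hb' (hiff.1 h')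
    · exact div_pos (hiff.2 hb') hb'
  · refine hfin v _ ?_
    rw [Units.val_div_eq_div_val]
    have h1 := ha v.1 v.2
    rw [show bv v.1 = b (Sum.inr v) from dif_pos v.2] at h1
    refine h1.trans (exp_le_exp.2 (neg_le_neg ?_))
    exact_mod_cast Finset.single_le_sum (fun w _ => Nat.zero_le (k w)) (Finset.mem_univ v)

/-- **Every local class is that of an ideal prime to a given modulus.** -/
theorem exists_idealClass_eq [∀ i, Finite (Kˣ ⧸ N i)] (hsurj : Function.Surjective (diag T N))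
    {𝔪 : Ideal (𝓞 K)} (hT : ∀ v : HeightOneSpectrum (𝓞 K), v.asIdeal ∣ 𝔪 → v ∈ T)
    (γ : LocClasses T N) :
    ∃ I : Ideal (𝓞 K), I ≠ ⊥ ∧ I ⊔ 𝔪 = ⊤ ∧ idealClass N hcl I = γ := by
  obtain ⟨g, rfl⟩ := QuotientGroup.mk_surjective γ
  obtain ⟨c, hc⟩ := hsurj g⁻¹
  obtain ⟨x, y, hx, hy, rfl⟩ := exists_intU_div c
  set M := Nat.card (LocProd T N)
  have hM : 0 < M := Nat.card_pos
  have hr : x * y ^ (M - 1) ≠ 0 := mul_ne_zero hx (pow_ne_zero _ hy)
  have hdiag : diag T N (intU _ hr) = g⁻¹ := by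
    rw [← hc, show intU _ hr = intU x hx / intU y hy * intU y hy ^ M from ?_, map_mul, map_pow,
      pow_card_eq_one', mul_one]
    refine Units.ext ?_
    rw [Units.val_mul, Units.val_pow_eq_pow_val, Units.val_div_eq_div_val, intU_val, intU_val,
      intU_val]
    push_cast
    have := RingOfIntegers.coe_ne_zero_iff.mpr hy
    rw [show M = M - 1 + 1 by omega, pow_succ]
    field_simp
    simp
  have hr' : Ideal.span {x * y ^ (M - 1)} ≠ ⊥ := by simpa using hr
  set P := (finite_ordI_ne_zero hr').toFinset.filter (· ∉ T)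
  set I := ∏ w ∈ P, w.asIdeal ^ ordI w (Ideal.span {x * y ^ (M - 1)})
  have hI : I ≠ ⊥ := Finset.prod_ne_zero_iff.2 fun w _ => pow_ne_zero _ w.ne_bot
  have hordI : ∀ w, ordI w I = if w ∈ T then 0 else ordI w (Ideal.span {x * y ^ (M - 1)}) := by
    intro w
    rw [ordI_prod w P _ fun u _ => pow_ne_zero _ u.ne_bot]
    simp_rw [ordI_pow w (HeightOneSpectrum.ne_bot _), ordI_prime, mul_ite, mul_one, mul_zero]
    rw [Finset.sum_ite_eq]
    simp only [P, Finset.mem_filter, Set.Finite.mem_toFinset, Set.mem_ofPred_eq]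
    split_ifs with h1 h2 h2
    · exact absurd h2 h1.2
    · rfl
    · rfl
    · exact (not_not.1 fun h => h1 ⟨h, h2⟩).symm
  refine ⟨I, hI, ?_, ?_⟩
  · rw [← Ideal.isCoprime_iff_sup_eq]
    refine IsCoprime.prod_left fun w hw => IsCoprime.pow_left ?_
    rw [Ideal.isCoprime_iff_sup_eq]
    refine w.isMaximal.out.2 _ (lt_of_le_of_ne le_sup_left fun he => (Finset.mem_filter.1 hw).2 ?_)
    exact hT w (Ideal.dvd_iff_le.2 (sup_eq_left.1 he.symm))
  · rw [idealClass_eq N hcl hI (a := intU _ hr) fun w hw => by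
      rw [ord_intU_eq_ordI, hordI, if_neg hw], hdiag]
    congr 1
    rw [div_inv_eq_mul, show expo T N I = 1 from LocProd.ext fun i => ?_, one_mul]
    rcases i with i | v
    · rfl
    · show (QuotientGroup.mk (unif v.1 ^ ordI v.1 I) : Kˣ ⧸ N (Sum.inr v)) = 1
      rw [hordI, if_pos v.2, pow_zero, QuotientGroup.mk_one]

end local_classes

include hσ

theorem card_locClasses (T : Finset (HeightOneSpectrum (𝓞 K))) (hcl : IsClassSet T)
    (hram : ∀ v, IsRam L v → v ∈ T) (N : InfinitePlace K ⊕ {v // v ∈ T} → Subgroup Kˣ)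
    (hle : ∀ i, Sum.elim (infIdx L) (fun v => finIdx L v.1) i ≤
      (N i).index) (hnorm : ∀ i, ∀ x : Lˣ, normU' x ∈ N i) :
    Module.finrank K L ≤ Nat.card (LocClasses T N) := by
  set D := (tUnit T).map (diag T N)
  have hcount := hFix_tUnit hσ T hcl hram
  have hA : Nat.card (LocProd T N) = ∏ i, (N i).index :=
    Nat.card_pi (β := fun i => Kˣ ⧸ N i)
  have hker : (tUnit (primesAbove L T)).map normU' ≤ (diag T N).ker := by
    rintro _ ⟨x, -, rfl⟩
    exact LocProd.ext fun i => (QuotientGroup.eq_one_iff _).2 (hnorm i x)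
  have hD : Nat.card D ∣ hFix (galU σ) (Module.finrank K L) (tUnit (primesAbove L T)) := by
    rw [← relIndex_norm_tUnit hσ, ← Subgroup.relIndex_ker]
    exact Subgroup.relIndex_dvd_of_le_left _ hker
  have hpos : 0 < hFix (galU σ) (Module.finrank K L) (tUnit (primesAbove L T)) := by
    refine Nat.pos_of_ne_zero fun h => ?_
    rw [h, zero_mul, eq_comm, mul_eq_zero, Finset.prod_eq_zero_iff, Finset.prod_eq_zero_iff] at hcount
    rcases hcount with ⟨v, -, hv⟩ | ⟨v, -, hv⟩
    · have := infIdx_mul_card (L := L) hσ v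
      rw [hv, zero_mul] at this
      exact Module.finrank_pos.ne this
    · have := finIdx_mul_card (L := L) hσ v
      rw [hv, zero_mul] at this
      exact Module.finrank_pos.ne this
  have hDle := Nat.le_of_dvd hpos hD
  have hmul : Nat.card (LocProd T N) = Nat.card (LocClasses T N) * Nat.card D :=
    Subgroup.card_eq_card_quotient_mul_card_subgroup D
  have hge : hFix (galU σ) (Module.finrank K L) (tUnit (primesAbove L T)) * Module.finrank K L ≤
      Nat.card (LocProd T N) := by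
    rw [hcount, hA, Fintype.prod_sum_type, ← Finset.prod_coe_sort T]
    exact Nat.mul_le_mul (Finset.prod_le_prod (fun _ _ => Nat.zero_le _) fun v _ => hle (Sum.inl v))
      (Finset.prod_le_prod (fun _ _ => Nat.zero_le _) fun v _ => hle (Sum.inr v))
  refine Nat.le_of_mul_le_mul_left ((hge.trans hmul.le).trans ?_) hpos
  rw [mul_comm]
  exact Nat.mul_le_mul_right _ hDle

/-- **The first inequality**, with positivity only at the ramified real places: a subgroup of index
at least the degree containing the norm classes and the classes of the elements congruent to `1`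
positive at the real places ramified in `L`. -/
theorem exists_first_inequality_signed :
    ∃ (𝔪 : Ideal (𝓞 K)) (h𝔪 : 𝔪 ≠ ⊥), (∀ v : HeightOneSpectrum (𝓞 K), v.asIdeal ∣ 𝔪 ↔ IsRam L v)
      ∧ ∃ P : Subgroup (RayClassGroup 𝔪), normClasses L h𝔪 ≤ P ∧ Module.finrank K L ≤ P.index ∧
        ∀ (x : 𝓞 K) (I : coprimeIdeals 𝔪), x ≠ 0 → x - 1 ∈ 𝔪 →
          (∀ w : InfinitePlace K, ¬ w.IsUnramifiedIn L →
            ∀ h : IsReal w, 0 < embedding_of_isReal h (x : K)) →
          I.1.1 = Ideal.span {x} → rayClass h𝔪 I ∈ P := by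
  set S := (finite_isRam K L).toFinset with hS
  obtain ⟨TK, hTK⟩ := exists_isClassSet (K := K)
  obtain ⟨TL, hTL⟩ := exists_isClassSet (K := L)
  set T := S ∪ TK ∪ TL.image (belowP K) with hTdef
  have hcl : IsClassSet T := hTK.mono fun v hv => by simp [hTdef, hv]
  have hclL : IsClassSet (primesAbove L T) := hTL.mono fun Q hQ => by
    rw [mem_primesAbove, hTdef]
    exact Finset.mem_union_right _ (Finset.mem_image_of_mem _ hQ)
  have hram : ∀ v, IsRam L v → v ∈ T := fun v hv => by simp [hTdef, hS, hv]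
  choose NP k hP0 hP1 hP2 hP3 hP4 using exists_locSub hσ
  choose NI hI0 hI1 hI2 hI3 using exists_infSub hσ
  let N : InfinitePlace K ⊕ {v // v ∈ T} → Subgroup Kˣ := Sum.elim NI fun v => NP v.1
  haveI : ∀ i, Finite (Kˣ ⧸ N i) := fun i =>
    haveI : (N i).FiniteIndex := ⟨by rcases i with v | v; exacts [hI0 v, hP0 v.1]⟩
    Subgroup.finite_quotient_of_finiteIndex
  have hsurj : Function.Surjective (diag T N) :=
    diag_surjective T N (fun v => k v.1) (fun v a ha => hI3 v a fun h _ => ha h) fun v => hP3 v.1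
  have hcard : Module.finrank K L ≤ Nat.card (LocClasses T N) :=
    card_locClasses hσ T hcl hram N
      (fun i => by rcases i with v | v; exacts [hI1 v, hP1 v.1])
      (fun i => by rcases i with v | v; exacts [hI2 v, hP2 v.1])
  set 𝔪 : Ideal (𝓞 K) := ∏ v ∈ S, v.asIdeal ^ (k v + 1) with h𝔪def
  have h𝔪 : 𝔪 ≠ ⊥ := Finset.prod_ne_zero_iff.2 fun v _ => pow_ne_zero _ v.ne_bot
  have hdvd : ∀ v : HeightOneSpectrum (𝓞 K), v.asIdeal ∣ 𝔪 → IsRam L v := fun v hv => by
    obtain ⟨u, hu, hd⟩ := v.prime.exists_mem_finset_dvd hv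
    rw [show v = u from HeightOneSpectrum.ext
      ((prime_dvd_prime_iff_eq v.prime u.prime).1 (v.prime.dvd_of_dvd_pow hd))]
    exact (finite_isRam K L).mem_toFinset.1 hu
  refine ⟨𝔪, h𝔪, fun v => ⟨hdvd v, fun hv => (dvd_pow_self v.asIdeal (k v).succ_ne_zero).trans
    (Finset.dvd_prod_of_mem (fun u : HeightOneSpectrum (𝓞 K) => u.asIdeal ^ (k u + 1))
      ((finite_isRam K L).mem_toFinset.2 hv))⟩, ?_⟩
  let Φ : coprimeIdeals 𝔪 →* LocClasses T N :=
    MonoidHom.mk' (fun I => idealClass N hcl I.1.1) fun I J =>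
      idealClass_mul N hcl (nonZeroDivisors.coe_ne_zero I.1) (nonZeroDivisors.coe_ne_zero J.1)
  have hray : ∀ x : 𝓞 K, x ≠ 0 → x - 1 ∈ 𝔪 → (∀ w : InfinitePlace K, ¬ w.IsUnramifiedIn L →
      ∀ h : IsReal w, 0 < embedding_of_isReal h (x : K)) →
      idealClass N hcl (Ideal.span {x}) = 1 := by
    intro x hx0 hx1 hxp
    refine idealClass_eq_one N hcl (by simpa using hx0) (a := intU x hx0)
      (fun w _ => ord_intU_eq_ordI w hx0) (fun v => hI3 v _ fun h hv => hxp v hv h) fun v => ?_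
    show unif v.1 ^ _ / intU x hx0 ∈ NP v.1
    by_cases hv : IsRam L v.1
    · have hmem : x - 1 ∈ v.1.asIdeal ^ (k v.1 + 1) :=
        Ideal.le_of_dvd (Finset.dvd_prod_of_mem
          (fun u : HeightOneSpectrum (𝓞 K) => u.asIdeal ^ (k u + 1))
          ((finite_isRam K L).mem_toFinset.2 hv)) hx1
      have hle := (v.1.intValuation_le_pow_iff_mem _ _).2 hmem
      rw [← v.1.valuation_of_algebraMap (K := K)] at hle
      replace hle : v.1.valuation K (algebraMap (𝓞 K) K (x - 1)) ≤ exp (-((k v.1 + 1 : ℕ) : ℤ)) :=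
        hle
      rw [map_sub, map_one] at hle
      have h0 : ord v.1 (intU x hx0) = 0 := ord_eq_zero_of_near (k v.1).succ_pos hle
      rw [ord_intU_eq_ordI, Nat.cast_eq_zero] at h0
      rw [h0, pow_zero, one_div]
      exact inv_mem (hP3 v.1 _ (hle.trans (exp_le_exp.2 (by omega))))
    · refine hP4 v.1 hv _ ?_
      rw [ord_div, ord_pow, ord_unif, mul_one, ord_intU_eq_ordI, sub_self]
      exact dvd_zero _
  have hker : rayCon 𝔪 ≤ Con.ker Φ := by
    rintro I J ⟨x, y, hx, hy, hxy⟩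
    show idealClass N hcl I.1.1 = idealClass N hcl J.1.1
    have hI' := nonZeroDivisors.coe_ne_zero I.1
    have hJ' := nonZeroDivisors.coe_ne_zero J.1
    have h := congrArg (idealClass N hcl) hxy
    rwa [idealClass_mul N hcl (by simpa using hx.1) hI', idealClass_mul N hcl (by simpa using hy.1) hJ',
      hray x hx.1 hx.2.1 fun w _ h => hx.2.2 _, hray y hy.1 hy.2.1 fun w _ h => hy.2.2 _,
      one_mul, one_mul] at h
  let Ψ : RayClassGroup 𝔪 →* LocClasses T N :=
    ((rayCon 𝔪).lift Φ hker).comp (Units.coeHom _)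
  have hΨ : ∀ I, Ψ (rayClass h𝔪 I) = Φ I := fun I => by
    show (rayCon 𝔪).lift Φ hker ((rayClass h𝔪 I : (rayCon 𝔪).Quotient)) = _
    rw [rayClass, IsUnit.coe_liftRight]
    exact Con.lift_mk' _ _
  have hΨsurj : Function.Surjective Ψ := fun γ => by
    obtain ⟨I, hI, hIm, rfl⟩ := exists_idealClass_eq N hcl hsurj (𝔪 := 𝔪)
      (fun v hv => hram v (hdvd v hv)) γ
    exact ⟨_, hΨ ⟨⟨I, mem_nonZeroDivisors_iff_ne_zero.mpr hI⟩, hIm⟩⟩
  have hle : normClasses L h𝔪 ≤ Ψ.ker := by
    rw [normClasses, Subgroup.closure_le]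
    rintro _ ⟨Q, hQ, rfl⟩
    rw [SetLike.mem_coe, MonoidHom.mem_ker, hΨ]
    show idealClass N hcl (Ideal.relNorm (𝓞 K) Q.asIdeal) = 1
    obtain ⟨x, hx⟩ := hclL Q
    have hrel := relNorm_prime (K := K) Q
    set v := belowP K Q with hv
    have hvS : ¬ IsRam L v := fun hr => by
      have hd : v.asIdeal ∣ 𝔪 := (dvd_pow_self v.asIdeal (k v).succ_ne_zero).trans
        (Finset.dvd_prod_of_mem (fun u : HeightOneSpectrum (𝓞 K) => u.asIdeal ^ (k u + 1))
          ((finite_isRam K L).mem_toFinset.2 hr))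
      have h1 : (Ideal.relNorm (𝓞 K) Q.asIdeal) ⊔ 𝔪 = ⊤ := hQ
      rw [hrel] at h1
      exact v.isPrime.ne_top (top_le_iff.1
        (h1 ▸ sup_le (Ideal.pow_le_self (fDeg_ne_zero v)) (Ideal.le_of_dvd hd)))
    refine idealClass_eq_one N hcl (relNorm_ne_bot Q.ne_bot) (a := normU' x) (fun w hw => ?_)
      (fun u => hI2 u x) fun u => ?_
    · rw [ord_normU', ordI_relNorm w Q.ne_bot]
      push_cast
      congr 1
      refine Finset.sum_congr rfl fun Q' hQ' => ?_
      rw [hx Q' (by rwa [mem_primesAbove, (finite_belowP (L := L) w).mem_toFinset.1 hQ']),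
        ordI_prime]
      split_ifs <;> rfl
    · show unif u.1 ^ _ / normU' x ∈ NP u.1
      refine div_mem ?_ (hP2 u.1 x)
      by_cases hu : u.1 = v
      · refine hP4 u.1 (hu ▸ hvS) _ ?_
        rw [ord_pow, ord_unif, mul_one, ordI_relNorm u.1 Q.ne_bot, Nat.cast_mul]
        exact dvd_mul_right _ _
      · rw [hrel, ordI_pow _ v.ne_bot, ordI_prime, if_neg hu, mul_zero, pow_zero]
        exact one_mem _
  refine ⟨Ψ.ker, hle, hcard.trans (le_of_eq ?_), fun x I hx0 hx1 hxp hI => ?_⟩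
  · rw [Subgroup.index_ker, MonoidHom.range_eq_top.2 hΨsurj,
      Nat.card_congr Subgroup.topEquiv.toEquiv]
  · rw [MonoidHom.mem_ker, hΨ]
    show idealClass N hcl I.1.1 = 1
    rw [hI]
    exact hray x hx0 hx1 hxp

/-- **The first inequality.** -/
theorem exists_first_inequality :
    ∃ (𝔪 : Ideal (𝓞 K)) (h𝔪 : 𝔪 ≠ ⊥), (∀ v : HeightOneSpectrum (𝓞 K), v.asIdeal ∣ 𝔪 ↔ IsRam L v)
      ∧ Module.finrank K L ≤ (normClasses L h𝔪).index := by
  obtain ⟨𝔪, h𝔪, hiff, P, hle, hP, -⟩ := exists_first_inequality_signed hσ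
  haveI : Finite (RayClassGroup 𝔪) := finite_rayClassGroup h𝔪
  exact ⟨𝔪, h𝔪, hiff, hP.trans (Nat.le_of_dvd (Nat.pos_of_ne_zero Subgroup.index_ne_zero_of_finite)
    (Subgroup.index_dvd_of_le hle))⟩

end FA.ArtinRec
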