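import Fermat.Agent.ArtinReciprocity.SecondInequality
import Fermat.Agent.ArtinL.Inflation

/-!
# The Artin symbol

The Frobenius element of a prime unramified in an abelian extension, its behaviour in towers and on
roots of unity, every element is one infinitely often, and the Artin symbol of an ideal.
-/

set_option autoImplicit false
set_option linter.unusedSectionVars false
set_option linter.style.haveILetI false

noncomputable section

open NumberField IsDedekindDomain Finset Filter Topology IsMulCommutative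
open FA.Hecke (HasMean hasMean_congr coprimeIdeals)
open FA.Ext (primeIdeal)
open FA.Chebotarev (strictFrobSet)
open scoped Pointwise nonZeroDivisors Classical

namespace FA.ArtinRec

variable {K L : Type*} [Field K] [NumberField K] [Field L] [NumberField L] [Algebra K L]
  [IsGalois K L]

theorem inertia_eq_bot {v : HeightOneSpectrum (𝓞 K)} (h : ¬ IsRam L v)
    {Q : HeightOneSpectrum (𝓞 L)} (hQ : belowP K Q = v) :
    Q.asIdeal.inertia (L ≃ₐ[K] L) = ⊥ :=
  by_contra fun hne => h ⟨Q, hQ, hne⟩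

theorem exists_frob (Q : HeightOneSpectrum (𝓞 L)) :
    ∃ τ : L ≃ₐ[K] L, IsArithFrobAt (𝓞 K) τ Q.asIdeal :=
  haveI := Q.isPrime
  haveI : Finite (𝓞 L ⧸ Q.asIdeal) := Ideal.finiteQuotientOfFreeOfNeBot _ Q.ne_bot
  IsArithFrobAt.exists_of_isInvariant (R := 𝓞 K) (G := L ≃ₐ[K] L) Q.asIdeal

/-- **The Artin symbol of a prime**: a Frobenius element over it. -/
def artinAt (L : Type*) [Field L] [NumberField L] [Algebra K L] [IsGalois K L]
    (v : HeightOneSpectrum (𝓞 K)) : L ≃ₐ[K] L :=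
  (exists_frob (exists_belowP K L v).choose).choose

theorem artinAt_spec (v : HeightOneSpectrum (𝓞 K)) :
    ∃ Q : HeightOneSpectrum (𝓞 L), belowP K Q = v ∧
      IsArithFrobAt (𝓞 K) (artinAt L v) Q.asIdeal :=
  ⟨_, (exists_belowP K L v).choose_spec, (exists_frob (exists_belowP K L v).choose).choose_spec⟩

/-- **Uniqueness of Frobenius elements.** -/
theorem artinAt_eq [IsMulCommutative (L ≃ₐ[K] L)] {v : HeightOneSpectrum (𝓞 K)}
    (h : ¬ IsRam L v) {Q : HeightOneSpectrum (𝓞 L)} (hQ : belowP K Q = v) {τ : L ≃ₐ[K] L}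
    (hτ : IsArithFrobAt (𝓞 K) τ Q.asIdeal) : τ = artinAt L v := by
  obtain ⟨Q', hQ', hτ'⟩ := artinAt_spec (L := L) v
  obtain ⟨g, hg⟩ := Algebra.IsInvariant.exists_smul_of_under_eq (𝓞 K) (𝓞 L) (L ≃ₐ[K] L)
    Q.asIdeal Q'.asIdeal (congrArg HeightOneSpectrum.asIdeal (hQ.trans hQ'.symm))
  have h1 := hτ.conj g
  rw [show g * τ * g⁻¹ = τ by rw [mul_comm g τ, mul_inv_cancel_right], ← hg] at h1
  have h2 := IsArithFrobAt.mul_inv_mem_inertia h1 hτ'
  rwa [inertia_eq_bot h hQ', Subgroup.mem_bot, mul_inv_eq_one] at h2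

/-- A prime with trivial symbol is a norm. -/
theorem exists_relNorm_eq {v : HeightOneSpectrum (𝓞 K)} (h : artinAt L v = 1) :
    ∃ Q : HeightOneSpectrum (𝓞 L), Ideal.relNorm (𝓞 K) Q.asIdeal = v.asIdeal := by
  obtain ⟨Q, hQ, hτ⟩ := artinAt_spec (L := L) v
  rw [h] at hτ
  exact ⟨Q, by rw [relNorm_of_frob_one hτ, hQ]⟩

theorem rayClass_mem_of_artinAt {𝔪 : Ideal (𝓞 K)} (h𝔪 : 𝔪 ≠ ⊥) {v : HeightOneSpectrum (𝓞 K)}
    (hv : v.asIdeal ⊔ 𝔪 = ⊤) (h : artinAt L v = 1) :
    FA.Hecke.rayClass h𝔪 ⟨primeIdeal v, hv⟩ ∈ normClasses L h𝔪 := by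
  obtain ⟨Q, hQ⟩ := exists_relNorm_eq h
  have hmem : normPrime K Q ∈ coprimeIdeals 𝔪 := by
    show Ideal.relNorm (𝓞 K) Q.asIdeal ⊔ 𝔪 = ⊤
    rw [hQ, hv]
  have e : (⟨primeIdeal v, hv⟩ : coprimeIdeals 𝔪) = ⟨normPrime K Q, hmem⟩ :=
    Subtype.ext (Subtype.ext hQ.symm)
  rw [e]
  exact rayClass_normPrime_mem h𝔪 Q hmem

/-- A set of primes with nonzero mean is infinite. -/
theorem infinite_of_hasMean {S : Set (HeightOneSpectrum (𝓞 K))} {c : ℝ} (hc : c ≠ 0)
    (h : HasMean (fun v => if v ∈ S then (1 : ℝ) else 0) c) : S.Infinite := by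
  intro hS
  have h0 : HasMean (fun _ : HeightOneSpectrum (𝓞 K) => (0 : ℝ)) c :=
    hasMean_congr S hS (B := 1) (fun v => by split_ifs <;> simp) (fun v hv _ => (if_neg hv).symm) h
  refine hc (tendsto_nhds_unique h0 ?_)
  simp [FA.Hecke.wSum]

/-- **Every element is an Artin symbol infinitely often.** -/
theorem infinite_artinAt [IsMulCommutative (L ≃ₐ[K] L)] (g : L ≃ₐ[K] L) :
    {v : HeightOneSpectrum (𝓞 K) | artinAt L v = g}.Infinite := by
  have h := FA.NaturalChebotarev.hasMean_strictFrobSet ({g} : Set (L ≃ₐ[K] L)) fun y hy x => by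
    rw [Set.mem_singleton_iff] at hy ⊢
    rw [mul_comm x y, mul_inv_cancel_right, hy]
  refine (infinite_of_hasMean (div_ne_zero ?_ (Nat.cast_ne_zero.2 Nat.card_pos.ne')) h).mono
    fun v hv => ?_
  · simp
  · obtain ⟨Q, hQ, hτ⟩ := artinAt_spec (L := L) v
    exact Set.mem_singleton_iff.1
      (hv Q.asIdeal Q.isMaximal (congrArg HeightOneSpectrum.asIdeal hQ) _ hτ)

/-! ### Towers and roots of unity -/

section tower

variable {M : Type*} [Field M] [NumberField M] [Algebra K M] [Algebra L M] [IsScalarTower K L M]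
  [IsGalois K M]

theorem belowP_belowP (Q : HeightOneSpectrum (𝓞 M)) : belowP K (belowP L Q) = belowP K Q :=
  HeightOneSpectrum.ext (Ideal.under_under Q.asIdeal)

/-- Frobenius elements restrict. -/
theorem isArithFrobAt_restrictNormal {Q : HeightOneSpectrum (𝓞 M)} {τ : M ≃ₐ[K] M}
    (h : IsArithFrobAt (𝓞 K) τ Q.asIdeal) :
    IsArithFrobAt (𝓞 K) (AlgEquiv.restrictNormalHom L τ) (belowP L Q).asIdeal := fun y => by
  show AlgEquiv.restrictNormalHom L τ • y - _ ∈ Q.asIdeal.under (𝓞 L)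
  rw [show (belowP L Q).asIdeal.under (𝓞 K) = Q.asIdeal.under (𝓞 K) from
    Ideal.under_under Q.asIdeal, Ideal.mem_comap, map_sub, map_pow,
    FA.ArtinL.algebraMap_restrictNormal_smul]
  exact h _

theorem restrict_frob [IsMulCommutative (L ≃ₐ[K] L)] {v : HeightOneSpectrum (𝓞 K)}
    (h : ¬ IsRam L v) {Q : HeightOneSpectrum (𝓞 M)} (hQ : belowP K Q = v) {τ : M ≃ₐ[K] M}
    (hτ : IsArithFrobAt (𝓞 K) τ Q.asIdeal) :
    AlgEquiv.restrictNormalHom L τ = artinAt L v :=
  artinAt_eq h ((belowP_belowP Q).trans hQ) (isArithFrobAt_restrictNormal hτ)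

/-- Ramified below implies ramified above. -/
theorem isRam_of_tower {v : HeightOneSpectrum (𝓞 K)} (h : IsRam L v) : IsRam M v := by
  obtain ⟨P, hP, hne⟩ := h
  obtain ⟨Q, rfl⟩ := exists_belowP L M P
  refine ⟨Q, (belowP_belowP Q).symm.trans hP, fun hbot => hne ?_⟩
  rw [Subgroup.eq_bot_iff_forall] at hbot ⊢
  intro τ hτ
  haveI := Q.isMaximal
  obtain ⟨s, hs, rfl⟩ := FA.ArtinL.exists_inertia_lift (K := K) (M := L) Q.asIdeal hτ
  rw [hbot s hs, map_one]

end tower

/-- **Frobenius on roots of unity.** -/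
theorem frob_apply_root {Q : HeightOneSpectrum (𝓞 L)} {τ : L ≃ₐ[K] L}
    (hτ : IsArithFrobAt (𝓞 K) τ Q.asIdeal) {m : ℕ} (hm : (m : 𝓞 K) ∉ (belowP K Q).asIdeal)
    {ζ : L} (hζ : ζ ^ m = 1) :
    τ ζ = ζ ^ Ideal.absNorm (belowP K Q).asIdeal := by
  haveI := Q.isPrime
  have hm0 : 0 < m := Nat.pos_of_ne_zero fun h => hm (by simp [h])
  have hint : IsIntegral ℤ ζ := IsIntegral.of_pow hm0 (by rw [hζ]; exact isIntegral_one)
  set z : 𝓞 L := ⟨ζ, hint⟩
  have hz : z ^ m = 1 := RingOfIntegers.ext hζ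
  have h1 := hτ.apply_of_pow_eq_one hz fun hQ => hm (by
    show (m : 𝓞 K) ∈ Q.asIdeal.under (𝓞 K)
    rw [Ideal.mem_comap, map_natCast]
    exact hQ)
  rw [Ideal.absNorm_apply, Submodule.cardQuot_apply]
  exact congrArg (fun y : 𝓞 L => (y : L)) h1

/-! ### The symbol of an ideal -/

section factor

variable {A : Type*} [CommMonoid A]

/-- The multiplicative function on ideals with given values at the primes. -/
def factorHom (f : HeightOneSpectrum (𝓞 K) → A) : (Ideal (𝓞 K))⁰ →* A where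
  toFun I := ((UniqueFactorizationMonoid.normalizedFactors I.1).map fun P =>
    if h : P.IsPrime ∧ P ≠ ⊥ then f ⟨P, h.1, h.2⟩ else 1).prod
  map_one' := by
    rw [OneMemClass.coe_one, UniqueFactorizationMonoid.normalizedFactors_one, Multiset.map_zero,
      Multiset.prod_zero]
  map_mul' I J := by
    rw [Submonoid.coe_mul, UniqueFactorizationMonoid.normalizedFactors_mul
      (nonZeroDivisors.coe_ne_zero I) (nonZeroDivisors.coe_ne_zero J), Multiset.map_add,
      Multiset.prod_add]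

theorem factorHom_prime (f : HeightOneSpectrum (𝓞 K) → A) (v : HeightOneSpectrum (𝓞 K)) :
    factorHom f (primeIdeal v) = f v := by
  show (Multiset.map _ (UniqueFactorizationMonoid.normalizedFactors v.asIdeal)).prod = _
  rw [UniqueFactorizationMonoid.normalizedFactors_irreducible v.irreducible, normalize_eq,
    Multiset.map_singleton, Multiset.prod_singleton, dif_pos ⟨v.isPrime, v.ne_bot⟩]

/-- Homomorphisms on the ideals prime to `𝔪` agree if they agree on the primes. -/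
theorem hom_ext_primes {𝔪 : Ideal (𝓞 K)} {φ ψ : coprimeIdeals 𝔪 →* A}
    (h : ∀ (v : HeightOneSpectrum (𝓞 K)) (hv : v.asIdeal ⊔ 𝔪 = ⊤),
      φ ⟨primeIdeal v, hv⟩ = ψ ⟨primeIdeal v, hv⟩) : φ = ψ := by
  suffices key : ∀ (J : Ideal (𝓞 K)) (I : coprimeIdeals 𝔪), I.1.1 = J → φ I = ψ I from
    MonoidHom.ext fun I => key _ I rfl
  intro J
  induction J using UniqueFactorizationMonoid.induction_on_prime with
  | h₁ => exact fun I hI => absurd hI (nonZeroDivisors.coe_ne_zero I.1)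
  | h₂ J hJ =>
    intro I hI
    rw [show I = 1 from Subtype.ext (Subtype.ext
      (hI.trans (by rw [Ideal.isUnit_iff.1 hJ, ← Ideal.one_eq_top]; rfl))), map_one, map_one]
  | h₃ J p hJ0 hp ih =>
    intro I hI
    have hc : p * J ⊔ 𝔪 = ⊤ := by rw [← hI]; exact I.2
    rw [FA.Hecke.mul_sup_eq_top] at hc
    let P : HeightOneSpectrum (𝓞 K) := ⟨p, Ideal.isPrime_of_prime hp, hp.ne_zero⟩
    let J' : coprimeIdeals 𝔪 := ⟨⟨J, mem_nonZeroDivisors_iff_ne_zero.mpr hJ0⟩, hc.2⟩
    rw [show I = ⟨primeIdeal P, hc.1⟩ * J' from Subtype.ext (Subtype.ext hI), map_mul, map_mul,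
      h P hc.1, ih J' rfl]

end factor

/-- **The Artin symbol.** -/
def artinHom (L : Type*) [Field L] [NumberField L] [Algebra K L] [IsGalois K L]
    [IsMulCommutative (L ≃ₐ[K] L)] : (Ideal (𝓞 K))⁰ →* (L ≃ₐ[K] L) :=
  factorHom (artinAt L)

theorem artinHom_prime [IsMulCommutative (L ≃ₐ[K] L)] (v : HeightOneSpectrum (𝓞 K)) :
    artinHom L (primeIdeal v) = artinAt L v := factorHom_prime _ v

end FA.ArtinRec
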