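import Mathlib

/-!
# The Herbrand quotient of an abelian group with a cyclic action

For an endomorphism `s` of an abelian group with `s ^ n = 1`, with `D x = s x / x` and `N` the
product of the first `n` iterates: the indices of `N A` in the fixed elements of `A` and of `D A`
in the elements of norm one, for stable subgroups `A`, are compared along subgroups of finite index
and computed for permutation lattices.
-/

set_option autoImplicit false

noncomputable section

open Finset

namespace FA.ArtinRec

variable {M M' : Type*} [CommGroup M] [CommGroup M'] (s : M →* M) (n : ℕ)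

/-- `x ↦ s x / x`. -/
def diffHom : M →* M := s / MonoidHom.id M

theorem diffHom_apply (x : M) : diffHom s x = s x / x := rfl

theorem mem_ker_diffHom {x : M} : x ∈ (diffHom s).ker ↔ s x = x := by
  rw [MonoidHom.mem_ker, diffHom_apply, div_eq_one]

/-- The product of the first `n` iterates. -/
def normHom : M →* M :=
  MonoidHom.mk' (fun x => ∏ i ∈ range n, s^[i] x) fun x y => by
    simp [iterate_map_mul, Finset.prod_mul_distrib]

theorem normHom_apply (x : M) : normHom s n x = ∏ i ∈ range n, s^[i] x := rfl

/-- The order of the zeroth Tate group. -/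
def hFix (A : Subgroup M) : ℕ := (A.map (normHom s n)).relIndex (A ⊓ (diffHom s).ker)

/-- The order of the first Tate group. -/
def hOne (A : Subgroup M) : ℕ := (A.map (diffHom s)).relIndex (A ⊓ (normHom s n).ker)

/-- Stable under `s`. -/
def IsStable (A : Subgroup M) : Prop := ∀ x ∈ A, s x ∈ A

variable {s n}

theorem IsStable.iterate {A : Subgroup M} (h : IsStable s A) {x : M} (hx : x ∈ A) :
    ∀ i : ℕ, s^[i] x ∈ A
  | 0 => hx
  | i + 1 => by rw [Function.iterate_succ_apply']; exact h _ (h.iterate hx i)

theorem IsStable.norm_mem {A : Subgroup M} (h : IsStable s A) {x : M} (hx : x ∈ A) :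
    normHom s n x ∈ A := by
  rw [normHom_apply]
  exact prod_mem fun i _ => h.iterate hx i

theorem IsStable.diff_mem {A : Subgroup M} (h : IsStable s A) {x : M} (hx : x ∈ A) :
    diffHom s x ∈ A :=
  div_mem (h x hx) hx

section period

variable (hs : ∀ x, s^[n] x = x)
include hs

theorem norm_apply_s (x : M) : normHom s n (s x) = normHom s n x := by
  have h1 := Finset.prod_range_succ (fun i => s^[i] x) n
  have h2 := Finset.prod_range_succ' (fun i => s^[i] x) n
  rw [hs] at h1
  rw [h1, Function.iterate_zero_apply] at h2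
  simp only [normHom_apply, ← Function.iterate_succ_apply]
  exact (mul_right_cancel h2).symm

theorem s_norm (x : M) : s (normHom s n x) = normHom s n x := by
  conv_rhs => rw [← norm_apply_s hs x]
  simp only [normHom_apply, map_prod, ← Function.iterate_succ_apply' (f := ⇑s),
    ← Function.iterate_succ_apply (f := ⇑s)]

theorem IsStable.map_diff_le {A : Subgroup M} (h : IsStable s A) :
    A.map (diffHom s) ≤ A ⊓ (normHom s n).ker := by
  rintro _ ⟨x, hx, rfl⟩
  refine ⟨h.diff_mem hx, ?_⟩
  show normHom s n (diffHom s x) = 1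
  rw [diffHom_apply, map_div, norm_apply_s hs, div_self']

theorem IsStable.map_norm_le {A : Subgroup M} (h : IsStable s A) :
    A.map (normHom s n) ≤ A ⊓ (diffHom s).ker := by
  rintro _ ⟨x, hx, rfl⟩
  exact ⟨h.norm_mem hx, (mem_ker_diffHom s).2 (s_norm hs x)⟩

end period

/-- The index is the product of the indices of the images and of the kernels. -/
theorem relIndex_image_ker (f : M →* M') {A B : Subgroup M} (h : B ≤ A) :
    (B.map f).relIndex (A.map f) * (B ⊓ f.ker).relIndex (A ⊓ f.ker) = B.relIndex A := by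
  have hmem : ∀ x ∈ B ⊔ f.ker, x ∈ A → x ∈ B ⊔ (A ⊓ f.ker) := fun x hx hxA => by
    obtain ⟨b, hb, k, hk, rfl⟩ := Subgroup.mem_sup.1 hx
    have hkA : k ∈ A := by simpa using div_mem hxA (h hb)
    exact Subgroup.mem_sup.2 ⟨b, hb, k, ⟨hkA, hk⟩, rfl⟩
  have h1 : (B.map f).relIndex (A.map f) = (B ⊔ (A ⊓ f.ker)).relIndex A := by
    rw [Subgroup.relIndex_map_map]
    have hA : A ⊔ f.ker = A ⊔ (B ⊔ f.ker) := by rw [← sup_assoc, sup_eq_left.2 h]
    rw [hA, Subgroup.relIndex_sup_right, ← Subgroup.inf_relIndex_right]
    congr 1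
    refine le_antisymm (fun x hx => hmem x hx.1 hx.2) ?_
    exact le_inf (sup_le le_sup_left (inf_le_right.trans le_sup_right))
      (sup_le h inf_le_left)
  have h2 : (B ⊓ f.ker).relIndex (A ⊓ f.ker) = B.relIndex (B ⊔ (A ⊓ f.ker)) := by
    rw [sup_comm, Subgroup.relIndex_sup_right, ← Subgroup.inf_relIndex_right B (A ⊓ f.ker)]
    congr 1
    rw [← inf_assoc, inf_eq_left.2 h]
  rw [h1, h2, mul_comm]
  exact Subgroup.relIndex_mul_relIndex _ _ _ le_sup_left (sup_le h inf_le_left)

/-- **Multiplicativity along a subgroup of finite index**, with finiteness. -/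
theorem herbrand_mul (hs : ∀ x, s^[n] x = x) {A B : Subgroup M} (hA : IsStable s A)
    (hB : IsStable s B) (h : B ≤ A) (hfin : B.relIndex A ≠ 0) :
    hFix s n A * hOne s n B = hFix s n B * hOne s n A ∧
      (hFix s n B ≠ 0 → hFix s n A ≠ 0) ∧ (hOne s n B ≠ 0 → hOne s n A ≠ 0) := by
  set D := diffHom s
  set N := normHom s n
  have eD := relIndex_image_ker D h
  have eN := relIndex_image_ker N h
  have h1 : (B.map D).relIndex (A.map D) * hOne s n A =
      hOne s n B * (B ⊓ N.ker).relIndex (A ⊓ N.ker) := by
    rw [hOne, hOne, Subgroup.relIndex_mul_relIndex _ _ _ (Subgroup.map_mono h) (hA.map_diff_le hs),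
      Subgroup.relIndex_mul_relIndex _ _ _ (hB.map_diff_le hs) (inf_le_inf_right N.ker h)]
  have h2 : (B.map N).relIndex (A.map N) * hFix s n A =
      hFix s n B * (B ⊓ D.ker).relIndex (A ⊓ D.ker) := by
    rw [hFix, hFix, Subgroup.relIndex_mul_relIndex _ _ _ (Subgroup.map_mono h) (hA.map_norm_le hs),
      Subgroup.relIndex_mul_relIndex _ _ _ (hB.map_norm_le hs) (inf_le_inf_right D.ker h)]
  rw [← eD] at eN hfin
  simp only [mul_ne_zero_iff] at hfin
  have hN : (B.map N).relIndex (A.map N) ≠ 0 ∧ (B ⊓ N.ker).relIndex (A ⊓ N.ker) ≠ 0 := by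
    rw [← mul_ne_zero_iff, eN]; exact mul_ne_zero hfin.1 hfin.2
  refine ⟨?_, fun hb => ?_, fun hb => ?_⟩
  · refine Nat.eq_of_mul_eq_mul_left
      (Nat.pos_of_ne_zero (mul_ne_zero hN.1 hN.2) : 0 < _) ?_
    calc (B.map N).relIndex (A.map N) * (B ⊓ N.ker).relIndex (A ⊓ N.ker) *
          (hFix s n A * hOne s n B)
        = ((B.map N).relIndex (A.map N) * hFix s n A) *
            (hOne s n B * (B ⊓ N.ker).relIndex (A ⊓ N.ker)) := by ring
      _ = (hFix s n B * hOne s n A) *
            ((B.map D).relIndex (A.map D) * (B ⊓ D.ker).relIndex (A ⊓ D.ker)) := by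
          rw [h2, ← h1]; ring
      _ = _ := by rw [← eN]; ring
  · intro h0
    rw [h0, mul_zero] at h2
    exact mul_ne_zero hb hfin.2 h2.symm
  · intro h0
    rw [h0, mul_zero] at h1
    exact mul_ne_zero hb hN.2 h1.symm

/-- Transport along an injective equivariant map. -/
theorem herbrand_map {s' : M' →* M'} (ψ : M →* M') (hψ : Function.Injective ψ)
    (hcomm : ∀ x, ψ (s x) = s' (ψ x)) (A : Subgroup M) :
    hFix s' n (A.map ψ) = hFix s n A ∧ hOne s' n (A.map ψ) = hOne s n A := by
  have hit : ∀ (i : ℕ) (x : M), s'^[i] (ψ x) = ψ (s^[i] x) := fun i x => by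
    induction i with
    | zero => rfl
    | succ i ih => rw [Function.iterate_succ_apply', Function.iterate_succ_apply', ih, hcomm]
  have hD : (diffHom s').comp ψ = ψ.comp (diffHom s) := MonoidHom.ext fun x => by
    simp [diffHom_apply, hcomm]
  have hN : (normHom s' n).comp ψ = ψ.comp (normHom s n) := MonoidHom.ext fun x => by
    simp [normHom_apply, hit, map_prod]
  have key : ∀ (f : M →* M) (f' : M' →* M'), f'.comp ψ = ψ.comp f →
      A.map ψ ⊓ f'.ker = (A ⊓ f.ker).map ψ := fun f f' hf => by
    ext y
    constructor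
    · rintro ⟨⟨x, hx, rfl⟩, hy⟩
      exact ⟨x, ⟨hx, hψ (by rw [map_one]; exact ((DFunLike.congr_fun hf x).symm.trans hy :))⟩, rfl⟩
    · rintro ⟨x, ⟨hx, hfx⟩, rfl⟩
      refine ⟨⟨x, hx, rfl⟩, ?_⟩
      show f' (ψ x) = 1
      rw [← MonoidHom.comp_apply, hf, MonoidHom.comp_apply, hfx, map_one]
  constructor
  · rw [hFix, key _ _ hD, Subgroup.map_map, hN, ← Subgroup.map_map,
      Subgroup.relIndex_map_map_of_injective _ _ hψ, hFix]
  · rw [hOne, key _ _ hN, Subgroup.map_map, hD, ← Subgroup.map_map,
      Subgroup.relIndex_map_map_of_injective _ _ hψ, hOne]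

/-! ### Permutation lattices -/

section perm

variable {W I : Type*} [Fintype W] [Fintype I] (τ : W → W)

/-- The action on the lattice of a permutation. -/
def permHom : Multiplicative (W → ℤ) →* Multiplicative (W → ℤ) :=
  MonoidHom.mk' (fun x => Multiplicative.ofAdd fun w => Multiplicative.toAdd x (τ w))
    fun _ _ => rfl

theorem permHom_iterate (i : ℕ) (x : Multiplicative (W → ℤ)) :
    (permHom τ)^[i] x = Multiplicative.ofAdd fun w => Multiplicative.toAdd x (τ^[i] w) := by
  induction i with
  | zero => rfl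
  | succ i ih =>
    rw [Function.iterate_succ_apply', ih]
    refine Multiplicative.ext (funext fun w => ?_)
    show Multiplicative.toAdd x (τ^[i] (τ w)) = _
    rw [← Function.iterate_succ_apply]
    rfl

theorem toAdd_norm_permHom (n : ℕ) (x : Multiplicative (W → ℤ)) (w : W) :
    Multiplicative.toAdd (normHom (permHom τ) n x) w =
      ∑ i ∈ range n, Multiplicative.toAdd x (τ^[i] w) := by
  rw [normHom_apply, toAdd_prod, Finset.sum_apply]
  simp [permHom_iterate]

open scoped Classical in
/-- **The Herbrand quotient of a permutation lattice**: the product over the orbits of `n` over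
their sizes. -/
theorem herbrand_perm {n : ℕ} (hn : 0 < n) (hτ : ∀ w, τ^[n] w = w) (π : W → I)
    (hπ : Function.Surjective π) (hπτ : ∀ w, π (τ w) = π w)
    (htrans : ∀ w w', π w = π w' → ∃ i, τ^[i] w = w') (m : I → ℕ)
    (hm : ∀ j, m j * Nat.card {w // π w = j} = n) :
    hFix (permHom τ) n ⊤ = ∏ j, m j ∧ hOne (permHom τ) n ⊤ = 1 := by
  obtain ⟨sec, hsec⟩ := hπ.hasRightInverse
  set o : W → ℕ := fun w => Function.minimalPeriod τ w
  have ho : ∀ w, 0 < o w := fun w => Function.IsPeriodicPt.minimalPeriod_pos hn (hτ w)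
  have hmod : ∀ w i, τ^[i % o w] w = τ^[i] w := fun w i => Function.iterate_mod_minimalPeriod_eq
  have hπi : ∀ w i, π (τ^[i] w) = π w := fun w i => by
    induction i with
    | zero => rfl
    | succ i ih => rw [Function.iterate_succ_apply', hπτ, ih]
  -- an orbit is a fibre
  have hcard : ∀ w, Nat.card {w' // π w' = π w} = o w := fun w => by
    let e : Fin (o w) → {w' // π w' = π w} := fun i => ⟨τ^[i] w, hπi w i⟩
    rw [← Nat.card_eq_of_bijective e ⟨fun a b h => Fin.ext
        (Function.iterate_injOn_Iio_minimalPeriod a.2 b.2 (congrArg Subtype.val h :)), fun w' => ?_⟩,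
      Nat.card_fin]
    obtain ⟨i, hi⟩ := htrans w w'.1 w'.2.symm
    exact ⟨⟨i % o w, Nat.mod_lt _ (ho w)⟩, Subtype.ext ((hmod w i).trans hi)⟩
  have hmo : ∀ w, n = m (π w) * o w := fun w => by rw [← hcard w, hm]
  have hm0 : ∀ j, 0 < m j := fun j => pos_of_mul_pos_left ((hm j).symm ▸ hn) (Nat.zero_le _)
  -- the norm is `m` times the sum over the orbit
  have hN : ∀ x w, Multiplicative.toAdd (normHom (permHom τ) n x) w =
      m (π w) * ∑ i ∈ range (o w), Multiplicative.toAdd x (τ^[i] w) := fun x w => by
    have key : ∀ q : ℕ, ∑ i ∈ range (q * o w), Multiplicative.toAdd x (τ^[i] w) =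
        q * ∑ i ∈ range (o w), Multiplicative.toAdd x (τ^[i] w) := fun q => by
      induction q with
      | zero => simp
      | succ q ih =>
        rw [Nat.succ_mul, Finset.sum_range_add, ih, Nat.cast_succ, add_one_mul]
        refine congrArg₂ _ rfl (Finset.sum_congr rfl fun i _ => ?_)
        rw [← hmod w (q * o w + i), Nat.mul_add_mod_self_right, hmod]
    rw [toAdd_norm_permHom, hmo w, key]
  have hfixed : ∀ x, x ∈ (diffHom (permHom τ)).ker → ∀ w i,
      Multiplicative.toAdd x (τ^[i] w) = Multiplicative.toAdd x w := fun x hx w i => by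
    induction i with
    | zero => rfl
    | succ i ih =>
      rw [← ih, Function.iterate_succ_apply']
      exact congrFun (congrArg Multiplicative.toAdd ((mem_ker_diffHom _).1 hx)) (τ^[i] w)
  constructor
  · let f : Multiplicative (W → ℤ) →* Multiplicative (∀ j, ZMod (m j)) :=
      MonoidHom.mk'
        (fun x => Multiplicative.ofAdd fun j => ((Multiplicative.toAdd x (sec j) : ℤ) : ZMod (m j)))
        fun x y => Multiplicative.ext (funext fun j => Int.cast_add _ _)
    have hker : (⊤ : Subgroup _).map (normHom (permHom τ) n) =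
        (diffHom (permHom τ)).ker ⊓ f.ker := by
      refine le_antisymm ?_ fun x hx => ?_
      · rintro _ ⟨x, -, rfl⟩
        refine ⟨?_, Multiplicative.ext (funext fun j => ?_)⟩
        · exact (mem_ker_diffHom _).2 (s_norm (fun y => by
            rw [permHom_iterate]; exact Multiplicative.ext (funext fun w => by simp [hτ])) x)
        · show ((Multiplicative.toAdd (normHom (permHom τ) n x) (sec j) : ℤ) : ZMod (m j)) = 0
          rw [hN, hsec j]
          simp
      · obtain ⟨hx1, hx2⟩ := hx
        have hdvd : ∀ j, (m j : ℤ) ∣ Multiplicative.toAdd x (sec j) := fun j =>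
          (ZMod.intCast_zmod_eq_zero_iff_dvd _ _).1
            (congrFun (congrArg Multiplicative.toAdd (show f x = 1 from hx2)) j)
        choose c hc using hdvd
        refine ⟨Multiplicative.ofAdd fun w => if w = sec (π w) then c (π w) else 0, trivial,
          Multiplicative.ext (funext fun w => ?_)⟩
        rw [hN]
        obtain ⟨i, hi⟩ := htrans (sec (π w)) w (hsec (π w))
        have hrhs : Multiplicative.toAdd x w = m (π w) * c (π w) := by
          conv_lhs => rw [← hi, hfixed x hx1, hc]
        rw [hrhs]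
        congr 1
        obtain ⟨k, hk⟩ := htrans w (sec (π w)) (hsec (π w)).symm
        rw [Finset.sum_eq_single (k % o w)]
        · simp [hmod, hk, hsec (π w)]
        · intro l hl hlk
          rw [toAdd_ofAdd]
          refine if_neg fun he => hlk ?_
          rw [hπi, ← hk, ← hmod w k] at he
          exact Function.iterate_injOn_Iio_minimalPeriod (Finset.mem_range.1 hl)
            (Nat.mod_lt _ (ho w)) he
        · exact fun h => absurd (Finset.mem_range.2 (Nat.mod_lt _ (ho w))) h
    have hsurj : ((diffHom (permHom τ)).ker).map f = ⊤ := by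
      refine eq_top_iff.2 fun y _ => ?_
      choose z hz using fun j => ZMod.intCast_surjective (n := m j) (Multiplicative.toAdd y j)
      refine ⟨Multiplicative.ofAdd fun w => z (π w), (mem_ker_diffHom _).2 ?_, ?_⟩
      · exact Multiplicative.ext (funext fun w => congrArg z (hπτ w))
      · refine Multiplicative.ext (funext fun j => ?_)
        show ((z (π (sec j)) : ℤ) : ZMod (m j)) = _
        rw [hsec j, hz]
    rw [hFix, top_inf_eq, hker, inf_comm, Subgroup.inf_relIndex_right, Subgroup.relIndex_ker, hsurj,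
      Nat.card_congr (Subgroup.topEquiv.toEquiv), Nat.card_congr Multiplicative.toAdd, Nat.card_pi]
    exact Finset.prod_congr rfl fun j _ => Nat.card_zmod _
  · rw [hOne, top_inf_eq, Subgroup.relIndex_eq_one]
    intro x hx
    have hsum : ∀ w, ∑ i ∈ range (o w), Multiplicative.toAdd x (τ^[i] w) = 0 := fun w => by
      have h := hN x w
      rw [show normHom (permHom τ) n x = 1 from hx] at h
      exact (mul_eq_zero.1 h.symm).resolve_left (Nat.cast_ne_zero.2 (hm0 _).ne')
    have hidx : ∀ w, ∃ i < o (sec (π w)), τ^[i] (sec (π w)) = w := fun w => by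
      obtain ⟨i, hi⟩ := htrans (sec (π w)) w (hsec _)
      exact ⟨i % o (sec (π w)), Nat.mod_lt _ (ho _), (hmod _ i).trans hi⟩
    choose idx hidx_lt hidx_eq using hidx
    refine ⟨Multiplicative.ofAdd fun w =>
        ∑ j ∈ range (idx w), Multiplicative.toAdd x (τ^[j] (sec (π w))),
      trivial, Multiplicative.ext (funext fun w => ?_)⟩
    show (∑ j ∈ range (idx (τ w)), Multiplicative.toAdd x (τ^[j] (sec (π (τ w))))) -
      ∑ j ∈ range (idx w), Multiplicative.toAdd x (τ^[j] (sec (π w))) = _
    set b := sec (π w) with hb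
    rw [hπτ w, ← hb]
    have hlt : idx (τ w) < o b := by simpa [hπτ w] using hidx_lt (τ w)
    have heq : τ^[idx (τ w)] b = τ w := by simpa [hπτ w] using hidx_eq (τ w)
    have hnext : τ^[idx w + 1] b = τ w := by rw [Function.iterate_succ_apply', hidx_eq w]
    rcases Nat.lt_or_ge (idx w + 1) (o b) with h1 | h1
    · rw [show idx (τ w) = idx w + 1 from
        Function.iterate_injOn_Iio_minimalPeriod hlt h1 (heq.trans hnext.symm),
        Finset.sum_range_succ, hidx_eq w, add_sub_cancel_left]
    · have h2 : idx w + 1 = o b := le_antisymm (hidx_lt w) h1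
      have h0 : idx (τ w) = 0 := by
        refine Function.iterate_injOn_Iio_minimalPeriod hlt (ho b) ?_
        show τ^[idx (τ w)] b = τ^[0] b
        rw [heq, ← hnext, h2, Function.iterate_minimalPeriod]
        rfl
      have h3 := hsum b
      rw [← h2, Finset.sum_range_succ, hidx_eq w] at h3
      rw [h0, Finset.sum_range_zero]
      linarith

end perm

end FA.ArtinRec
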