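import Fermat.Agent.ArtinReciprocity.HeckeComparison
import Fermat.Agent.ArtinL.Brauer
import Fermat.Agent.ArtinL.OrderAtOne
import Fermat.Agent.NaturalChebotarev.Nonvanishing
import Mathlib.RepresentationTheory.Character
import Mathlib.Analysis.Meromorphic.Order

/-!
# Artin L-series are meromorphic

By Brauer induction and reciprocity every Artin L-series is a product of integral powers of Hecke
L-series of finite order: so it continues meromorphically to the plane, is holomorphic without
zeros on `1 ≤ re s` away from `1`, and its order at `1` is minus the dimension of the invariants.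
-/

set_option autoImplicit false
set_option linter.unusedSectionVars false
set_option linter.style.haveILetI false

noncomputable section

open NumberField IsDedekindDomain Finset Filter Topology
open FA.Hecke (IsRayChar exists_heckeE exists_heckeG)
open FA.ArtinL (artinL exists_brauer_product tendsto_log_norm_artinL_div_log)
open scoped Classical

namespace FA.ArtinRec

variable {K L : Type*} [Field K] [NumberField K] [Field L] [NumberField L] [Algebra K L]
  [IsGalois K L]

/-- The L-series of a linear character: an entire function without zeros on `1 ≤ re s`, over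
`s - 1` if the character is trivial. -/
theorem exists_linear_continuation (ψ : (L ≃ₐ[K] L) →* ℂˣ) :
    ∃ (E : ℂ → ℂ) (e : ℤ), Differentiable ℂ E ∧
      (∀ s : ℂ, 1 < s.re → artinL (fun σ => (ψ σ : ℂ)) s = E s * (s - 1) ^ (-e)) ∧
      ∀ s : ℂ, 1 ≤ s.re → E s ≠ 0 := by
  obtain ⟨𝔪, f, hf, hnt, h⟩ := exists_hecke ψ
  by_cases hψ : ψ = 1
  · obtain ⟨G, hG, -, hG'⟩ := exists_heckeG hf
    refine ⟨G, 1, hG, fun s hs => ?_, fun s hs => ?_⟩
    · have hs1 : s - 1 ≠ 0 := sub_ne_zero.2 fun he => by simp [he] at hs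
      rw [h s hs, ← hG' s hs, zpow_neg_one, mul_comm (s - 1), mul_assoc, mul_inv_cancel₀ hs1,
        mul_one]
    · by_cases hs1 : s = 1
      · subst hs1
        exact hf.heckeG_ne_zero (fun hn => hnt.1 hn hψ) hG hG' hs
      · exact hf.ne_zero_of_ne_one hG hG' hs hs1
  · obtain ⟨E, hE, hE'⟩ := exists_heckeE hf (hnt.2 hψ)
    exact ⟨E, 0, hE, fun s hs => by rw [h s hs, hE' s hs, neg_zero, zpow_zero, mul_one],
      fun s hs => hf.heckeE_ne_zero hE hE' hs⟩

/-- **Artin L-series are meromorphic.** -/
theorem exists_meromorphic {V : Type*} [AddCommGroup V] [Module ℂ V] [FiniteDimensional ℂ V]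
    (ρ : Representation ℂ (L ≃ₐ[K] L) V) :
    ∃ F : ℂ → ℂ, Meromorphic F ∧
      (∀ s : ℂ, 1 < s.re → F s = artinL ρ.character s) ∧
      (∀ s : ℂ, 1 ≤ s.re → s ≠ 1 → AnalyticAt ℂ F s ∧ F s ≠ 0) ∧
      meromorphicOrderAt F 1 =
        ((-(Module.finrank ℂ (Representation.invariants ρ) : ℤ) : ℤ) : WithTop ℤ) := by
  obtain ⟨n, k, M, ψ, -, hprod⟩ := exists_brauer_product ρ
  choose E e hE hEL hE0 using fun i => exists_linear_continuation (ψ i)
  set r : ℤ := ∑ i, k i * e i
  set A : ℂ → ℂ := fun s => ∏ i, E i s ^ k i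
  set F : ℂ → ℂ := fun s => A s * (s - 1) ^ (-r)
  have hA : ∀ s : ℂ, 1 ≤ s.re → AnalyticAt ℂ A s ∧ A s ≠ 0 := fun s hs =>
    ⟨Finset.analyticAt_fun_prod _ fun i _ => ((hE i).analyticAt s).zpow (hE0 i s hs),
      Finset.prod_ne_zero_iff.2 fun i _ => zpow_ne_zero _ (hE0 i s hs)⟩
  have hsub : ∀ x : ℂ, AnalyticAt ℂ (fun s : ℂ => s - 1) x := fun x =>
    analyticAt_id.sub analyticAt_const
  have hF : ∀ s : ℂ, 1 < s.re → F s = artinL ρ.character s := fun s hs => by
    have hs1 : s - 1 ≠ 0 := sub_ne_zero.2 fun he => by simp [he] at hs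
    rw [hprod s hs]
    simp only [F, A, r, hEL _ s hs, mul_zpow, Finset.prod_mul_distrib, ← zpow_mul,
      ← Finset.sum_neg_distrib]
    congr 1
    rw [← Finset.prod_congr rfl fun i _ => congrArg ((s - 1) ^ ·) (show -(k i * e i) = -e i * k i
      by ring)]
    generalize (Finset.univ : Finset (Fin n)) = t
    induction t using Finset.induction with
    | empty => simp
    | insert a t ha ih => rw [Finset.sum_insert ha, Finset.prod_insert ha, zpow_add₀ hs1, ih]
  refine ⟨F, fun x => ?_, hF, fun s hs hs1 => ?_, ?_⟩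
  · refine MeromorphicAt.fun_mul ?_ ((hsub x).meromorphicAt.fun_zpow _)
    exact MeromorphicAt.fun_prod fun i _ => ((hE i).analyticAt x).meromorphicAt.fun_zpow _
  · exact ⟨(hA s hs).1.mul ((hsub s).zpow (sub_ne_zero.2 hs1)),
      mul_ne_zero (hA s hs).2 (zpow_ne_zero _ (sub_ne_zero.2 hs1))⟩
  obtain ⟨hA1, hA10⟩ := hA 1 (by simp)
  have hmer : MeromorphicAt F 1 :=
    hA1.meromorphicAt.fun_mul ((hsub 1).meromorphicAt.fun_zpow _)
  -- the order agrees with the asymptotic
  have hr : (r : ℝ) = Module.finrank ℂ (Representation.invariants ρ) := by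
    have h1 := tendsto_log_norm_artinL_div_log (f := ρ.character) fun g x =>
      Representation.char_conj ρ x g
    letI : Invertible (Nat.card (L ≃ₐ[K] L) : ℂ) :=
      invertibleOfNonzero (Nat.cast_ne_zero.2 Nat.card_pos.ne')
    rw [Representation.card_inv_mul_sum_char_eq_finrank, Complex.natCast_re] at h1
    refine tendsto_nhds_unique ?_ h1
    have hl := FA.Chebotarev.tendsto_log_atTop
    have hlim : Tendsto (fun s : ℝ => Real.log ‖A s‖) (𝓝[>] 1) (𝓝 (Real.log ‖A 1‖)) := by
      have hc : ContinuousAt (fun s : ℝ => A s) 1 :=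
        (Complex.ofReal_one ▸ hA1.continuousAt).comp' Complex.continuous_ofReal.continuousAt
      have := (hc.norm.log (by simpa using hA10)).tendsto
      rw [Complex.ofReal_one] at this
      exact this.mono_left nhdsWithin_le_nhds
    have h2 := (hlim.div_atTop hl).add (tendsto_const_nhds (x := (r : ℝ)))
    rw [zero_add] at h2
    refine h2.congr' ?_
    filter_upwards [self_mem_nhdsWithin, hl.eventually_gt_atTop 0] with s hs hpos
    have hs' : 1 < s := hs
    rw [← hF s (by simpa using hs')]
    have hne : ((s : ℂ) - 1) ≠ 0 := by exact_mod_cast (sub_pos.2 hs').ne'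
    rw [norm_mul, norm_zpow, show ‖(s : ℂ) - 1‖ = s - 1 by
      rw [← Complex.ofReal_one, ← Complex.ofReal_sub, Complex.norm_real, Real.norm_eq_abs,
        abs_of_pos (sub_pos.2 hs')],
      Real.log_mul (norm_ne_zero_iff.2 (hA (s : ℂ) (by simpa using hs'.le)).2)
        (zpow_ne_zero _ (sub_pos.2 hs').ne'), Real.log_zpow,
      add_div, eq_comm]
    congr 1
    rw [div_eq_iff hpos.ne', one_div, Real.log_inv]
    push_cast
    ring
  have hrz : r = (Module.finrank ℂ (Representation.invariants ρ) : ℤ) := by exact_mod_cast hr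
  rw [meromorphicOrderAt_eq_int_iff hmer]
  refine ⟨A, hA1, hA10, Eventually.of_forall fun z => ?_⟩
  show A z * (z - 1) ^ (-r) = _
  rw [hrz, smul_eq_mul, mul_comm]

end FA.ArtinRec
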