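import Mathlib

/-!
# The auxiliary modulus

For an integer `a ≥ 2`, a positive `N` and a bound there is a modulus, with all prime factors over
the bound, for which the order of `a` is a multiple of `N`; hence one with a class `b` whose powers
meet those of `a` only trivially, both of order a multiple of `n` (Artin's lemma).
-/

set_option autoImplicit false
set_option linter.style.haveILetI false

noncomputable section

open Finset

namespace FA.ArtinRec

/-- A prime with the order of `a` a multiple of a high prime power. -/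
theorem exists_prime_orderOf {a ℓ : ℕ} (ha : 2 ≤ a) (hℓ : ℓ.Prime) (r : ℕ) (hr : 0 < r) :
    ∃ q : ℕ, q.Prime ∧ ℓ ^ (r + 1) < q ∧ a.Coprime q ∧
      ℓ ^ (r + 1) ∣ orderOf (a : ZMod q) := by
  set x := a ^ ℓ ^ r with hx
  set s := ∑ i ∈ range ℓ, x ^ i with hs
  have hx2 : 2 ≤ x := ha.trans (Nat.le_self_pow (pow_ne_zero r hℓ.ne_zero) a)
  have hsℓ : ℓ < s := by
    have h1 : ∑ _i ∈ range ℓ, 1 < s :=
      Finset.sum_lt_sum (fun i _ => Nat.one_le_pow _ _ (by omega))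
        ⟨1, mem_range.2 hℓ.one_lt, by rw [pow_one]; omega⟩
    simpa using h1
  -- a prime factor other than `ℓ`
  obtain ⟨q, hq, hqs, hqℓ⟩ : ∃ q : ℕ, q.Prime ∧ q ∣ s ∧ q ≠ ℓ := by
    by_contra! h
    have hpow : ∀ q, q.Prime → q ∣ s → q = ℓ := fun q hq hd => h q hq hd
    obtain ⟨k, hk⟩ : ∃ k, s = ℓ ^ k :=
      ⟨_, Nat.eq_prime_pow_of_unique_prime_dvd (by omega) (fun {d} hd hd' => hpow d hd hd')⟩
    have hk2 : 2 ≤ k := by
      rcases k with _ | _ | k
      · rw [hk, pow_zero] at hsℓ; have := hℓ.one_lt; omega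
      · rw [hk, zero_add, pow_one] at hsℓ; omega
      · omega
    haveI := Fact.mk hℓ
    have h0 : (s : ZMod ℓ) = 0 := by
      rw [hk, Nat.cast_pow, ZMod.natCast_self, zero_pow (by omega)]
    have hx1 : (x : ZMod ℓ) = 1 := by
      by_contra hne
      have hg := geom_sum_mul (x : ZMod ℓ) ℓ
      rw [ZMod.pow_card] at hg
      push_cast [hs] at h0
      rw [h0, zero_mul] at hg
      exact hne (sub_eq_zero.1 hg.symm)
    obtain ⟨t, ht⟩ : (ℓ : ℤ) ∣ (x : ℤ) - 1 := by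
      rw [← ZMod.intCast_zmod_eq_zero_iff_dvd]
      push_cast
      rw [hx1, sub_self]
    have hℓs : ((ℓ : ℤ) ^ 2) ∣ (s : ℤ) := by
      rw [hk]; push_cast; exact pow_dvd_pow _ hk2
    rcases hℓ.eq_two_or_odd' with rfl | hodd
    · -- `1 + x` with `x` an odd square
      obtain ⟨y, hy⟩ : ∃ y, x = y * y := ⟨a ^ 2 ^ (r - 1), by
        rw [hx, ← pow_add, ← two_mul, ← pow_succ', show r - 1 + 1 = r by omega]⟩
      have e : (s : ℤ) = 1 + x := by simp [hs, Finset.sum_range_succ]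
      rw [e] at hℓs
      obtain ⟨c, hc⟩ := hℓs
      rcases Nat.even_or_odd y with ⟨z, rfl⟩ | ⟨z, rfl⟩
      · rw [hy] at ht
        push_cast at ht
        have h4 : (2 : ℤ) ∣ 1 := ⟨(z + z) * z - t, by linarith⟩
        norm_num at h4
      · rw [hy] at hc
        push_cast at hc
        have h4 : (4 : ℤ) ∣ 2 := ⟨c - z * z - z, by linarith⟩
        norm_num at h4
    · -- `s ≡ ℓ` modulo `ℓ²`
      have hmod : ∀ i : ℕ, ((ℓ : ℤ) ^ 2) ∣ (x : ℤ) ^ i - (1 + i * (ℓ * t)) := by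
        intro i
        induction i with
        | zero => simp
        | succ i ih =>
          obtain ⟨c, hc⟩ := ih
          refine ⟨c * x + i * t ^ 2, ?_⟩
          rw [pow_succ]
          push_cast
          linear_combination (x : ℤ) * hc + (1 + (i : ℤ) * (ℓ * t)) * ht
      have hsum : ((ℓ : ℤ) ^ 2) ∣ (s : ℤ) - ∑ i ∈ range ℓ, (1 + (i : ℤ) * (ℓ * t)) := by
        push_cast [hs]
        rw [← Finset.sum_sub_distrib]
        exact Finset.dvd_sum fun i _ => hmod i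
      have hg : ∑ i ∈ range ℓ, (i : ℤ) = ℓ * ((ℓ - 1) / 2 : ℕ) := by
        obtain ⟨j, hj⟩ := hodd
        have h := Finset.sum_range_id_mul_two ℓ
        rw [hj, show 2 * j + 1 - 1 = 2 * j by omega] at h ⊢
        rw [show 2 * j / 2 = j by omega, ← Nat.cast_sum, ← Nat.cast_mul, Nat.cast_inj]
        refine Nat.eq_of_mul_eq_mul_right two_pos (h.trans ?_)
        ring
      rw [Finset.sum_add_distrib, ← Finset.sum_mul, hg, Finset.sum_const, card_range, nsmul_one]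
        at hsum
      have h2 := (dvd_sub hℓs hsum)
      rw [sub_sub_cancel] at h2
      have h3 : ((ℓ : ℤ) ^ 2) ∣ ℓ := by
        have h4 : ((ℓ : ℤ) ^ 2) ∣ (ℓ : ℤ) * ((ℓ - 1) / 2 : ℕ) * (ℓ * t) :=
          ⟨((ℓ - 1) / 2 : ℕ) * t, by ring⟩
        simpa using dvd_sub h2 h4
      have := Nat.le_of_dvd hℓ.pos (by exact_mod_cast h3 : ℓ ^ 2 ∣ ℓ)
      nlinarith [hℓ.one_lt]
  haveI := Fact.mk hq
  have h0 : (s : ZMod q) = 0 := (ZMod.natCast_eq_zero_iff _ _).2 hqs
  push_cast [hs] at h0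
  have hxℓ : (x : ZMod q) ^ ℓ = 1 := by
    have hg := geom_sum_mul (x : ZMod q) ℓ
    rw [h0, zero_mul] at hg
    exact sub_eq_zero.1 hg.symm
  have hx1 : (x : ZMod q) ≠ 1 := fun he => by
    rw [he] at h0
    simp only [one_pow, Finset.sum_const, card_range, nsmul_one] at h0
    rw [ZMod.natCast_eq_zero_iff, Nat.prime_dvd_prime_iff_eq hq hℓ] at h0
    exact hqℓ h0
  have hord : orderOf (a : ZMod q) = ℓ ^ (r + 1) := by
    haveI := Fact.mk hℓ
    refine orderOf_eq_prime_pow ?_ ?_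
    · simpa [hx] using hx1
    · rw [pow_succ, pow_mul]
      simpa [hx] using hxℓ
  have hcop : a.Coprime q := by
    refine Nat.Coprime.symm (hq.coprime_iff_not_dvd.2 fun hd => ?_)
    rw [hx, Nat.cast_pow, (ZMod.natCast_eq_zero_iff _ _).2 hd, zero_pow (pow_ne_zero r hℓ.ne_zero),
      zero_pow hℓ.ne_zero] at hxℓ
    exact zero_ne_one hxℓ
  refine ⟨q, hq, ?_, hcop, hord.symm.dvd⟩
  have hlt := ZMod.orderOf_dvd_card_sub_one (a := (a : ZMod q)) fun h => by
    rw [h, orderOf_zero] at hord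
    exact pow_ne_zero (r + 1) hℓ.ne_zero hord.symm
  rw [hord] at hlt
  have := Nat.le_of_dvd (by have := hq.two_le; omega) hlt
  have := hq.two_le
  omega

/-- **A modulus with the order of `a` a multiple of `N`**, all of whose primes are large. -/
theorem exists_modulus_orderOf {a : ℕ} (ha : 2 ≤ a) {N : ℕ} (hN : N ≠ 0) (B : ℕ) :
    ∃ M : ℕ, M ≠ 0 ∧ (∀ p : ℕ, p.Prime → p ∣ M → B < p) ∧ a.Coprime M ∧
      N ∣ orderOf (a : ZMod M) := by
  set R := N + B + 1
  choose q hq hqR hqa hqord using fun ℓ : {ℓ // ℓ ∈ N.primeFactors} =>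
    exists_prime_orderOf ha (Nat.prime_of_mem_primeFactors ℓ.2) R (by omega)
  refine ⟨∏ ℓ, q ℓ, Finset.prod_ne_zero_iff.2 fun ℓ _ => (hq ℓ).ne_zero, fun p hp hd => ?_,
    Nat.Coprime.prod_right fun ℓ _ => hqa ℓ, ?_⟩
  · obtain ⟨ℓ, -, hℓ⟩ := hp.prime.exists_mem_finset_dvd hd
    rw [(Nat.prime_dvd_prime_iff_eq hp (hq ℓ)).1 hℓ]
    have h2 := Nat.lt_two_pow_self (n := R + 1)
    have h3 := Nat.pow_le_pow_left (Nat.prime_of_mem_primeFactors ℓ.2).two_le (R + 1)
    have := hqR ℓ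
    omega
  · rw [← Nat.factorization_prime_le_iff_dvd hN]
    · intro p hp
      by_cases hpN : p ∈ N.primeFactors
      · have h1 : orderOf (a : ZMod (q ⟨p, hpN⟩)) ∣ orderOf (a : ZMod (∏ ℓ, q ℓ)) := by
          have := orderOf_map_dvd (ZMod.castHom (Finset.dvd_prod_of_mem q
            (Finset.mem_univ (⟨p, hpN⟩ : {ℓ // ℓ ∈ N.primeFactors}))) (ZMod (q ⟨p, hpN⟩))).toMonoidHom
            (a : ZMod (∏ ℓ, q ℓ))
          rw [RingHom.toMonoidHom_eq_coe, MonoidHom.coe_coe, map_natCast] at this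
          exact this
        refine le_trans (le_trans ?_ (Nat.le_succ R)) ((hp.pow_dvd_iff_le_factorization ?_).1
          ((hqord ⟨p, hpN⟩).trans h1))
        · exact ((Nat.factorization_lt p hN).le.trans (by omega))
        · exact orderOf_pos_iff.mpr (isOfFinOrder_iff_isUnit.2
            ((ZMod.isUnit_iff_coprime _ _).2 (Nat.Coprime.prod_right fun ℓ _ => hqa ℓ))) |>.ne'
      · rw [Nat.factorization_eq_zero_of_not_dvd fun hd =>
          hpN (Nat.mem_primeFactors.2 ⟨hp, hd, hN⟩)]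
        exact Nat.zero_le _
    · haveI : NeZero (∏ ℓ, q ℓ) := ⟨Finset.prod_ne_zero_iff.2 fun ℓ _ => (hq ℓ).ne_zero⟩
      exact orderOf_pos_iff.mpr (isOfFinOrder_iff_isUnit.2
        ((ZMod.isUnit_iff_coprime _ _).2 (Nat.Coprime.prod_right fun ℓ _ => hqa ℓ))) |>.ne'

/-- **Artin's lemma.** -/
theorem exists_crossing_modulus {a₁ a₂ : ℕ} (h₁ : 2 ≤ a₁) (h₂ : 2 ≤ a₂) {n : ℕ} (hn : 0 < n)
    (B : ℕ) :
    ∃ m : ℕ, m ≠ 0 ∧ (∀ p : ℕ, p.Prime → p ∣ m → B < p) ∧
      ∃ b : (ZMod m)ˣ, ∀ a, (a = a₁ ∨ a = a₂) → a.Coprime m ∧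
        ∀ u : (ZMod m)ˣ, (u : ZMod m) = a → ∀ i j : ℤ, u ^ i * b ^ j = 1 → (n : ℤ) ∣ i ∧ (n : ℤ) ∣ j := by
  obtain ⟨q, hqB, hq, hqn⟩ := Nat.forall_exists_prime_gt_and_modEq (max B (max a₁ a₂)) (q := n)
    (a := 1) hn.ne' (Nat.coprime_one_left _)
  have hq1 : n ∣ q - 1 := (Nat.modEq_iff_dvd' hq.one_lt.le).1 hqn.symm
  have hq10 : q - 1 ≠ 0 := by have := hq.two_le; omega
  obtain ⟨M₂, hM₂, hB₂, hc₂, hd₂⟩ := exists_modulus_orderOf h₂ (mul_ne_zero hn.ne' hq10)
    (max q (max a₁ a₂))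
  obtain ⟨M₃, hM₃, hB₃, hc₃, hd₃⟩ := exists_modulus_orderOf h₁ (mul_ne_zero hn.ne' hq10)
    (max q (max a₁ a₂))
  set M := M₃ * M₂
  have hBM : ∀ p : ℕ, p.Prime → p ∣ M → max q (max a₁ a₂) < p := fun p hp hd =>
    (hp.dvd_mul.1 hd).elim (hB₃ p hp) (hB₂ p hp)
  have hqM : q.Coprime M := hq.coprime_iff_not_dvd.2 fun hd => by
    have := hBM q hq hd
    omega
  haveI := Fact.mk hq
  haveI : NeZero M := ⟨mul_ne_zero hM₃ hM₂⟩
  obtain ⟨g, hg⟩ := IsCyclic.exists_generator (α := (ZMod q)ˣ)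
  let e : ZMod (q * M) ≃+* ZMod q × ZMod M := ZMod.chineseRemainder hqM
  let eU : (ZMod (q * M))ˣ ≃* (ZMod q)ˣ × (ZMod M)ˣ :=
    (Units.mapEquiv e.toMulEquiv).trans MulEquiv.prodUnits
  refine ⟨q * M, mul_ne_zero hq.ne_zero (mul_ne_zero hM₃ hM₂), fun p hp hd => ?_,
    eU.symm (g, 1), fun a ha => ?_⟩
  · rcases hp.dvd_mul.1 hd with h | h
    · rw [(Nat.prime_dvd_prime_iff_eq hp hq).1 h]; omega
    · have := hBM p hp h; omega
  have ha2 : 2 ≤ a ∧ a < q := by rcases ha with rfl | rfl <;> omega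
  have hcq : a.Coprime q := (hq.coprime_iff_not_dvd.2 fun hd => by
    have := Nat.le_of_dvd (by omega) hd
    omega).symm
  have hcM : a.Coprime M := Nat.coprime_of_dvd' fun p hp hpa hpM => by
    have := hBM p hp hpM
    have := Nat.le_of_dvd (by omega) hpa
    omega
  refine ⟨Nat.Coprime.mul_right hcq hcM, fun u hu i j hij => ?_⟩
  have hij' : (eU u) ^ i * (g, 1) ^ j = 1 := by
    have := congrArg eU hij
    rwa [map_mul, map_zpow, map_zpow, MulEquiv.apply_symm_apply, map_one] at this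
  have hM1 : (eU u).2 ^ i = 1 := by simpa using congrArg Prod.snd hij'
  have hval : ((eU u).2 : ZMod M) = (a : ZMod M) := by
    show (e (u : ZMod (q * M))).2 = _
    rw [hu, map_natCast, Prod.snd_natCast]
  have hord : n * (q - 1) ∣ orderOf (eU u).2 := by
    rw [← orderOf_units, hval]
    rcases ha with rfl | rfl
    · refine hd₃.trans ?_
      have := orderOf_map_dvd (ZMod.castHom (Dvd.intro M₂ rfl) (ZMod M₃)).toMonoidHom
        (a : ZMod (M₃ * M₂))
      rw [RingHom.toMonoidHom_eq_coe, MonoidHom.coe_coe, map_natCast] at this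
      exact this
    · refine hd₂.trans ?_
      have := orderOf_map_dvd (ZMod.castHom (Dvd.intro_left M₃ rfl) (ZMod M₂)).toMonoidHom
        (a : ZMod (M₃ * M₂))
      rw [RingHom.toMonoidHom_eq_coe, MonoidHom.coe_coe, map_natCast] at this
      exact this
  have hi : ((n * (q - 1) : ℕ) : ℤ) ∣ i :=
    (Int.natCast_dvd_natCast.2 hord).trans (orderOf_dvd_iff_zpow_eq_one.2 hM1)
  have hiq : (eU u).1 ^ i = 1 := by
    refine orderOf_dvd_iff_zpow_eq_one.1 (dvd_trans ?_ hi)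
    refine Int.natCast_dvd_natCast.2 (dvd_trans ?_ (dvd_mul_left _ n))
    rw [← ZMod.card_units q]
    exact orderOf_dvd_card
  have hj : g ^ j = 1 := by simpa [hiq] using congrArg Prod.fst hij'
  refine ⟨dvd_trans (by exact_mod_cast dvd_mul_right n (q - 1)) hi, dvd_trans ?_
    (orderOf_dvd_iff_zpow_eq_one.2 hj)⟩
  rw [orderOf_eq_card_of_forall_mem_zpowers hg, Nat.card_eq_fintype_card, ZMod.card_units]
  exact Int.natCast_dvd_natCast.2 hq1

end FA.ArtinRec
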