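import Mathlib
import Fermat.Agent.ArtinReciprocity.Herbrand

/-!
# Orders at the primes of a cyclic extension

The order of an element at a prime, its behaviour under automorphisms and extension of scalars,
the transitive action of a generator on the primes over a prime of the base, and finite sets of
primes outside which every divisor is principal.
-/

set_option autoImplicit false
set_option linter.unusedSectionVars false
set_option linter.style.haveILetI false

noncomputable section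

open NumberField IsDedekindDomain Finset
open scoped Pointwise nonZeroDivisors Classical

namespace FA.ArtinRec

section order

variable {K : Type*} [Field K] [NumberField K]

/-- The order at a prime. -/
def ord (v : HeightOneSpectrum (𝓞 K)) (x : Kˣ) : ℤ :=
  -Multiplicative.toAdd (v.valuationOfNeZero x)

variable (v : HeightOneSpectrum (𝓞 K))

theorem valuation_eq_exp (x : Kˣ) : v.valuation K x = WithZero.exp (-ord v x) := by
  rw [← HeightOneSpectrum.valuationOfNeZero_eq, ord, neg_neg]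
  rfl

theorem ord_eq_iff {x : Kˣ} {k : ℤ} :
    ord v x = k ↔ v.valuation K x = WithZero.exp (-k) := by
  rw [valuation_eq_exp, WithZero.exp_inj, neg_inj]

theorem ord_one : ord v (1 : Kˣ) = 0 := by simp [ord]

theorem ord_mul (x y : Kˣ) : ord v (x * y) = ord v x + ord v y := by
  simp [ord]; ring

theorem ord_inv (x : Kˣ) : ord v x⁻¹ = -ord v x := by simp [ord]

theorem ord_div (x y : Kˣ) : ord v (x / y) = ord v x - ord v y := by
  rw [div_eq_mul_inv, ord_mul, ord_inv]; ring

theorem ord_prod {ι : Type*} (s : Finset ι) (f : ι → Kˣ) :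
    ord v (∏ i ∈ s, f i) = ∑ i ∈ s, ord v (f i) := by
  classical
  induction s using Finset.induction with
  | empty => simp [ord_one]
  | insert i s hi ih => rw [prod_insert hi, sum_insert hi, ord_mul, ih]

theorem ord_pow (x : Kˣ) (k : ℕ) : ord v (x ^ k) = k * ord v x := by
  simp [ord]

theorem ord_zpow (x : Kˣ) (k : ℤ) : ord v (x ^ k) = k * ord v x := by
  simp [ord]

/-- The unit of a nonzero integer. -/
def intU (r : 𝓞 K) (hr : r ≠ 0) : Kˣ := Units.mk0 (r : K) (RingOfIntegers.coe_ne_zero_iff.mpr hr)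

@[simp] theorem intU_val (r : 𝓞 K) (hr : r ≠ 0) : (intU r hr : K) = r := rfl

theorem intU_mul {r s : 𝓞 K} (hr : r ≠ 0) (hs : s ≠ 0) :
    intU (r * s) (mul_ne_zero hr hs) = intU r hr * intU s hs :=
  Units.ext (by simp)

theorem ord_intU {r : 𝓞 K} (hr : r ≠ 0) :
    ord v (intU r hr) = multiplicity v.asIdeal (Ideal.span {r}) := by
  rw [ord_eq_iff, intU_val,
    show v.valuation K (r : K) = v.intValuation r from v.valuation_of_algebraMap r,
    v.intValuation_eq_exp_neg_multiplicity hr]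

theorem ord_intU_nonneg {r : 𝓞 K} (hr : r ≠ 0) : 0 ≤ ord v (intU r hr) := by
  rw [ord_intU]; exact Int.natCast_nonneg _

theorem le_ord_intU_iff {r : 𝓞 K} (hr : r ≠ 0) (k : ℕ) :
    (k : ℤ) ≤ ord v (intU r hr) ↔ r ∈ v.asIdeal ^ k := by
  rw [← v.intValuation_le_pow_iff_mem, ← v.valuation_of_algebraMap (K := K),
    show v.valuation K (r : K) = v.valuation K (intU r hr : K) from rfl, valuation_eq_exp,
    WithZero.exp_le_exp, neg_le_neg_iff]

theorem ord_intU_eq_zero_iff {r : 𝓞 K} (hr : r ≠ 0) :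
    ord v (intU r hr) = 0 ↔ r ∉ v.asIdeal := by
  rw [← not_iff_not, not_not]
  have h := le_ord_intU_iff v hr 1
  rw [pow_one, Nat.cast_one] at h
  exact ⟨fun h0 => h.1 (by have := ord_intU_nonneg v hr; omega),
    fun hm => by have := h.2 hm; omega⟩

theorem exists_intU_div (x : Kˣ) :
    ∃ (a b : 𝓞 K) (ha : a ≠ 0) (hb : b ≠ 0), x = intU a ha / intU b hb := by
  obtain ⟨a, b, hb, hab⟩ := IsFractionRing.div_surjective (A := 𝓞 K) (x : K)
  have hb0 : b ≠ 0 := nonZeroDivisors.ne_zero hb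
  have ha0 : a ≠ 0 := fun h => x.ne_zero (by rw [← hab, h]; simp)
  exact ⟨a, b, ha0, hb0, Units.ext (by rw [Units.val_div_eq_div_val, intU_val, intU_val, ← hab])⟩

theorem finite_ord_ne_zero (x : Kˣ) : {w : HeightOneSpectrum (𝓞 K) | ord w x ≠ 0}.Finite := by
  obtain ⟨a, b, ha, hb, rfl⟩ := exists_intU_div x
  refine ((Ideal.finite_factors (I := Ideal.span {a}) (by simpa)).union
    (Ideal.finite_factors (I := Ideal.span {b}) (by simpa))).subset fun w hw => ?_
  by_contra h
  rw [Set.mem_union, not_or, Set.mem_ofPred_eq, Set.mem_ofPred_eq, Ideal.dvd_span_singleton,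
    Ideal.dvd_span_singleton, ← ord_intU_eq_zero_iff w ha, ← ord_intU_eq_zero_iff w hb] at h
  exact hw (by rw [ord_div, h.1, h.2, sub_zero])

theorem exists_ord_eq_one : ∃ π : Kˣ, ord v π = 1 := by
  obtain ⟨π, hπ⟩ := v.valuation_exists_uniformizer K
  have hπ0 : π ≠ 0 := fun h =>
    WithZero.exp_ne_zero (hπ.symm.trans (by rw [h, map_zero]))
  exact ⟨Units.mk0 π hπ0, (ord_eq_iff v).2 hπ⟩

/-- Integral outside nothing means integral. -/
theorem exists_intU_of_ord_nonneg {x : Kˣ} (h : ∀ w, 0 ≤ ord w x) :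
    ∃ (r : 𝓞 K) (hr : r ≠ 0), x = intU r hr := by
  obtain ⟨r, hr⟩ := HeightOneSpectrum.mem_integers_of_valuation_le_one K (x : K) fun w => by
    rw [valuation_eq_exp, ← WithZero.exp_zero, WithZero.exp_le_exp]
    linarith [h w]
  have hr0 : r ≠ 0 := fun h0 => x.ne_zero (by rw [← hr, h0, map_zero])
  exact ⟨r, hr0, Units.ext hr.symm⟩

/-- Principal outside `T`. -/
def IsClassSet (T : Finset (HeightOneSpectrum (𝓞 K))) : Prop :=
  ∀ v, ∃ a : Kˣ, ∀ w, w ∉ T → ord w a = if w = v then 1 else 0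

theorem IsClassSet.mono {T T' : Finset (HeightOneSpectrum (𝓞 K))} (h : IsClassSet T)
    (hT : T ⊆ T') : IsClassSet T' :=
  fun v => (h v).imp fun _ ha w hw => ha w fun h' => hw (hT h')

/-- Every finite divisor is principal outside a class set. -/
theorem IsClassSet.exists_ord {T : Finset (HeightOneSpectrum (𝓞 K))} (h : IsClassSet T)
    (k : HeightOneSpectrum (𝓞 K) → ℤ) (hk : {w | w ∉ T ∧ k w ≠ 0}.Finite) :
    ∃ a : Kˣ, ∀ w, w ∉ T → ord w a = k w := by
  classical
  choose a ha using h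
  refine ⟨∏ v ∈ hk.toFinset, a v ^ k v, fun w hw => ?_⟩
  simp_rw [ord_prod, ord_zpow, ha _ w hw, mul_ite, mul_one, mul_zero]
  rw [Finset.sum_ite_eq]
  split_ifs with h'
  · rfl
  · by_contra h0
    exact h' (hk.mem_toFinset.2 ⟨hw, Ne.symm h0⟩)

theorem multiplicity_prime_self (v w : HeightOneSpectrum (𝓞 K)) :
    multiplicity w.asIdeal v.asIdeal = if w = v then 1 else 0 := by
  split_ifs with h
  · subst h; exact multiplicity_self
  · exact multiplicity_eq_zero.2 fun hd => h (HeightOneSpectrum.ext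
      ((prime_dvd_prime_iff_eq w.prime v.prime).1 hd))

/-- **Class sets exist.** -/
theorem exists_isClassSet : ∃ T : Finset (HeightOneSpectrum (𝓞 K)), IsClassSet T := by
  classical
  choose J hJ using fun C : ClassGroup (𝓞 K) => ClassGroup.mk0_surjective C
  have hfin : ∀ C, {w : HeightOneSpectrum (𝓞 K) | w.asIdeal ∣ (J C).1}.Finite := fun C =>
    Ideal.finite_factors (nonZeroDivisors.coe_ne_zero (J C))
  refine ⟨Finset.univ.biUnion fun C => (hfin C).toFinset, fun v => ?_⟩
  set P : (Ideal (𝓞 K))⁰ := ⟨v.asIdeal, mem_nonZeroDivisors_iff_ne_zero.mpr v.ne_bot⟩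
  set C := (ClassGroup.mk0 P)⁻¹
  have h1 : ClassGroup.mk0 (P * J C) = 1 := by rw [map_mul, hJ, mul_inv_cancel]
  obtain ⟨x, hx⟩ := (ClassGroup.mk0_eq_one_iff (SetLike.coe_mem (P * J C))).mp h1
  have hx' : v.asIdeal * (J C).1 = Ideal.span {x} := hx
  have hx0 : x ≠ 0 := fun h0 =>
    mul_ne_zero v.ne_bot (nonZeroDivisors.coe_ne_zero (J C)) (by rw [hx', h0]; simp)
  refine ⟨intU x hx0, fun w hw => ?_⟩
  have hnd : ¬ w.asIdeal ∣ (J C).1 := fun hd => hw (Finset.mem_biUnion.2
    ⟨C, Finset.mem_univ _, (hfin C).mem_toFinset.2 hd⟩)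
  rw [ord_intU, ← hx', multiplicity_mul w.prime (FiniteMultiplicity.of_prime_left w.prime
    (mul_ne_zero v.ne_bot (nonZeroDivisors.coe_ne_zero (J C)))), multiplicity_prime_self,
    multiplicity_eq_zero.2 hnd, add_zero]
  push_cast
  rfl

end order

/-! ### Galois action -/

section galois

variable {K L : Type*} [Field K] [NumberField K] [Field L] [NumberField L] [Algebra K L]

/-- The prime below. -/
abbrev belowP (K : Type*) {L : Type*} [Field K] [NumberField K] [Field L] [NumberField L]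
    [Algebra K L] (Q : HeightOneSpectrum (𝓞 L)) : HeightOneSpectrum (𝓞 K) :=
  Q.under (𝓞 K)

/-- The image of a prime. -/
def galPrime (g : L ≃ₐ[K] L) (Q : HeightOneSpectrum (𝓞 L)) : HeightOneSpectrum (𝓞 L) where
  asIdeal := g • Q.asIdeal
  isPrime := by
    haveI := Q.isPrime
    infer_instance
  ne_bot h := Q.ne_bot (by
    rw [← inv_smul_smul g Q.asIdeal, h, Ideal.pointwise_smul_def, Ideal.map_bot])

theorem galPrime_one (Q : HeightOneSpectrum (𝓞 L)) : galPrime (1 : L ≃ₐ[K] L) Q = Q :=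
  HeightOneSpectrum.ext (one_smul _ _)

theorem galPrime_mul (g h : L ≃ₐ[K] L) (Q : HeightOneSpectrum (𝓞 L)) :
    galPrime (g * h) Q = galPrime g (galPrime h Q) :=
  HeightOneSpectrum.ext (mul_smul _ _ _)

theorem galPrime_iterate (g : L ≃ₐ[K] L) (i : ℕ) (Q : HeightOneSpectrum (𝓞 L)) :
    (galPrime g)^[i] Q = galPrime (g ^ i) Q := by
  induction i with
  | zero => rw [pow_zero, galPrime_one]; rfl
  | succ i ih => rw [Function.iterate_succ_apply', ih, ← galPrime_mul, pow_succ']

theorem belowP_galPrime (g : L ≃ₐ[K] L) (Q : HeightOneSpectrum (𝓞 L)) :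
    belowP K (galPrime g Q) = belowP K Q :=
  HeightOneSpectrum.ext (by
    show (g • Q.asIdeal).under (𝓞 K) = Q.asIdeal.under (𝓞 K)
    ext y
    rw [Ideal.mem_comap, Ideal.mem_comap, Ideal.mem_pointwise_smul_iff_inv_smul_mem,
      show g⁻¹ • algebraMap (𝓞 K) (𝓞 L) y = algebraMap (𝓞 K) (𝓞 L) y from
        RingOfIntegers.ext (g⁻¹.commutes (y : K))])

/-- An automorphism on the nonzero elements. -/
def galU (g : L ≃ₐ[K] L) : Lˣ →* Lˣ := Units.map (g : L →* L)

@[simp] theorem galU_val (g : L ≃ₐ[K] L) (x : Lˣ) : (galU g x : L) = g (x : L) := rfl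

theorem galU_iterate (g : L ≃ₐ[K] L) (i : ℕ) (x : Lˣ) : (galU g)^[i] x = galU (g ^ i) x := by
  induction i with
  | zero => exact Units.ext rfl
  | succ i ih =>
    rw [Function.iterate_succ_apply', ih, pow_succ']
    exact Units.ext rfl

theorem galU_period {g : L ≃ₐ[K] L} {m : ℕ} (hg : g ^ m = 1) (x : Lˣ) :
    (galU g)^[m] x = x := by
  rw [galU_iterate, hg]; exact Units.ext rfl

theorem ord_galU (g : L ≃ₐ[K] L) (Q : HeightOneSpectrum (𝓞 L)) (x : Lˣ) :
    ord (galPrime g Q) (galU g x) = ord Q x := by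
  obtain ⟨a, b, ha, hb, rfl⟩ := exists_intU_div x
  have key : ∀ (r : 𝓞 L) (hr : r ≠ 0),
      ord (galPrime g Q) (galU g (intU r hr)) = ord Q (intU r hr) := fun r hr => by
    have hr' : g • r ≠ 0 := fun h => hr (by simpa using congrArg (fun y => g⁻¹ • y) h)
    rw [show galU g (intU r hr) = intU (g • r) hr' from Units.ext rfl, ord_intU, ord_intU,
      show Ideal.span {g • r} = g • Ideal.span {r} by
        rw [Ideal.pointwise_smul_def, Ideal.map_span, Set.image_singleton]; rfl]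
    congr 1
    exact multiplicity_map_eq (MulDistribMulAction.toMulEquiv (Ideal (𝓞 L)) g)
  rw [map_div, ord_div, ord_div, key, key]

/-- The inclusion of the units of the base. -/
def baseU : Kˣ →* Lˣ := Units.map (algebraMap K L : K →* L)

@[simp] theorem baseU_val (a : Kˣ) : ((baseU a : Lˣ) : L) = algebraMap K L (a : K) := rfl

theorem galU_baseU (g : L ≃ₐ[K] L) (a : Kˣ) : galU g (baseU a) = baseU (L := L) a :=
  Units.ext (g.commutes _)

theorem baseU_injective : Function.Injective (baseU : Kˣ →* Lˣ) :=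
  Units.map_injective (algebraMap K L).injective

/-- The ramification index at a prime of `L`. -/
def eIdx (K : Type*) {L : Type*} [Field K] [NumberField K] [Field L] [NumberField L] [Algebra K L]
    (Q : HeightOneSpectrum (𝓞 L)) : ℕ :=
  (belowP K Q).asIdeal.ramificationIdx' Q.asIdeal

theorem eIdx_pos (Q : HeightOneSpectrum (𝓞 L)) : 0 < eIdx K Q :=
  haveI : Q.asIdeal.LiesOver (belowP K Q).asIdeal := ⟨rfl⟩
  Nat.pos_of_ne_zero (Ideal.IsDedekindDomain.ramificationIdx'_ne_zero_of_liesOver Q.asIdeal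
    (belowP K Q).ne_bot)

theorem ord_baseU (Q : HeightOneSpectrum (𝓞 L)) (a : Kˣ) :
    ord Q (baseU a) = eIdx K Q * ord (belowP K Q) a := by
  haveI : Q.asIdeal.LiesOver (belowP K Q).asIdeal := ⟨rfl⟩
  rw [ord_eq_iff, baseU_val, ← HeightOneSpectrum.valuation_liesOver L (belowP K Q) Q,
    valuation_eq_exp, ← WithZero.exp_nsmul, Int.nsmul_eq_mul, mul_neg]
  rfl

theorem ord_baseU_eq_zero_iff (Q : HeightOneSpectrum (𝓞 L)) (a : Kˣ) :
    ord Q (baseU a) = 0 ↔ ord (belowP K Q) a = 0 := by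
  rw [ord_baseU, mul_eq_zero, or_iff_right (Nat.cast_ne_zero.2 (eIdx_pos Q).ne')]

variable (K L) in
theorem exists_belowP (v : HeightOneSpectrum (𝓞 K)) :
    ∃ Q : HeightOneSpectrum (𝓞 L), belowP K Q = v := by
  haveI := v.isMaximal
  obtain ⟨Q, hQ, hQv⟩ := Ideal.exists_maximal_ideal_liesOver_of_isIntegral (S := 𝓞 L) v.asIdeal
  exact ⟨⟨Q, hQ.isPrime, Ideal.ne_bot_of_liesOver_of_ne_bot v.ne_bot Q⟩,
    HeightOneSpectrum.ext hQv.over.symm⟩

theorem finite_belowP (v : HeightOneSpectrum (𝓞 K)) :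
    {Q : HeightOneSpectrum (𝓞 L) | belowP K Q = v}.Finite := by
  haveI := v.isMaximal
  refine Set.Finite.of_finite_image ((IsDedekindDomain.primesOver_finite v.asIdeal (𝓞 L)).subset ?_)
    (f := HeightOneSpectrum.asIdeal) (fun _ _ _ _ h => HeightOneSpectrum.ext h)
  rintro _ ⟨Q, hQ, rfl⟩
  exact ⟨Q.isPrime, ⟨(congrArg HeightOneSpectrum.asIdeal hQ).symm⟩⟩

/-- The primes over a finite set. -/
def primesAbove (L : Type*) [Field L] [NumberField L] [Algebra K L]
    (T : Finset (HeightOneSpectrum (𝓞 K))) : Finset (HeightOneSpectrum (𝓞 L)) :=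
  (T.finite_toSet.biUnion fun v _ => finite_belowP (L := L) v).toFinset

@[simp] theorem mem_primesAbove {T : Finset (HeightOneSpectrum (𝓞 K))}
    {Q : HeightOneSpectrum (𝓞 L)} : Q ∈ primesAbove L T ↔ belowP K Q ∈ T := by
  simp [primesAbove]

section cyclic

variable [IsGalois K L] {σ : L ≃ₐ[K] L} (hσ : ∀ g, g ∈ Subgroup.zpowers σ)
include hσ

theorem pow_finrank_eq_one : σ ^ Module.finrank K L = 1 := by
  rw [← IsGalois.card_aut_eq_finrank, pow_card_eq_one']

theorem exists_pow_eq (g : L ≃ₐ[K] L) : ∃ i : ℕ, σ ^ i = g :=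
  mem_powers_iff_mem_zpowers.mpr (hσ g)

theorem exists_iterate_eq {Q Q' : HeightOneSpectrum (𝓞 L)} (h : belowP K Q = belowP K Q') :
    ∃ i, (galPrime σ)^[i] Q = Q' := by
  obtain ⟨g, hg⟩ := Algebra.IsInvariant.exists_smul_of_under_eq (𝓞 K) (𝓞 L) (L ≃ₐ[K] L)
    Q.asIdeal Q'.asIdeal (congrArg HeightOneSpectrum.asIdeal h)
  obtain ⟨i, rfl⟩ := exists_pow_eq hσ g
  exact ⟨i, by rw [galPrime_iterate]; exact HeightOneSpectrum.ext hg.symm⟩

theorem baseU_norm (x : Lˣ) :
    normHom (galU σ) (Module.finrank K L) x = baseU (Units.map (Algebra.norm K (S := L)) x) := by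
  refine Units.ext ?_
  rw [normHom_apply, Units.coe_prod, baseU_val, Units.coe_map]
  simp_rw [galU_iterate, galU_val]
  rw [Algebra.norm_eq_prod_automorphisms]
  have hcard : orderOf σ = Module.finrank K L := by
    rw [← IsGalois.card_aut_eq_finrank, orderOf_eq_card_of_forall_mem_zpowers hσ]
  refine Finset.prod_bij (fun i _ => σ ^ i) (fun i _ => Finset.mem_univ _) (fun a ha b hb h => ?_)
    (fun g _ => ?_) (fun i _ => rfl)
  · rw [Finset.mem_range, ← hcard] at ha hb
    exact pow_injOn_Iio_orderOf ha hb h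
  · obtain ⟨i, rfl⟩ := exists_pow_eq hσ g
    exact ⟨i % orderOf σ, Finset.mem_range.mpr (hcard ▸ Nat.mod_lt _ (orderOf_pos σ)),
      pow_mod_orderOf σ i⟩

/-- Fixed elements come from the base. -/
theorem exists_baseU_eq {x : Lˣ} (hx : galU σ x = x) : ∃ a : Kˣ, baseU a = x := by
  have hfix : ∀ g : L ≃ₐ[K] L, g (x : L) = x := fun g => by
    obtain ⟨i, rfl⟩ := exists_pow_eq hσ g
    induction i with
    | zero => rfl
    | succ i ih => rw [pow_succ', AlgEquiv.mul_apply, ih]; exact congrArg Units.val hx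
  obtain ⟨a, ha⟩ := (IsGalois.mem_range_algebraMap_iff_fixed (F := K) (x : L)).mpr hfix
  exact ⟨Units.mk0 a fun h => x.ne_zero (by rw [← ha, h, map_zero]), Units.ext ha⟩

/-- **Hilbert 90** on the nonzero elements. -/
theorem exists_diff_eq {x : Lˣ} (hx : normHom (galU σ) (Module.finrank K L) x = 1) :
    ∃ y : Lˣ, diffHom (galU σ) y = x := by
  set n := Module.finrank K L
  let F : ℕ → Lˣ := fun i => ∏ j ∈ range i, (galU σ)^[j] x
  have hF : ∀ i k, F (i + k) = F i * galU (σ ^ i) (F k) := fun i k => by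
    simp only [F, Finset.prod_range_add, map_prod, ← galU_iterate, ← Function.iterate_add_apply]
  have hFn : ∀ q i, F (n * q + i) = F i := fun q => by
    induction q with
    | zero => intro i; rw [mul_zero, zero_add]
    | succ q ih =>
      intro i
      rw [Nat.mul_succ, add_assoc, ih, hF, pow_finrank_eq_one hσ,
        show F n = 1 from hx, one_mul]
      exact Units.ext rfl
  have hord : orderOf σ = n := by
    rw [orderOf_eq_card_of_forall_mem_zpowers hσ, IsGalois.card_aut_eq_finrank]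
  choose idx hidx using exists_pow_eq hσ
  have hmod : ∀ i j, σ ^ i = σ ^ j → F i = F j := fun i j h => by
    rw [pow_eq_pow_iff_modEq, hord] at h
    rw [← Nat.div_add_mod i n, ← Nat.div_add_mod j n, hFn, hFn, h]
  obtain ⟨β, hβ⟩ := groupCohomology.isMulCoboundary₁_of_isMulCocycle₁_of_aut_to_units
    (fun g => F (idx g)) fun g h => by
      show F (idx (g * h)) = g • F (idx h) * F (idx g)
      rw [hmod (idx (g * h)) (idx g + idx h) (by rw [pow_add, hidx, hidx, hidx]), hF, hidx,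
        mul_comm]
      exact congrArg₂ (· * ·) (Units.ext rfl) rfl
  refine ⟨β, ?_⟩
  rw [diffHom_apply, show galU σ β = σ • β from Units.ext rfl, hβ σ]
  show F (idx σ) = x
  rw [hmod (idx σ) 1 (by rw [hidx, pow_one])]
  exact (Finset.prod_range_one _).trans rfl

end cyclic

/-! ### Ramified primes -/

/-- Some prime above has nontrivial inertia. -/
def IsRam (L : Type*) [Field L] [NumberField L] [Algebra K L] (v : HeightOneSpectrum (𝓞 K)) :
    Prop :=
  ∃ Q : HeightOneSpectrum (𝓞 L), belowP K Q = v ∧ Q.asIdeal.inertia (L ≃ₐ[K] L) ≠ ⊥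

variable (K L) in
theorem finite_isRam : {v : HeightOneSpectrum (𝓞 K) | IsRam L v}.Finite := by
  have hex : ∀ g : L ≃ₐ[K] L, g ≠ 1 → ∃ y : 𝓞 L, g • y - y ≠ 0 := by
    intro g hg
    by_contra! hcon
    refine hg (AlgEquiv.ext fun z => ?_)
    obtain ⟨a, b, hb, rfl⟩ := IsFractionRing.div_surjective (A := 𝓞 L) z
    rw [map_div₀]
    congr 1 <;>
    · refine congrArg (fun y : 𝓞 L => (y : L)) (sub_eq_zero.mp (hcon _))
  choose y hy using hex
  have hbad : {Q : HeightOneSpectrum (𝓞 L) | Q.asIdeal.inertia (L ≃ₐ[K] L) ≠ ⊥}.Finite := by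
    refine (Set.finite_iUnion fun g : {g : L ≃ₐ[K] L // g ≠ 1} => Ideal.finite_factors
      (I := Ideal.span {g.1 • y g.1 g.2 - y g.1 g.2}) (by simpa using hy g.1 g.2)).subset ?_
    intro Q hQ
    obtain ⟨⟨g, hg⟩, hg1⟩ := Subgroup.ne_bot_iff_exists_ne_one.1 hQ
    exact Set.mem_iUnion.2 ⟨⟨g, fun h => hg1 (Subtype.ext h)⟩,
      Ideal.dvd_span_singleton.2 (hg _)⟩
  exact (hbad.image (belowP K)).subset fun v ⟨Q, hQ, h⟩ => ⟨Q, h, hQ⟩

theorem eIdx_eq_one [IsGalois K L] {Q : HeightOneSpectrum (𝓞 L)}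
    (h : ¬ IsRam L (belowP K Q)) : eIdx K Q = 1 := by
  haveI : Q.asIdeal.LiesOver (belowP K Q).asIdeal := ⟨rfl⟩
  haveI := (belowP K Q).isMaximal
  have hI : Q.asIdeal.inertia (L ≃ₐ[K] L) = ⊥ := by_contra fun hne => h ⟨Q, rfl, hne⟩
  haveI : Finite (𝓞 K ⧸ (belowP K Q).asIdeal) :=
    Ideal.finiteQuotientOfFreeOfNeBot _ (belowP K Q).ne_bot
  have hcard := Ideal.card_inertia_eq_ramificationIdxIn (G := L ≃ₐ[K] L) (belowP K Q).asIdeal
    Q.asIdeal
  rw [hI, Subgroup.card_bot,
    Ideal.ramificationIdxIn_eq_ramificationIdx _ Q.asIdeal (L ≃ₐ[K] L)] at hcard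
  rw [eIdx, Ideal.ramificationIdx'_eq_ramificationIdx _ _ (belowP K Q).ne_bot]
  exact hcard.symm

end galois

end FA.ArtinRec
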