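import Fermat.Agent.ArtinReciprocity.FirstInequality
import Fermat.Agent.Root.SummaryNaturalChebotarev

/-!
# The second inequality

For a Galois extension of degree `n` and any modulus, the classes of the norms of primes generate
a subgroup of index at most `n` in the narrow ray class group: the completely split primes have
density `1 / n` and all lie in it, and every class has the same share of primes.
-/

set_option autoImplicit false
set_option linter.unusedSectionVars false
set_option linter.style.haveILetI false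

noncomputable section

open NumberField IsDedekindDomain Finset Filter Topology
open FA.Hecke (HasMean primesLE rayInd RayClassGroup rayClass coprimeIdeals hasMean_rayInd
  hasMean_congr finite_rayClassGroup)
open FA.Chebotarev (strictFrobSet exists_isArithFrobAt)
open FA.Ext (primeIdeal)
open scoped Pointwise nonZeroDivisors Classical

namespace FA.ArtinRec

variable {K L : Type*} [Field K] [NumberField K] [Field L] [NumberField L] [Algebra K L]

/-- Means are monotone. -/
theorem hasMean_le {b b' : HeightOneSpectrum (𝓞 K) → ℝ} {c c' : ℝ} (h : HasMean b c)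
    (h' : HasMean b' c') (hle : ∀ v, b v ≤ b' v) : c ≤ c' :=
  le_of_tendsto_of_tendsto h h' (by
    filter_upwards [eventually_ge_atTop 1] with x hx
    exact smul_le_smul_of_nonneg_left (Finset.sum_le_sum fun v _ => hle v)
      (div_nonneg (Real.log_nonneg hx) (by linarith)))

variable [IsGalois K L]

/-- A prime with trivial Frobenius above it is the norm of that prime. -/
theorem relNorm_of_frob_one {Q : HeightOneSpectrum (𝓞 L)}
    (h : IsArithFrobAt (𝓞 K) (1 : L ≃ₐ[K] L) Q.asIdeal) :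
    Ideal.relNorm (𝓞 K) Q.asIdeal = (belowP K Q).asIdeal := by
  haveI := Q.isMaximal
  haveI : Finite (𝓞 L ⧸ Q.asIdeal) := Ideal.finiteQuotientOfFreeOfNeBot _ Q.ne_bot
  haveI := Fintype.ofFinite (𝓞 L ⧸ Q.asIdeal)
  let _ : Field (𝓞 L ⧸ Q.asIdeal) := Ideal.Quotient.field _
  set q := Ideal.absNorm (belowP K Q).asIdeal with hqdef
  have hq : 2 ≤ q := FA.Ext.two_le_absNorm (belowP K Q)
  have hq' : Nat.card (𝓞 K ⧸ Q.asIdeal.under (𝓞 K)) = q := by
    rw [hqdef, Ideal.absNorm_apply, Submodule.cardQuot_apply]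
    rfl
  have hroot : ∀ a : 𝓞 L ⧸ Q.asIdeal,
      (Polynomial.X ^ q - Polynomial.X : Polynomial (𝓞 L ⧸ Q.asIdeal)).IsRoot a := fun a => by
    obtain ⟨x, rfl⟩ := Ideal.Quotient.mk_surjective a
    rw [Polynomial.IsRoot.def, Polynomial.eval_sub, Polynomial.eval_pow, Polynomial.eval_X,
      ← map_pow, ← map_sub, Ideal.Quotient.eq_zero_iff_mem, ← neg_sub, neg_mem_iff, ← hq']
    have h1 := h x
    rwa [MulSemiringAction.toAlgHom_apply, one_smul] at h1
  have hcard : Nat.card (𝓞 L ⧸ Q.asIdeal) ≤ q := by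
    rw [Nat.card_eq_fintype_card]
    refine (Polynomial.card_le_degree_of_subset_roots (Z := Finset.univ)
      fun a _ => (Polynomial.mem_roots (FiniteField.X_pow_card_sub_X_ne_zero _ hq)).2
        (hroot a)).trans (le_of_eq ?_)
    exact FiniteField.X_pow_card_sub_X_natDegree_eq _ hq
  have hN : Ideal.absNorm (Ideal.relNorm (𝓞 K) Q.asIdeal) = q ^ fDeg L (belowP K Q) := by
    rw [relNorm_prime, map_pow]
  rw [Ideal.absNorm_relNorm, Ideal.absNorm_apply, Submodule.cardQuot_apply] at hN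
  have hf : fDeg L (belowP K Q) = 1 := by
    rcases Nat.lt_or_ge 1 (fDeg L (belowP K Q)) with h2 | h2
    · exfalso
      have := Nat.pow_lt_pow_right (show 1 < q by omega) h2
      rw [pow_one] at this
      omega
    · have := fDeg_ne_zero (L := L) (belowP K Q)
      omega
  rw [relNorm_prime, hf, pow_one]

variable (K L) in
/-- The completely split primes have density `1 / n`. -/
theorem hasMean_split :
    HasMean (fun v => if v ∈ strictFrobSet K L {1} then (1 : ℝ) else 0)
      ((Module.finrank K L : ℝ)⁻¹) := by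
  have h := FA.NaturalChebotarev.hasMean_strictFrobSet ({1} : Set (L ≃ₐ[K] L))
    fun g hg x => by simp [Set.mem_singleton_iff.1 hg]
  rwa [Nat.card_coe_set_eq, Set.ncard_singleton, IsGalois.card_aut_eq_finrank, Nat.cast_one,
    one_div] at h

/-- **A subgroup with the classes of the split primes has index at most the degree.** -/
theorem index_le_of_split {𝔪 : Ideal (𝓞 K)} (h𝔪 : 𝔪 ≠ ⊥) (H : Subgroup (RayClassGroup 𝔪))
    {S : Set (HeightOneSpectrum (𝓞 K))} (hS : S.Finite)
    (h : ∀ (v : HeightOneSpectrum (𝓞 K)) (hv : v.asIdeal ⊔ 𝔪 = ⊤), v ∉ S →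
      v ∈ strictFrobSet K L {1} → rayClass h𝔪 ⟨primeIdeal v, hv⟩ ∈ H) :
    H.index ≤ Module.finrank K L := by
  haveI := finite_rayClassGroup h𝔪
  haveI := Fintype.ofFinite (RayClassGroup 𝔪)
  set A := Finset.univ.filter fun γ => γ ∈ H
  set bad : Set (HeightOneSpectrum (𝓞 K)) := S ∪ {v | v.asIdeal ∣ 𝔪}
  have hbad : bad.Finite := hS.union (Ideal.finite_factors h𝔪)
  have hsum : HasMean (fun v => ∑ γ ∈ A, rayInd h𝔪 γ v)
      (∑ _γ ∈ A, (Nat.card (RayClassGroup 𝔪) : ℝ)⁻¹) :=
    FA.Hecke.HasMean.finset_sum A fun γ _ => hasMean_rayInd h𝔪 γ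
  have hb : HasMean
      (fun v => if v ∈ bad then 1 else ∑ γ ∈ A, rayInd h𝔪 γ v)
      (∑ _γ ∈ A, (Nat.card (RayClassGroup 𝔪) : ℝ)⁻¹) := by
    refine hasMean_congr bad hbad (B := 1 + A.card) (fun v => ?_) (fun v hv _ => if_neg hv) hsum
    have h1 : ∀ γ ∈ A, |rayInd h𝔪 γ v| ≤ 1 := fun γ _ => by
      rw [rayInd]; split_ifs <;> simp
    have h2 := (Finset.abs_sum_le_sum_abs _ _).trans (Finset.sum_le_card_nsmul A _ 1 h1)
    rw [nsmul_one] at h2
    rw [Real.norm_eq_abs]
    split_ifs with hv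
    · exact (abs_sub _ _).trans (by rw [abs_one]; linarith)
    · simp only [sub_self, abs_zero]
      positivity
  have hle := hasMean_le (hasMean_split K L) hb fun v => by
    split_ifs with hsplit hv hv
    · exact le_rfl
    · have hcop : v.asIdeal ⊔ 𝔪 = ⊤ := v.isMaximal.out.2 _ (lt_of_le_of_ne le_sup_left fun he =>
        hv (Or.inr (Ideal.dvd_iff_le.2 (sup_eq_left.1 he.symm))))
      refine le_trans (le_of_eq ?_) (Finset.single_le_sum
        (fun γ _ => by rw [rayInd]; split_ifs <;> norm_num)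
        (Finset.mem_filter.2 ⟨Finset.mem_univ _, h v hcop (fun hs => hv (Or.inl hs)) hsplit⟩))
      rw [rayInd, if_pos ⟨hcop, rfl⟩]
    · exact zero_le_one
    · exact Finset.sum_nonneg fun γ _ => by rw [rayInd]; split_ifs <;> norm_num
  have hA : A.card = Nat.card H := by
    rw [Nat.card_eq_fintype_card, Fintype.card_subtype]
  rw [Finset.sum_const, hA, nsmul_eq_mul, ← Subgroup.card_mul_index H] at hle
  have hH : (0 : ℝ) < Nat.card H := Nat.cast_pos.2 Nat.card_pos
  rw [Nat.cast_mul, mul_inv, ← mul_assoc, mul_inv_cancel₀ hH.ne', one_mul,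
    inv_le_inv₀ (Nat.cast_pos.2 Module.finrank_pos)
      (Nat.cast_pos.2 (Nat.pos_of_ne_zero Subgroup.index_ne_zero_of_finite)), Nat.cast_le] at hle
  exact hle

/-- **The second inequality.** -/
theorem normClasses_index_le {𝔪 : Ideal (𝓞 K)} (h𝔪 : 𝔪 ≠ ⊥) :
    (normClasses L h𝔪).index ≤ Module.finrank K L := by
  refine index_le_of_split h𝔪 _ Set.finite_empty fun v hv _ hsplit => ?_
  obtain ⟨Q, hQ, hQv, τ, hτ⟩ := exists_isArithFrobAt (L := L) v
  have hτ1 : τ = 1 := hsplit Q hQ hQv τ hτ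
  subst hτ1
  let Q' : HeightOneSpectrum (𝓞 L) :=
    ⟨Q, hQ.isPrime, Ring.ne_bot_of_isMaximal_of_not_isField hQ (RingOfIntegers.not_isField _)⟩
  have hb : belowP K Q' = v := HeightOneSpectrum.ext hQv
  have hrel := relNorm_of_frob_one (K := K) (Q := Q') hτ
  rw [hb] at hrel
  have hmem : normPrime K Q' ∈ coprimeIdeals 𝔪 := by
    show Ideal.relNorm (𝓞 K) Q'.asIdeal ⊔ 𝔪 = ⊤
    rw [hrel, hv]
  have e : (⟨primeIdeal v, hv⟩ : coprimeIdeals 𝔪) = ⟨normPrime K Q', hmem⟩ :=
    Subtype.ext (Subtype.ext hrel.symm)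
  rw [e]
  exact rayClass_normPrime_mem h𝔪 Q' hmem

/-- **The norm index theorem for cyclic extensions.** -/
theorem exists_norm_index {σ : L ≃ₐ[K] L} (hσ : ∀ g, g ∈ Subgroup.zpowers σ) :
    ∃ (𝔪 : Ideal (𝓞 K)) (h𝔪 : 𝔪 ≠ ⊥), (∀ v : HeightOneSpectrum (𝓞 K), v.asIdeal ∣ 𝔪 ↔ IsRam L v)
      ∧ (normClasses L h𝔪).index = Module.finrank K L := by
  obtain ⟨𝔪, h𝔪, h1, h2⟩ := exists_first_inequality hσ
  exact ⟨𝔪, h𝔪, h1, le_antisymm (normClasses_index_le h𝔪) h2⟩

end FA.ArtinRec
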