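import Fermat.Agent.ArtinReciprocity.Places

/-!
# The Herbrand quotient of the units outside a set of primes

For a cyclic extension `L/K` of degree `n` and a class set `T` of `K` containing the ramified
primes, the units outside `T` have trivial first Tate group and `(∏ n_v) / n` as order of the
zeroth, the product over the infinite places and the primes of `T`, `n_v` the order of the
decomposition group.
-/

set_option autoImplicit false
set_option linter.unusedSectionVars false
set_option linter.style.haveILetI false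

noncomputable section

open NumberField NumberField.InfinitePlace IsDedekindDomain Finset
open scoped Pointwise nonZeroDivisors Classical

namespace FA.ArtinRec

variable {K L : Type*} [Field K] [NumberField K] [Field L] [NumberField L] [Algebra K L]

section base

variable {F : Type*} [Field F] [NumberField F]

/-- The elements without zero or pole outside `T`. -/
def tUnit (T : Finset (HeightOneSpectrum (𝓞 F))) : Subgroup Fˣ where
  carrier := {x | ∀ v, v ∉ T → ord v x = 0}
  one_mem' v _ := ord_one v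
  mul_mem' {x y} hx hy v hv := by rw [ord_mul, hx v hv, hy v hv, add_zero]
  inv_mem' {x} hx v hv := by rw [ord_inv, hx v hv, neg_zero]

theorem mem_tUnit {T : Finset (HeightOneSpectrum (𝓞 F))} {x : Fˣ} :
    x ∈ tUnit T ↔ ∀ v, v ∉ T → ord v x = 0 := Iff.rfl

/-- The units of the integers among the nonzero elements. -/
def intUnits : (𝓞 F)ˣ →* Fˣ := Units.map (algebraMap (𝓞 F) F : 𝓞 F →* F)

theorem intUnits_injective : Function.Injective (intUnits (F := F)) :=
  Units.map_injective (IsFractionRing.injective (𝓞 F) F)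

theorem ord_intUnits (u : (𝓞 F)ˣ) (v : HeightOneSpectrum (𝓞 F)) : ord v (intUnits u) = 0 := by
  rw [show intUnits u = intU (u : 𝓞 F) u.ne_zero from Units.ext rfl, ord_intU_eq_zero_iff]
  exact fun h => v.isPrime.ne_top (Ideal.eq_top_of_isUnit_mem _ h u.isUnit)

theorem exists_intUnits_eq {x : Fˣ} (h : ∀ v, ord v x = 0) : ∃ u, intUnits u = x := by
  obtain ⟨r, hr, rfl⟩ := exists_intU_of_ord_nonneg fun v => (h v).symm.le
  obtain ⟨s, hs, hs'⟩ := exists_intU_of_ord_nonneg (x := (intU r hr)⁻¹) fun v => by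
    rw [ord_inv, h v, neg_zero]
  have hrs : r * s = 1 := RingOfIntegers.coe_injective (by
    have := congrArg Units.val hs'
    rw [Units.val_inv_eq_inv_val, intU_val, intU_val] at this
    rw [map_mul, map_one]
    show (r : F) * (s : F) = 1
    rw [← this, mul_inv_cancel₀ (RingOfIntegers.coe_ne_zero_iff.mpr hr)])
  exact ⟨⟨r, s, hrs, by rw [mul_comm]; exact hrs⟩, Units.ext rfl⟩

/-- A power of a prime is principal. -/
theorem exists_prime_gen (v : HeightOneSpectrum (𝓞 F)) :
    ∃ x : Fˣ, 0 < ord v x ∧ ∀ w, w ≠ v → ord w x = 0 := by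
  set P : (Ideal (𝓞 F))⁰ := ⟨v.asIdeal, mem_nonZeroDivisors_iff_ne_zero.mpr v.ne_bot⟩
  have h1 : ClassGroup.mk0 (P ^ classNumber F) = 1 := by
    rw [map_pow, classNumber, pow_card_eq_one]
  obtain ⟨x, hx⟩ := (ClassGroup.mk0_eq_one_iff (SetLike.coe_mem (P ^ classNumber F))).mp h1
  have hx' : v.asIdeal ^ classNumber F = Ideal.span {x} := hx
  have hx0 : x ≠ 0 := fun h0 => pow_ne_zero (classNumber F) v.ne_bot (by rw [hx', h0]; simp)
  refine ⟨intU x hx0, ?_, fun w hw => ?_⟩
  · rw [ord_intU, ← hx', multiplicity_pow_self_of_prime v.prime]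
    exact_mod_cast classNumber_pos F
  · rw [ord_intU_eq_zero_iff]
    intro hmem
    have hd : w.asIdeal ∣ v.asIdeal ^ classNumber F := by
      rwa [hx', Ideal.dvd_span_singleton]
    exact hw (HeightOneSpectrum.ext
      ((prime_dvd_prime_iff_eq w.prime v.prime).1 (w.prime.dvd_of_dvd_pow hd)))

end base

/-- An invariant element at each point spreads to an equivariant family. -/
theorem exists_equivariant {W : Type*} [MulAction (L ≃ₐ[K] L) W] (P : W → Lˣ → Prop)
    (hP : ∀ (g : L ≃ₐ[K] L) w x, P w x → P (g • w) (galU g x))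
    (h : ∀ w, ∃ x, P w x ∧ ∀ d : L ≃ₐ[K] L, d • w = w → galU d x = x) :
    ∃ u : W → Lˣ, (∀ w, P w (u w)) ∧ ∀ (g : L ≃ₐ[K] L) w, u (g • w) = galU g (u w) := by
  choose x hx hfix using h
  have hrep : ∀ w : W, ∃ g : L ≃ₐ[K] L,
      g • (Quotient.mk (MulAction.orbitRel (L ≃ₐ[K] L) W) w).out = w := fun w => by
    have h1 : (MulAction.orbitRel (L ≃ₐ[K] L) W) w
        (Quotient.mk (MulAction.orbitRel (L ≃ₐ[K] L) W) w).out :=
      Quotient.exact (Quotient.out_eq _).symm
    exact h1
  choose g hg using hrep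
  refine ⟨fun w => galU (g w) (x (Quotient.mk (MulAction.orbitRel (L ≃ₐ[K] L) W) w).out),
    fun w => ?_, fun a w => ?_⟩
  · have h1 := hP (g w) _ _ (hx (Quotient.mk (MulAction.orbitRel (L ≃ₐ[K] L) W) w).out)
    rwa [hg w] at h1
  · have e : Quotient.mk (MulAction.orbitRel (L ≃ₐ[K] L) W) (a • w) =
        Quotient.mk (MulAction.orbitRel (L ≃ₐ[K] L) W) w := Quotient.sound ⟨a, rfl⟩
    have h1 := hg (a • w)
    show galU (g (a • w)) (x (Quotient.mk (MulAction.orbitRel (L ≃ₐ[K] L) W) (a • w)).out) = _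
    rw [e] at h1 ⊢
    have h2 := hfix _ ((g w)⁻¹ * a⁻¹ * g (a • w)) (by
      rw [mul_smul, mul_smul, h1, inv_smul_smul, inv_smul_eq_iff, hg w])
    show _ = galU a (galU (g w) (x (Quotient.mk (MulAction.orbitRel (L ≃ₐ[K] L) W) w).out))
    conv_rhs => rw [← h2]
    refine Units.ext ?_
    simp only [galU_val, ← AlgEquiv.mul_apply]
    congr 1
    simp [mul_assoc]

variable [IsGalois K L]

/-- The order of the decomposition group at an infinite place. -/
def infIdx (L : Type*) [Field L] [NumberField L] [Algebra K L] (v : InfinitePlace K) : ℕ :=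
  Module.finrank K L / Nat.card {w : InfinitePlace L // w.comap (algebraMap K L) = v}

/-- The order of the decomposition group at a prime. -/
def finIdx (L : Type*) [Field L] [NumberField L] [Algebra K L] (v : HeightOneSpectrum (𝓞 K)) : ℕ :=
  Module.finrank K L / Nat.card {Q : HeightOneSpectrum (𝓞 L) // belowP K Q = v}

/-- An orbit divides the period. -/
theorem card_fibre_dvd {W I : Type*} [Fintype W] {τ : W → W} {n : ℕ} (hn : 0 < n)
    (hτ : ∀ w, τ^[n] w = w) (π : W → I) (hπτ : ∀ w, π (τ w) = π w)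
    (htrans : ∀ w w', π w = π w' → ∃ i, τ^[i] w = w') (w : W) :
    Nat.card {w' // π w' = π w} ∣ n := by
  have ho : 0 < Function.minimalPeriod τ w :=
    Function.IsPeriodicPt.minimalPeriod_pos hn (hτ w)
  have hπi : ∀ i, π (τ^[i] w) = π w := fun i => by
    induction i with
    | zero => rfl
    | succ i ih => rw [Function.iterate_succ_apply', hπτ, ih]
  let e : Fin (Function.minimalPeriod τ w) → {w' // π w' = π w} := fun i => ⟨τ^[i] w, hπi i⟩
  rw [← Nat.card_eq_of_bijective e ⟨fun a b h => Fin.ext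
      (Function.iterate_injOn_Iio_minimalPeriod a.2 b.2 (congrArg Subtype.val h :)), fun w' => ?_⟩,
    Nat.card_fin]
  · exact Function.IsPeriodicPt.minimalPeriod_dvd (hτ w)
  · obtain ⟨i, hi⟩ := htrans w w'.1 w'.2.symm
    exact ⟨⟨i % Function.minimalPeriod τ w, Nat.mod_lt _ ho⟩,
      Subtype.ext (Function.iterate_mod_minimalPeriod_eq.trans hi)⟩

variable {σ : L ≃ₐ[K] L} (hσ : ∀ g, g ∈ Subgroup.zpowers σ)

include hσ

theorem inv_generator : ∀ g, g ∈ Subgroup.zpowers σ⁻¹ := fun g => by
  rw [Subgroup.zpowers_inv]; exact hσ g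

omit hσ in
theorem smul_iterate_pow {W : Type*} [MulAction (L ≃ₐ[K] L) W] (g : L ≃ₐ[K] L) (i : ℕ) (w : W) :
    (fun w => g • w)^[i] w = g ^ i • w := by
  rw [smul_iterate_apply]

theorem comap_smul_place (g : L ≃ₐ[K] L) (w : InfinitePlace L) :
    (g • w).comap (algebraMap K L) = w.comap (algebraMap K L) :=
  InfinitePlace.mem_orbit_iff.1 ⟨g, rfl⟩ |>.symm

theorem exists_iterate_place {w w' : InfinitePlace L}
    (h : w.comap (algebraMap K L) = w'.comap (algebraMap K L)) :
    ∃ i, (fun w => σ • w)^[i] w = w' := by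
  obtain ⟨g, hg⟩ := exists_smul_eq_of_comap_eq h
  obtain ⟨i, rfl⟩ := exists_pow_eq hσ g
  exact ⟨i, by rw [smul_iterate_pow]; exact hg⟩

theorem infIdx_mul_card (v : InfinitePlace K) :
    infIdx L v * Nat.card {w : InfinitePlace L // w.comap (algebraMap K L) = v} =
      Module.finrank K L := by
  obtain ⟨w, rfl⟩ := InfinitePlace.comap_surjective (K := L) v
  refine Nat.div_mul_cancel (card_fibre_dvd (τ := fun w => σ • w) Module.finrank_pos
    (fun w => by rw [smul_iterate_pow, pow_finrank_eq_one hσ, one_smul]) _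
    (fun w => comap_smul_place hσ σ w) (fun w w' => exists_iterate_place hσ) w)

theorem finIdx_mul_card (v : HeightOneSpectrum (𝓞 K)) :
    finIdx L v * Nat.card {Q : HeightOneSpectrum (𝓞 L) // belowP K Q = v} =
      Module.finrank K L := by
  have : Finite {Q : HeightOneSpectrum (𝓞 L) // belowP K Q = v} :=
    (finite_belowP (L := L) v).to_subtype
  have := Fintype.ofFinite {Q : HeightOneSpectrum (𝓞 L) // belowP K Q = v}
  obtain ⟨Q, hQ⟩ := exists_belowP K L v
  let τ : {Q : HeightOneSpectrum (𝓞 L) // belowP K Q = v} →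
      {Q : HeightOneSpectrum (𝓞 L) // belowP K Q = v} :=
    fun Q => ⟨galPrime σ Q.1, (belowP_galPrime σ Q.1).trans Q.2⟩
  have hit : ∀ i Q, (τ^[i] Q).1 = (galPrime σ)^[i] Q.1 := fun i Q => by
    induction i with
    | zero => rfl
    | succ i ih => rw [Function.iterate_succ_apply', Function.iterate_succ_apply', ← ih]
  have h := card_fibre_dvd (τ := τ) Module.finrank_pos (fun Q => Subtype.ext (by
      rw [hit, galPrime_iterate, pow_finrank_eq_one hσ, galPrime_one]))
    (fun _ => ()) (fun _ => rfl) (fun Q Q' _ => by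
      obtain ⟨i, hi⟩ := exists_iterate_eq hσ (Q.2.trans Q'.2.symm)
      exact ⟨i, Subtype.ext ((hit i Q).trans hi)⟩) ⟨Q, hQ⟩
  rw [Nat.card_congr (Equiv.subtypeUnivEquiv fun _ => rfl)] at h
  exact Nat.div_mul_cancel h

variable (T : Finset (HeightOneSpectrum (𝓞 K)))

omit hσ in
theorem isStable_tUnit (g : L ≃ₐ[K] L) : IsStable (galU g) (tUnit (primesAbove L T)) := by
  intro x hx Q hQ
  have h := hx (galPrime g⁻¹ Q) (by rwa [mem_primesAbove, belowP_galPrime, ← mem_primesAbove])
  rwa [← ord_galU g, ← galPrime_mul, mul_inv_cancel, galPrime_one] at h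

omit hσ in
theorem baseU_mem_tUnit {a : Kˣ} :
    baseU a ∈ tUnit (primesAbove L T) ↔ a ∈ tUnit T := by
  refine ⟨fun h v hv => ?_, fun h Q hQ => ?_⟩
  · obtain ⟨Q, rfl⟩ := exists_belowP K L v
    exact (ord_baseU_eq_zero_iff Q a).1 (h Q (by rwa [mem_primesAbove]))
  · exact (ord_baseU_eq_zero_iff Q a).2 (h _ (by rwa [mem_primesAbove] at hQ))

/-- **The first Tate group of the units outside `T` is trivial.** -/
theorem hOne_tUnit (hcl : IsClassSet T) (hram : ∀ v, IsRam L v → v ∈ T) :
    hOne (galU σ) (Module.finrank K L) (tUnit (primesAbove L T)) = 1 := by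
  rw [hOne, Subgroup.relIndex_eq_one]
  rintro u ⟨hu, hN⟩
  obtain ⟨x, rfl⟩ := exists_diff_eq hσ hN
  have hinv : ∀ Q, belowP K Q ∉ T → ord (galPrime σ Q) x = ord Q x := fun Q hQ => by
    have h := hu (galPrime σ Q) (by rwa [mem_primesAbove, belowP_galPrime])
    rw [diffHom_apply, ord_div, ord_galU] at h
    linarith
  choose q hq using exists_belowP K L
  have hconst : ∀ Q, belowP K Q ∉ T → ord Q x = ord (q (belowP K Q)) x := fun Q hQ => by
    obtain ⟨i, hi⟩ := exists_iterate_eq hσ (hq (belowP K Q))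
    have key : ∀ j : ℕ, ord ((galPrime σ)^[j] (q (belowP K Q))) x = ord (q (belowP K Q)) x := by
      intro j
      induction j with
      | zero => rfl
      | succ j ih =>
        rw [Function.iterate_succ_apply', hinv _ (by
          rw [galPrime_iterate, belowP_galPrime, hq]; exact hQ), ih]
    conv_lhs => rw [← hi]
    exact key i
  have hfin : {v | v ∉ T ∧ ord (q v) x ≠ 0}.Finite :=
    ((finite_ord_ne_zero x).image (belowP K)).subset fun v hv => ⟨q v, hv.2, hq v⟩
  obtain ⟨a, ha⟩ := hcl.exists_ord (fun v => ord (q v) x) hfin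
  refine ⟨x / baseU a, fun Q hQ => ?_, ?_⟩
  · rw [mem_primesAbove] at hQ
    rw [ord_div, ord_baseU, eIdx_eq_one fun h => hQ (hram _ h), ha _ hQ, hconst Q hQ]
    simp
  · simp [diffHom_apply, galU_baseU]

omit hσ

/-! ### The families of units -/

/-- The logarithm at an infinite place, with multiplicity. -/
def logAt (w : InfinitePlace L) (x : Lˣ) : ℝ := (mult w : ℝ) * Real.log (w (x : L))

theorem logAt_one (w : InfinitePlace L) : logAt w (1 : Lˣ) = 0 := by simp [logAt]

theorem logAt_mul (w : InfinitePlace L) (x y : Lˣ) :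
    logAt w (x * y) = logAt w x + logAt w y := by
  rw [logAt, logAt, logAt, Units.val_mul, map_mul, Real.log_mul (by simp) (by simp), mul_add]

theorem logAt_zpow (w : InfinitePlace L) (x : Lˣ) (k : ℤ) :
    logAt w (x ^ k) = k * logAt w x := by
  rw [logAt, logAt, Units.val_zpow_eq_zpow_val, map_zpow₀, Real.log_zpow]
  ring

theorem logAt_prod (w : InfinitePlace L) {ι : Type*} (s : Finset ι) (f : ι → Lˣ) :
    logAt w (∏ i ∈ s, f i) = ∑ i ∈ s, logAt w (f i) := by
  induction s using Finset.induction with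
  | empty => simp [logAt_one]
  | insert d s hd ih => rw [prod_insert hd, sum_insert hd, logAt_mul, ih]

theorem logAt_galU (g : L ≃ₐ[K] L) (w : InfinitePlace L) (x : Lˣ) :
    logAt (g • w) (galU g x) = logAt w x := by
  simp only [logAt, mult, isReal_smul_iff, galU_val, InfinitePlace.smul_apply,
    AlgEquiv.symm_apply_apply]

theorem exists_intUnits_galU (g : L ≃ₐ[K] L) {x : Lˣ} (hx : ∃ u, intUnits u = x) :
    ∃ u, intUnits u = galU g x := by
  obtain ⟨u, rfl⟩ := hx
  refine exists_intUnits_eq fun Q => ?_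
  rw [← galPrime_one (K := K) Q, ← mul_inv_cancel g, galPrime_mul, ord_galU, ord_intUnits]

theorem prod_stabilizer_fixed {W : Type*} [MulAction (L ≃ₐ[K] L) W] (w : W) (x : Lˣ)
    (d : L ≃ₐ[K] L) (hd : d • w = w) :
    galU d (∏ e ∈ Finset.univ.filter (fun e : L ≃ₐ[K] L => e • w = w), galU e x) =
      ∏ e ∈ Finset.univ.filter (fun e : L ≃ₐ[K] L => e • w = w), galU e x := by
  rw [map_prod]
  refine Finset.prod_nbij' (fun e => d * e) (fun e => d⁻¹ * e) (fun e he => ?_)
    (fun e he => ?_) (fun e _ => inv_mul_cancel_left d e) (fun e _ => mul_inv_cancel_left d e)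
    fun e _ => Units.ext rfl
  · simp only [Finset.mem_filter, Finset.mem_univ, true_and] at he ⊢
    rw [mul_smul, he, hd]
  · simp only [Finset.mem_filter, Finset.mem_univ, true_and] at he ⊢
    rw [mul_smul, he, inv_smul_eq_iff, hd]

/-- **Units small away from one infinite place**, equivariantly. -/
theorem exists_place_units :
    ∃ uI : InfinitePlace L → Lˣ, (∀ w, (∃ u, intUnits u = uI w) ∧
      ∀ w', w' ≠ w → logAt w' (uI w) < 0) ∧
      ∀ (g : L ≃ₐ[K] L) w, uI (g • w) = galU g (uI w) := by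
  refine exists_equivariant (K := K)
    (fun (w : InfinitePlace L) x => (∃ u, intUnits u = x) ∧ ∀ w', w' ≠ w → logAt w' x < 0)
    (fun g w x h => ⟨exists_intUnits_galU g h.1, fun w' hw' => ?_⟩) fun w => ?_
  · rw [← smul_inv_smul g w', logAt_galU]
    exact h.2 _ fun he => hw' (by rw [← he, smul_inv_smul])
  obtain ⟨u₀, hu₀⟩ := NumberField.Units.dirichletUnitTheorem.exists_unit L w
  refine ⟨∏ e ∈ Finset.univ.filter (fun e : L ≃ₐ[K] L => e • w = w), galU e (intUnits u₀),
    ⟨exists_intUnits_eq fun Q => ?_, fun w' hw' => ?_⟩, fun d hd =>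
      prod_stabilizer_fixed w _ d hd⟩
  · rw [ord_prod]
    refine Finset.sum_eq_zero fun e _ => ?_
    obtain ⟨v, hv⟩ := exists_intUnits_galU e ⟨u₀, rfl⟩
    rw [← hv, ord_intUnits]
  · rw [logAt_prod]
    refine Finset.sum_neg (fun e he => ?_) ⟨1, by simp⟩
    rw [← smul_inv_smul e w', logAt_galU]
    refine mul_neg_of_pos_of_neg (Nat.cast_pos.2 mult_pos) (hu₀ _ fun h => hw' ?_)
    rw [← smul_inv_smul e w', h, (Finset.mem_filter.1 he).2]

/-- The action on the primes. -/
@[reducible] def primeAction : MulAction (L ≃ₐ[K] L) (HeightOneSpectrum (𝓞 L)) where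
  smul := galPrime
  one_smul := galPrime_one
  mul_smul := galPrime_mul

/-- **Elements supported at one prime**, equivariantly. -/
theorem exists_prime_units :
    ∃ uP : HeightOneSpectrum (𝓞 L) → Lˣ, (∀ Q, 0 < ord Q (uP Q) ∧
      ∀ Q', Q' ≠ Q → ord Q' (uP Q) = 0) ∧
      ∀ (g : L ≃ₐ[K] L) Q, uP (galPrime g Q) = galU g (uP Q) := by
  letI := primeAction (K := K) (L := L)
  have hback : ∀ (g : L ≃ₐ[K] L) (Q : HeightOneSpectrum (𝓞 L)) (x : Lˣ),
      ord Q (galU g x) = ord (galPrime g⁻¹ Q) x := fun g Q x => by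
    conv_lhs => rw [← galPrime_one (K := K) Q, ← mul_inv_cancel g, galPrime_mul, ord_galU]
  refine exists_equivariant (K := K)
    (fun (Q : HeightOneSpectrum (𝓞 L)) x => 0 < ord Q x ∧ ∀ Q', Q' ≠ Q → ord Q' x = 0)
    (fun g Q x h => ⟨by rw [show g • Q = galPrime g Q from rfl, ord_galU]; exact h.1,
      fun Q' hQ' => ?_⟩) fun Q => ?_
  · rw [hback]
    refine h.2 _ fun he => hQ' ?_
    rw [← he]
    show Q' = galPrime g (galPrime g⁻¹ Q')
    rw [← galPrime_mul, mul_inv_cancel, galPrime_one]
  obtain ⟨x₀, hx₀, hx₀'⟩ := exists_prime_gen Q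
  refine ⟨∏ e ∈ Finset.univ.filter (fun e : L ≃ₐ[K] L => e • Q = Q), galU e x₀,
    ⟨?_, fun Q' hQ' => ?_⟩, fun d hd => prod_stabilizer_fixed Q _ d hd⟩
  · rw [ord_prod]
    refine Finset.sum_pos (fun e he => ?_) ⟨1, by simp⟩
    rw [← (Finset.mem_filter.1 he).2, show e • Q = galPrime e Q from rfl, ord_galU]
    exact hx₀
  · rw [ord_prod]
    refine Finset.sum_eq_zero fun e he => ?_
    rw [hback]
    refine hx₀' _ fun h => hQ' ?_
    have h' : galPrime e (galPrime e⁻¹ Q') = galPrime e Q := congrArg _ h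
    rw [← galPrime_mul, mul_inv_cancel, galPrime_one] at h'
    exact h'.trans (Finset.mem_filter.1 he).2

/-! ### The lattice -/

/-- The infinite places and the chosen primes. -/
abbrev PlaceSet (L : Type*) [Field L] [NumberField L]
    (T' : Finset (HeightOneSpectrum (𝓞 L))) :=
  InfinitePlace L ⊕ {Q // Q ∈ T'}

variable (uI : InfinitePlace L → Lˣ) (uP : HeightOneSpectrum (𝓞 L) → Lˣ)
  (T' : Finset (HeightOneSpectrum (𝓞 L)))

/-- The monomials in the families, with the degree at infinity. -/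
def latHom : Multiplicative (PlaceSet L T' → ℤ) →* Lˣ × Multiplicative ℤ :=
  MonoidHom.mk' (fun x =>
    ((∏ w : InfinitePlace L, uI w ^ Multiplicative.toAdd x (Sum.inl w)) *
        ∏ Q : {Q // Q ∈ T'}, uP Q.1 ^ Multiplicative.toAdd x (Sum.inr Q),
      Multiplicative.ofAdd (∑ w : InfinitePlace L, Multiplicative.toAdd x (Sum.inl w))))
    fun x y => by
      simp [zpow_add, Finset.prod_mul_distrib, Finset.sum_add_distrib, ofAdd_add,
        mul_mul_mul_comm]

variable {uI uP}
  (huI : ∀ w, (∃ u, intUnits u = uI w) ∧ ∀ w', w' ≠ w → logAt w' (uI w) < 0)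
  (huP : ∀ Q, 0 < ord Q (uP Q) ∧ ∀ Q', Q' ≠ Q → ord Q' (uP Q) = 0)

include huI huP in
theorem ord_latHom (x : Multiplicative (PlaceSet L T' → ℤ)) (Q : {Q // Q ∈ T'}) :
    ord Q.1 (latHom uI uP T' x).1 =
      Multiplicative.toAdd x (Sum.inr Q) * ord Q.1 (uP Q.1) := by
  show ord Q.1 (_ * _) = _
  rw [ord_mul, ord_prod, ord_prod, Finset.sum_eq_zero fun w _ => ?_, zero_add,
    Fintype.sum_eq_single Q fun Q' h => ?_, ord_zpow]
  · rw [ord_zpow, (huP Q'.1).2 _ fun he => h (Subtype.ext he.symm), mul_zero]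
  · obtain ⟨e, he⟩ := (huI w).1
    rw [ord_zpow, ← he, ord_intUnits, mul_zero]

/-- A matrix with negative entries off the diagonal and columns summing to zero. -/
theorem eq_zero_of_columns {ι : Type*} [Fintype ι] (M : ι → ι → ℝ)
    (hoff : ∀ i j, i ≠ j → M i j < 0) (hcol : ∀ j, ∑ i, M i j = 0) (a : ι → ℤ)
    (hsum : ∑ j, a j = 0) (hker : ∀ i, ∑ j, (a j : ℝ) * M i j = 0) : a = 0 := by
  by_contra hne
  obtain ⟨w, hw⟩ := Function.ne_iff.1 hne
  set P := Finset.univ.filter fun j => 0 < a j
  have hP : P.Nonempty := by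
    by_contra h
    rw [Finset.not_nonempty_iff_eq_empty, Finset.filter_eq_empty_iff] at h
    exact hw ((Finset.sum_eq_zero_iff_of_nonpos fun v hv => not_lt.1 (h hv)).1 hsum w
      (Finset.mem_univ _))
  have hPc : Pᶜ.Nonempty := by
    by_contra h
    rw [Finset.not_nonempty_iff_eq_empty, Finset.compl_eq_empty_iff] at h
    have h0 : 0 < ∑ j, a j := Finset.sum_pos (fun v _ =>
      (Finset.mem_filter.1 (Finset.eq_univ_iff_forall.1 h v)).2) ⟨w, Finset.mem_univ _⟩
    rw [hsum] at h0
    exact lt_irrefl _ h0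
  have hpos : ∀ v ∈ P, 0 < ∑ i ∈ P, M i v := fun v hv => by
    have h := hcol v
    rw [← Finset.sum_add_sum_compl P] at h
    have : ∑ i ∈ Pᶜ, M i v < 0 := Finset.sum_neg (fun i hi =>
      hoff i v fun he => (Finset.mem_compl.1 hi) (he ▸ hv)) hPc
    linarith
  have htot : 0 < ∑ v, (a v : ℝ) * ∑ i ∈ P, M i v := by
    refine Finset.sum_pos' (fun v _ => ?_) ?_
    · by_cases hv : v ∈ P
      · exact mul_nonneg (by exact_mod_cast (Finset.mem_filter.1 hv).2.le) (hpos v hv).le
      · refine mul_nonneg_of_nonpos_of_nonpos ?_ (Finset.sum_nonpos fun i hi =>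
          (hoff i v fun he => hv (he ▸ hi)).le)
        exact_mod_cast not_lt.1 fun h => hv (Finset.mem_filter.2 ⟨Finset.mem_univ _, h⟩)
    · obtain ⟨v, hv⟩ := hP
      exact ⟨v, Finset.mem_univ _, mul_pos (by exact_mod_cast (Finset.mem_filter.1 hv).2)
        (hpos v hv)⟩
  simp only [Finset.mul_sum] at htot
  rw [Finset.sum_comm, Finset.sum_eq_zero fun i _ => hker i] at htot
  exact lt_irrefl _ htot

include huI huP in
theorem latHom_injective : Function.Injective (latHom uI uP T') := by
  rw [injective_iff_map_eq_one]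
  intro x hx
  have hR : ∀ Q : {Q // Q ∈ T'}, Multiplicative.toAdd x (Sum.inr Q) = 0 := fun Q => by
    have h := ord_latHom T' huI huP x Q
    rw [hx, Prod.fst_one, ord_one] at h
    exact (mul_eq_zero.1 h.symm).resolve_right (huP Q.1).1.ne'
  have h1 : (∏ w : InfinitePlace L, uI w ^ Multiplicative.toAdd x (Sum.inl w)) = 1 := by
    have h := congrArg Prod.fst hx
    simpa [latHom, hR] using h
  have ha := eq_zero_of_columns (fun w' w => logAt w' (uI w)) (fun i j h => (huI j).2 i h)
    (fun w => by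
      obtain ⟨e, he⟩ := (huI w).1
      rw [← he]
      exact NumberField.Units.sum_mult_mul_log e)
    (fun w => Multiplicative.toAdd x (Sum.inl w))
    (congrArg (fun y => Multiplicative.toAdd y.2) hx) fun w' => by
      have h := congrArg (logAt w') h1
      rw [logAt_one, logAt_prod] at h
      simpa [logAt_zpow] using h
  refine Multiplicative.ext (funext fun w => ?_)
  rcases w with w | Q
  · exact congrFun ha w
  · exact hR Q

include huI huP in
theorem latHom_mem (x : Multiplicative (PlaceSet L T' → ℤ)) :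
    latHom uI uP T' x ∈ (tUnit T').prod (⊤ : Subgroup (Multiplicative ℤ)) := by
  refine ⟨?_, trivial⟩
  show _ ∈ tUnit T'
  refine mul_mem (prod_mem fun w _ => zpow_mem ?_ _) (prod_mem fun Q' _ => zpow_mem ?_ _)
  · intro Q _
    obtain ⟨e, he⟩ := (huI w).1
    rw [← he, ord_intUnits]
  · exact fun Q hQ => (huP Q'.1).2 _ fun he => hQ (he ▸ Q'.2)

include huI huP in
/-- **The lattice has finite index.** -/
theorem relIndex_range_latHom :
    (latHom uI uP T').range.relIndex ((tUnit T').prod (⊤ : Subgroup (Multiplicative ℤ))) ≠ 0 := by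
  set B := (tUnit T').prod (⊤ : Subgroup (Multiplicative ℤ))
  set ψB : Multiplicative (PlaceSet L T' → ℤ) →* B :=
    (latHom uI uP T').codRestrict B (latHom_mem T' huI huP) with hψB
  let pr : B →* Lˣ := (MonoidHom.fst Lˣ (Multiplicative ℤ)).comp B.subtype
  let o : Additive B →ₗ[ℤ] ({Q // Q ∈ T'} → ℤ) :=
    (AddMonoidHom.mk' (fun b Q => ord Q.1 (pr (Additive.toMul b))) fun a b =>
      funext fun Q => by rw [toMul_add, map_mul, ord_mul]; rfl).toIntLinearMap
  let ι : Additive (𝓞 L)ˣ × ℤ →ₗ[ℤ] Additive B :=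
    (AddMonoidHom.mk' (fun p => Additive.ofMul (⟨(intUnits (Additive.toMul p.1),
        Multiplicative.ofAdd p.2), fun Q _ => ord_intUnits _ Q, trivial⟩ : B)) fun p q => by
      refine Additive.toMul.injective (Subtype.ext (Prod.ext ?_ rfl))
      exact map_mul intUnits _ _).toIntLinearMap
  have hι : LinearMap.range ι = LinearMap.ker o := by
    ext b
    constructor
    · rintro ⟨p, rfl⟩
      exact funext fun Q => ord_intUnits _ _
    · intro hb
      obtain ⟨e, he⟩ := exists_intUnits_eq (x := (Additive.toMul b : B).1.1) fun Q => by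
        by_cases hQ : Q ∈ T'
        · exact congrFun hb ⟨Q, hQ⟩
        · exact (Additive.toMul b : B).2.1 Q hQ
      exact ⟨(Additive.ofMul e, Multiplicative.toAdd (Additive.toMul b : B).1.2),
        Additive.toMul.injective (Subtype.ext (Prod.ext he rfl))⟩
  have hιinj : Function.Injective ι := fun p q h => by
    have h' := congrArg (fun b : Additive B => (Additive.toMul b : B).1) h
    exact Prod.ext (Additive.toMul.injective (intUnits_injective (congrArg Prod.fst h' :)))
      (congrArg Prod.snd h' :)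
  have hker : Module.Finite ℤ (LinearMap.ker o) :=
    hι ▸ Module.Finite.range ι
  have hquot : Module.Finite ℤ (Additive B ⧸ LinearMap.ker o) :=
    Module.Finite.equiv o.quotKerEquivRange.symm
  have : Module.Finite ℤ (Additive B) := Module.Finite.of_submodule_quotient (LinearMap.ker o)
  let F : (PlaceSet L T' → ℤ) →ₗ[ℤ] Additive B :=
    (AddMonoidHom.mk' (fun x => Additive.ofMul (ψB (Multiplicative.ofAdd x))) fun x y => by
      rw [ofAdd_add, map_mul]; rfl).toIntLinearMap
  have hF : Function.Injective F := fun x y h => Multiplicative.ofAdd.injective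
    (latHom_injective T' huI huP (congrArg Subtype.val (Additive.ofMul.injective h) :))
  have hrank : Module.finrank ℤ (Additive B) ≤ Module.finrank ℤ (PlaceSet L T' → ℤ) := by
    have hprod : Module.finrank ℤ (Additive (𝓞 L)ˣ × ℤ) =
        1 + Module.finrank ℤ (Additive (𝓞 L)ˣ) := by
      have h := Submodule.finrank_quotient_add_finrank
        (LinearMap.ker (LinearMap.snd ℤ (Additive (𝓞 L)ˣ) ℤ))
      rwa [LinearEquiv.finrank_eq ((LinearMap.snd ℤ (Additive (𝓞 L)ˣ) ℤ).quotKerEquivOfSurjective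
        LinearMap.snd_surjective), Module.finrank_self, LinearMap.ker_snd,
        LinearMap.finrank_range_of_inj LinearMap.inl_injective, eq_comm] at h
    rw [← Submodule.finrank_quotient_add_finrank (LinearMap.ker o), o.quotKerEquivRange.finrank_eq,
      ← hι, LinearMap.finrank_range_of_inj hιinj, hprod,
      NumberField.Units.finrank_eq, Module.finrank_pi, Fintype.card_sum, NumberField.Units.rank]
    have h1 := Submodule.finrank_le (LinearMap.range o)
    rw [Module.finrank_pi] at h1
    have : 0 < Fintype.card (InfinitePlace L) := Fintype.card_pos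
    omega
  have h0 := Submodule.finrank_quotient_add_finrank (LinearMap.range F)
  rw [LinearMap.finrank_range_of_inj hF] at h0
  have : Finite (Additive B ⧸ LinearMap.range F) :=
    Module.finite_of_fg_torsion _ (Module.finrank_eq_zero_iff_isTorsion.1 (by omega))
  have hr : Subgroup.toAddSubgroup ψB.range = (LinearMap.range F).toAddSubgroup := by
    ext b
    exact ⟨fun ⟨x, hx⟩ => ⟨Multiplicative.toAdd x, congrArg Additive.ofMul hx⟩,
      fun ⟨x, hx⟩ => ⟨Multiplicative.ofAdd x, congrArg Additive.toMul hx⟩⟩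
  have hne : ψB.range.index ≠ 0 := by
    rw [← Subgroup.index_toAddSubgroup, hr]
    have : Finite (Additive B ⧸ (LinearMap.range F).toAddSubgroup) := ‹_›
    exact AddSubgroup.index_ne_zero_of_finite
  rwa [Subgroup.relIndex, show (latHom uI uP T').range.subgroupOf B = ψB.range from ?_]
  ext b
  exact ⟨fun ⟨x, hx⟩ => ⟨x, Subtype.ext hx⟩, fun ⟨x, hx⟩ => ⟨x, congrArg Subtype.val hx⟩⟩

/-! ### A free factor -/

/-- **A trivial free factor multiplies the zeroth group by `n`.** -/
theorem herbrand_prod {M : Type*} [CommGroup M] (s : M →* M) {n : ℕ} (hn : 0 < n)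
    (hs : ∀ x, s^[n] x = x) {A : Subgroup M} (hA : IsStable s A) :
    hOne (s.prodMap (MonoidHom.id (Multiplicative ℤ))) n (A.prod ⊤) = hOne s n A ∧
      hFix (s.prodMap (MonoidHom.id (Multiplicative ℤ))) n (A.prod ⊤) = hFix s n A * n := by
  set s' := s.prodMap (MonoidHom.id (Multiplicative ℤ))
  have hit : ∀ i p, s'^[i] p = (s^[i] p.1, p.2) := fun i => by
    induction i with
    | zero => exact fun p => rfl
    | succ i ih =>
      intro p
      rw [Function.iterate_succ_apply', ih, Function.iterate_succ_apply']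
      rfl
  have hN : ∀ p, normHom s' n p = (normHom s n p.1, p.2 ^ n) := fun p => by
    simp only [normHom_apply, hit]
    refine Prod.ext (Prod.fst_prod ..) ?_
    simp [Prod.snd_prod]
  have hD : ∀ p, diffHom s' p = (diffHom s p.1, 1) := fun p => Prod.ext rfl (div_self' p.2)
  have hinl : Function.Injective (MonoidHom.inl M (Multiplicative ℤ)) := fun a b e =>
    congrArg Prod.fst e
  have hB : IsStable s' (A.prod ⊤) := fun p hp => ⟨hA _ hp.1, trivial⟩
  have hs' : ∀ p, s'^[n] p = p := fun p => by rw [hit, hs]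
  constructor
  · have h1 : (A.prod ⊤).map (diffHom s') = (A.map (diffHom s)).map (MonoidHom.inl M _) := by
      ext p
      constructor
      · rintro ⟨q, hq, rfl⟩
        exact ⟨_, ⟨q.1, hq.1, rfl⟩, (hD q).symm⟩
      · rintro ⟨_, ⟨y, hy, rfl⟩, rfl⟩
        exact ⟨(y, 1), ⟨hy, trivial⟩, hD _⟩
    have h2 : A.prod ⊤ ⊓ (normHom s' n).ker =
        (A ⊓ (normHom s n).ker).map (MonoidHom.inl M _) := by
      ext ⟨y, k⟩
      constructor
      · rintro ⟨hp, hk⟩
        replace hk : normHom s' n (y, k) = 1 := hk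
        rw [hN, Prod.mk_eq_one] at hk
        refine ⟨y, ⟨hp.1, hk.1⟩, Prod.ext rfl (Multiplicative.toAdd.injective ?_)⟩
        have h := congrArg Multiplicative.toAdd hk.2
        rw [toAdd_pow, toAdd_one, nsmul_eq_mul, mul_eq_zero] at h
        exact (h.resolve_left (Nat.cast_ne_zero.2 hn.ne')).symm
      · rintro ⟨z, ⟨hz, hz'⟩, he⟩
        obtain ⟨rfl, rfl⟩ := Prod.mk.inj he
        refine ⟨⟨hz, trivial⟩, ?_⟩
        show normHom s' n (z, 1) = 1
        rw [hN, show normHom s n z = 1 from hz']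
        simp
    rw [hOne, hOne, h1, h2, Subgroup.relIndex_map_map_of_injective _ _ hinl]
  · let f : M × Multiplicative ℤ →* Multiplicative ℤ := MonoidHom.snd _ _
    have h := relIndex_image_ker f (hB.map_norm_le hs')
    have hi : ((A.prod ⊤).map (normHom s' n)).map f =
        Subgroup.zpowers (Multiplicative.ofAdd (n : ℤ)) := by
      ext k
      constructor
      · rintro ⟨_, ⟨p, -, rfl⟩, rfl⟩
        refine ⟨Multiplicative.toAdd p.2, ?_⟩
        show Multiplicative.ofAdd (n : ℤ) ^ Multiplicative.toAdd p.2 = (normHom s' n p).2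
        rw [hN]
        exact Multiplicative.toAdd.injective (by simp [mul_comm])
      · rintro ⟨j, rfl⟩
        refine ⟨normHom s' n (1, Multiplicative.ofAdd j), ⟨_, ⟨one_mem A, trivial⟩, rfl⟩, ?_⟩
        show (normHom s' n (1, Multiplicative.ofAdd j)).2 = _
        rw [hN]
        exact Multiplicative.toAdd.injective (by simp [mul_comm])
    have htop : (A.prod ⊤ ⊓ (diffHom s').ker).map f = ⊤ := by
      refine eq_top_iff.2 fun k _ => ⟨(1, k), ⟨⟨one_mem A, trivial⟩, ?_⟩, rfl⟩
      show diffHom s' (1, k) = 1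
      rw [hD]
      simp
    have hk1 : (A.prod ⊤).map (normHom s' n) ⊓ f.ker =
        (A.map (normHom s n)).map (MonoidHom.inl M _) := by
      ext p
      constructor
      · rintro ⟨⟨q, hq, rfl⟩, hp⟩
        refine ⟨_, ⟨q.1, hq.1, rfl⟩, ?_⟩
        exact Prod.ext (by rw [hN]; rfl) (MonoidHom.mem_ker.1 hp).symm
      · rintro ⟨_, ⟨y, hy, rfl⟩, rfl⟩
        exact ⟨⟨(y, 1), ⟨hy, trivial⟩, by rw [hN]; simp⟩, rfl⟩
    have hk2 : A.prod ⊤ ⊓ (diffHom s').ker ⊓ f.ker =
        (A ⊓ (diffHom s).ker).map (MonoidHom.inl M _) := by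
      ext p
      constructor
      · rintro ⟨⟨hp1, hp2⟩, hp3⟩
        replace hp2 : diffHom s' p = 1 := hp2
        rw [hD] at hp2
        exact ⟨p.1, ⟨hp1.1, congrArg Prod.fst hp2⟩,
          Prod.ext rfl (MonoidHom.mem_ker.1 hp3).symm⟩
      · rintro ⟨y, ⟨hy, hy'⟩, rfl⟩
        refine ⟨⟨⟨hy, trivial⟩, ?_⟩, rfl⟩
        show diffHom s' (y, 1) = 1
        rw [hD]
        exact Prod.ext hy' rfl
    rw [hi, htop, hk1, hk2, Subgroup.relIndex_map_map_of_injective _ _ hinl,
      Subgroup.relIndex_top_right] at h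
    rw [hFix, hFix, ← h, mul_comm]
    congr 1
    let g : Multiplicative ℤ →* Multiplicative (ZMod n) :=
      (Int.castAddHom (ZMod n)).toMultiplicative
    have hg : Subgroup.zpowers (Multiplicative.ofAdd (n : ℤ)) = g.ker := by
      ext k
      rw [Subgroup.mem_zpowers_iff, MonoidHom.mem_ker]
      have he : g k = 1 ↔ ((Multiplicative.toAdd k : ℤ) : ZMod n) = 0 := Iff.rfl
      rw [he, ZMod.intCast_zmod_eq_zero_iff_dvd]
      constructor
      · rintro ⟨j, rfl⟩
        exact ⟨j, by simp [mul_comm]⟩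
      · rintro ⟨j, hj⟩
        exact ⟨j, Multiplicative.toAdd.injective (by simp [hj, mul_comm])⟩
    rw [hg, Subgroup.index_ker, MonoidHom.range_eq_top.2 fun y => ?_, Nat.card_congr
      Subgroup.topEquiv.toEquiv, Nat.card_congr Multiplicative.toAdd, Nat.card_zmod]
    obtain ⟨j, hj⟩ := ZMod.intCast_surjective (n := n) (Multiplicative.toAdd y)
    exact ⟨Multiplicative.ofAdd j, Multiplicative.toAdd.injective hj⟩

include hσ

/-! ### The count -/

/-- **The Herbrand quotient of the units outside `T`.** -/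
theorem hFix_tUnit (hcl : IsClassSet T) (hram : ∀ v, IsRam L v → v ∈ T) :
    hFix (galU σ) (Module.finrank K L) (tUnit (primesAbove L T)) * Module.finrank K L =
      (∏ v : InfinitePlace K, infIdx L v) * ∏ v ∈ T, finIdx L v := by
  set n := Module.finrank K L with hn
  set T' := primesAbove L T with hT'
  obtain ⟨uI, huI, huIg⟩ := exists_place_units (K := K) (L := L)
  obtain ⟨uP, huP, huPg⟩ := exists_prime_units (K := K) (L := L)
  have hstep : ∀ (g : L ≃ₐ[K] L) (Q : {Q // Q ∈ T'}), galPrime g Q.1 ∈ T' := fun g Q => by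
    rw [mem_primesAbove, belowP_galPrime, ← mem_primesAbove]; exact Q.2
  let τ : PlaceSet L T' → PlaceSet L T' :=
    Sum.map (fun w => σ⁻¹ • w) fun Q => ⟨galPrime σ⁻¹ Q.1, hstep _ Q⟩
  let π : PlaceSet L T' → InfinitePlace K ⊕ {v // v ∈ T} :=
    Sum.map (fun w => w.comap (algebraMap K L)) fun Q => ⟨belowP K Q.1, mem_primesAbove.1 Q.2⟩
  have hit : ∀ i w, τ^[i] w = Sum.map (fun w => σ⁻¹ ^ i • w)
      (fun Q : {Q // Q ∈ T'} => ⟨galPrime (σ⁻¹ ^ i) Q.1, hstep _ Q⟩) w := by
    intro i
    induction i with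
    | zero => rintro (w | Q) <;> simp [galPrime_one]
    | succ i ih =>
      intro w
      rw [Function.iterate_succ_apply', ih]
      rcases w with w | Q <;> simp [τ, pow_succ', mul_smul, galPrime_mul]
  have hτn : ∀ w, τ^[n] w = w := fun w => by
    rw [hit, inv_pow, hn, pow_finrank_eq_one hσ, inv_one]
    rcases w with w | Q <;> simp [galPrime_one]
  set s' := (galU σ).prodMap (MonoidHom.id (Multiplicative ℤ))
  set ψ := latHom uI uP T'
  have hcomm : ∀ x, ψ (permHom τ x) = s' (ψ x) := fun x => by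
    refine Prod.ext ?_ ?_
    · show (∏ w : InfinitePlace L, uI w ^ Multiplicative.toAdd x (Sum.inl (σ⁻¹ • w))) *
          ∏ Q : {Q // Q ∈ T'},
            uP Q.1 ^ Multiplicative.toAdd x (Sum.inr ⟨galPrime σ⁻¹ Q.1, hstep _ Q⟩) =
        galU σ (_ * _)
      rw [map_mul, map_prod, map_prod]
      congr 1
      · exact Fintype.prod_equiv (MulAction.toPerm σ⁻¹) _ _ fun w => by
          rw [map_zpow, MulAction.toPerm_apply, ← huIg, smul_inv_smul]
      · let e : Equiv.Perm {Q // Q ∈ T'} :=
          { toFun := fun Q => ⟨galPrime σ⁻¹ Q.1, hstep _ Q⟩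
            invFun := fun Q => ⟨galPrime σ Q.1, hstep _ Q⟩
            left_inv := fun Q => Subtype.ext (by
              show galPrime σ (galPrime σ⁻¹ Q.1) = Q.1
              rw [← galPrime_mul, mul_inv_cancel, galPrime_one])
            right_inv := fun Q => Subtype.ext (by
              show galPrime σ⁻¹ (galPrime σ Q.1) = Q.1
              rw [← galPrime_mul, inv_mul_cancel, galPrime_one]) }
        exact Fintype.prod_equiv e _ _ fun Q => by
          rw [map_zpow]
          show uP Q.1 ^ _ = galU σ (uP (galPrime σ⁻¹ Q.1)) ^ _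
          rw [← huPg, ← galPrime_mul, mul_inv_cancel, galPrime_one]
          rfl
    · show Multiplicative.ofAdd (∑ w : InfinitePlace L, Multiplicative.toAdd x (Sum.inl (σ⁻¹ • w)))
        = Multiplicative.ofAdd (∑ w : InfinitePlace L, Multiplicative.toAdd x (Sum.inl w))
      congr 1
      exact Fintype.sum_equiv (MulAction.toPerm σ⁻¹) _ _ fun _ => rfl
  have hper : ∀ x, (galU σ)^[n] x = x := galU_period (pow_finrank_eq_one hσ)
  have hs' : ∀ p, s'^[n] p = p := fun p => by
    have key : ∀ i, s'^[i] p = ((galU σ)^[i] p.1, p.2) := fun i => by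
      induction i with
      | zero => rfl
      | succ i ih =>
        rw [Function.iterate_succ_apply', ih, Function.iterate_succ_apply']
        rfl
    rw [key, hper]
  obtain ⟨hcross, -, -⟩ := herbrand_mul hs'
    (A := (tUnit T').prod ⊤) (fun p hp => ⟨isStable_tUnit T σ _ hp.1, trivial⟩)
    (B := ψ.range) (by rintro _ ⟨x, rfl⟩; exact ⟨permHom τ x, hcomm x⟩)
    (by rintro _ ⟨x, rfl⟩; exact latHom_mem T' huI huP x) (relIndex_range_latHom T' huI huP)
  obtain ⟨hm0, hm1⟩ := herbrand_map (n := n) (s := permHom τ) (s' := s') ψ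
    (latHom_injective T' huI huP) hcomm ⊤
  rw [← MonoidHom.range_eq_map] at hm0 hm1
  have hperm := herbrand_perm τ Module.finrank_pos hτn π
    (by
      rintro (v | v)
      · obtain ⟨w, hw⟩ := InfinitePlace.comap_surjective (K := L) v
        exact ⟨Sum.inl w, congrArg Sum.inl hw⟩
      · obtain ⟨Q, hQ⟩ := exists_belowP K L v.1
        exact ⟨Sum.inr ⟨Q, mem_primesAbove.2 (hQ ▸ v.2)⟩,
          congrArg Sum.inr (Subtype.ext hQ)⟩)
    (by
      rintro (w | Q)
      · exact congrArg Sum.inl (comap_smul_place hσ _ w)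
      · exact congrArg Sum.inr (Subtype.ext (belowP_galPrime _ _)))
    (by
      rintro (w | Q) (w' | Q') h <;> simp only [π, Sum.map_inl, Sum.map_inr, reduceCtorEq,
        Sum.inl.injEq, Sum.inr.injEq, Subtype.mk.injEq] at h
      · obtain ⟨i, hi⟩ := exists_iterate_place (inv_generator hσ) h
        rw [smul_iterate_pow] at hi
        exact ⟨i, by rw [hit]; exact congrArg Sum.inl hi⟩
      · obtain ⟨i, hi⟩ := exists_iterate_eq (inv_generator hσ) h
        rw [galPrime_iterate] at hi
        exact ⟨i, by rw [hit]; exact congrArg Sum.inr (Subtype.ext hi)⟩)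
    (Sum.elim (infIdx L) fun v => finIdx L v.1) (by
      rintro (v | v)
      · rw [Sum.elim_inl, ← infIdx_mul_card hσ v]
        congr 1
        refine (Nat.card_eq_of_bijective (fun w : {w : InfinitePlace L //
            w.comap (algebraMap K L) = v} => (⟨Sum.inl w.1, congrArg Sum.inl w.2⟩ :
              {p : PlaceSet L T' // π p = Sum.inl v})) ⟨fun a b h => Subtype.ext
            (Sum.inl_injective (congrArg Subtype.val h)), ?_⟩).symm
        rintro ⟨w | Q, h⟩
        · exact ⟨⟨w, Sum.inl.inj h⟩, rfl⟩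
        · simp [π] at h
      · rw [Sum.elim_inr, ← finIdx_mul_card hσ v.1]
        congr 1
        have hmem : ∀ Q : {Q : HeightOneSpectrum (𝓞 L) // belowP K Q = v.1}, Q.1 ∈ T' := fun Q =>
          mem_primesAbove.2 (by rw [Q.2]; exact v.2)
        refine (Nat.card_eq_of_bijective (fun Q : {Q : HeightOneSpectrum (𝓞 L) //
            belowP K Q = v.1} => (⟨Sum.inr ⟨Q.1, hmem Q⟩,
              congrArg Sum.inr (Subtype.ext Q.2)⟩ : {p : PlaceSet L T' // π p = Sum.inr v}))
          ⟨fun a b h => Subtype.ext (congrArg Subtype.val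
            (Sum.inr_injective (congrArg Subtype.val h)) :), ?_⟩).symm
        rintro ⟨w | Q, h⟩
        · simp [π] at h
        · exact ⟨⟨Q.1, congrArg Subtype.val (Sum.inr.inj h)⟩, rfl⟩)
  obtain ⟨hB1, hB0⟩ := herbrand_prod (galU σ) Module.finrank_pos hper (isStable_tUnit T σ)
  rw [hm1, hperm.2, mul_one, hB0, hm0, hperm.1, hB1, hOne_tUnit hσ T hcl hram, mul_one] at hcross
  rw [hcross, Fintype.prod_sum_type]
  congr 1
  exact Finset.prod_coe_sort T (finIdx L)

end FA.ArtinRec
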